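import Fermat.Agent.S43.Size.DTD

set_option autoImplicit false
set_option linter.style.haveILetI false
set_option linter.unusedSectionVars false

/-!
# S43 / Size / DTDMat : the full matrix `δᵗ δ = [[A,B,C],[B,A,B],[C,B,A]]` and its kernel

`A = s(s+1)`, `B = s T`, `C = T² - s - 1` (`T = T_s` on `KV (FN L) n`);
`det = s (s-1) ((s+1)² - T²)²`.

* `push?_pull?` : the nine entries;
* `ker_abs`     : (pure algebra) `M y = 0 → s (s-1) E² y_i = 0`, `E = (s+1)² - T²`;
* `dtd_ker`     : the same for `δᵗ δ`.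
-/

noncomputable section

namespace Fermat.Agent.S43.Size

open AlgebraicCurve ModularCurve Fermat.Agent.S24 Fermat.Agent.GAL Fermat.Agent.GAL.Hecke
  Fermat.Agent.DR Fermat.Agent.DR.Hecke Fermat.Agent.S36 Fermat.Agent.S36.Hecke
  Fermat.Agent.GAL.NormFormula

variable {L s : ℕ} [NeZero L] [NeZero s] (n : ℕ)

/-- `b_* a^* = T_s`. -/
theorem betaKV_aPull (hs : s.Prime) (hsL : ¬ s ∣ L) (x : KV Kbar (FN L) n) :
    betaKV L s n (aPull L s n x) = heckeT Kbar L s n x := by
  obtain ⟨u, rfl⟩ := KV.mk_surjective x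
  rw [heckeT_mk (heckeNormPreserves L s n), aPull_mk, betaKV_mk]
  exact congrArg KV.mk (Subtype.ext (Units.ext (normAlong_beta_alpha hs hsL _)))

/-- `b_* b^* = s + 1`. -/
theorem betaKV_bPull' (hs : s.Prime) (hsL : ¬ s ∣ L) (x : KV Kbar (FN L) n) :
    betaKV L s n (bPull L s n x) = (s + 1) • x := by
  obtain ⟨u, rfl⟩ := KV.mk_surjective x
  rw [bPull_mk, betaKV_mk, ← KV.mk_pow]
  congr 1
  apply Subtype.ext
  apply Units.ext
  letI := algebraAlong (heckeBetaBar Kbar L s)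
  show Algebra.norm (FN L) (algebraMap (FN L) (FN (L * s)) ((u : (FN L)ˣ) : FN L)) = _
  rw [Algebra.norm_algebraMap]
  have h : Module.finrank (FN L) (FN (L * s)) = s + 1 := by
    have h1 : finrankAlong Kbar (heckeBetaBar Kbar L s) = s + 1 := by
      rw [finrankAlong_beta_eq_alpha]
      exact finrankAlong_alpha L s hs hsL
    exact h1
  rw [h]
  rfl

variable {n}

local notation "TT" => heckeT Kbar L s n

theorem push1_pull1 (hs : s.Prime) (hsL : ¬ s ∣ L) (x : KV Kbar (FN L) n) :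
    push1 L s n (pull1 L s n x) = (s * (s + 1)) • x := by
  simp only [push1, pull1, AddMonoidHom.comp_apply]
  rw [alphaKV_aPull n hs, map_nsmul, alphaKV_aPull' n hs hsL, smul_smul]

theorem push1_pullS (hs : s.Prime) (x : KV Kbar (FN L) n) :
    push1 L s n (pullS L s n x) = s • TT x := by
  simp only [push1, pullS, AddMonoidHom.comp_apply]
  rw [alphaKV_aPull n hs, map_nsmul, alphaKV_bPull]

theorem push1_pullS2 (hs : s.Prime) (hsL : ¬ s ∣ L) (x : KV Kbar (FN L) n) :
    push1 L s n (pullS2 L s n x) = TT (TT x) - (s + 1) • x := by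
  simp only [push1, pullS2, AddMonoidHom.comp_apply]
  have h1 := alphaKV_bPull_bPull n hs hsL x
  have h2 : alphaKV (L * s) s n (bPull (L * s) s n (bPull L s n x)) =
      bPull L s n (heckeT Kbar L s n x) - aPull L s n x := by
    rw [← h1]; abel
  rw [h2, map_sub, alphaKV_bPull, alphaKV_aPull' n hs hsL]

theorem pushS_pull1 (hs : s.Prime) (hsL : ¬ s ∣ L) (x : KV Kbar (FN L) n) :
    pushS L s n (pull1 L s n x) = s • TT x := by
  simp only [pushS, pull1, AddMonoidHom.comp_apply]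
  have h1 := betaKV_aPull_aPull n hs hsL x
  have h2 : betaKV (L * s) s n (aPull (L * s) s n (aPull L s n x)) =
      aPull L s n (heckeT Kbar L s n x) - bPull L s n x := by
    rw [← h1]; abel
  rw [h2, map_sub, alphaKV_bPull, alphaKV_aPull' n hs hsL, add_smul, one_smul, add_sub_cancel_right]

theorem pushS_pullS (hs : s.Prime) (hsL : ¬ s ∣ L) (x : KV Kbar (FN L) n) :
    pushS L s n (pullS L s n x) = (s * (s + 1)) • x := by
  simp only [pushS, pullS, AddMonoidHom.comp_apply]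
  rw [aPull_bPull, betaKV_bPull n hs, map_nsmul, alphaKV_aPull' n hs hsL, smul_smul]

theorem pushS_pullS2 (hs : s.Prime) (x : KV Kbar (FN L) n) :
    pushS L s n (pullS2 L s n x) = s • TT x := by
  simp only [pushS, pullS2, AddMonoidHom.comp_apply]
  rw [betaKV_bPull n hs, map_nsmul, alphaKV_bPull]

theorem pushS2_pull1 (hs : s.Prime) (hsL : ¬ s ∣ L) (x : KV Kbar (FN L) n) :
    pushS2 L s n (pull1 L s n x) = TT (TT x) - (s + 1) • x := by
  simp only [pushS2, pull1, AddMonoidHom.comp_apply]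
  have h1 := betaKV_aPull_aPull n hs hsL x
  have h2 : betaKV (L * s) s n (aPull (L * s) s n (aPull L s n x)) =
      aPull L s n (heckeT Kbar L s n x) - bPull L s n x := by
    rw [← h1]; abel
  rw [h2, map_sub, betaKV_aPull n hs hsL, betaKV_bPull' n hs hsL]

theorem pushS2_pullS (hs : s.Prime) (hsL : ¬ s ∣ L) (x : KV Kbar (FN L) n) :
    pushS2 L s n (pullS L s n x) = s • TT x := by
  simp only [pushS2, pullS, AddMonoidHom.comp_apply]
  rw [aPull_bPull, betaKV_bPull n hs, map_nsmul, betaKV_aPull n hs hsL]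

theorem pushS2_pullS2 (hs : s.Prime) (hsL : ¬ s ∣ L) (x : KV Kbar (FN L) n) :
    pushS2 L s n (pullS2 L s n x) = (s * (s + 1)) • x := by
  simp only [pushS2, pullS2, AddMonoidHom.comp_apply]
  rw [betaKV_bPull n hs, map_nsmul, betaKV_bPull' n hs hsL, smul_smul]

/-- **Pure algebra**: the kernel of `[[A,B,C],[B,A,B],[C,B,A]]` is killed by the determinant
`s (s-1) E²`, `E = (s+1)² - T²`. -/
theorem ker_abs {Y : Type*} [AddCommGroup Y] (T : Y →+ Y) (s : ℤ) (y0 y1 y2 : Y)
    (h0 : (s * (s + 1)) • y0 + s • T y1 + (T (T y2) - (s + 1) • y2) = 0)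
    (h1 : s • T y0 + (s * (s + 1)) • y1 + s • T y2 = 0)
    (h2 : (T (T y0) - (s + 1) • y0) + s • T y1 + (s * (s + 1)) • y2 = 0) :
    ∀ E : Y →+ Y, (∀ y, E y = ((s + 1) ^ 2) • y - T (T y)) →
      (s * (s - 1)) • E (E y0) = 0 ∧ (s * (s - 1)) • E (E y1) = 0 ∧
        (s * (s - 1)) • E (E y2) = 0 := by
  intro E hE
  let T' : AddMonoid.End Y := T
  letI : Module (Polynomial ℤ) Y :=
    Module.compHom Y (Polynomial.aeval (R := ℤ) T').toRingHom
  have hX : ∀ y : Y, T y = (Polynomial.X : Polynomial ℤ) • y := by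
    intro y
    have h : Polynomial.aeval (R := ℤ) T' Polynomial.X = T' := Polynomial.aeval_X _
    exact (DFunLike.congr_fun h y).symm
  have hC : ∀ (c : ℤ) (y : Y), c • y = (Polynomial.C c : Polynomial ℤ) • y := by
    intro c y
    have h : Polynomial.aeval (R := ℤ) T' (Polynomial.C c) = algebraMap ℤ (AddMonoid.End Y) c :=
      Polynomial.aeval_C _ _
    have h2 : (Polynomial.C c : Polynomial ℤ) • y = (algebraMap ℤ (AddMonoid.End Y) c) y :=
      DFunLike.congr_fun h y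
    rw [h2]
    simp
  simp only [hE, hX, hC] at h0 h1 h2 ⊢
  set t : Polynomial ℤ := Polynomial.X with ht
  set c : Polynomial ℤ := Polynomial.C s with hc
  simp only [map_mul, map_add, map_sub, map_one, map_pow, ← hc] at h0 h1 h2 ⊢
  refine ⟨?_, ?_, ?_⟩
  · linear_combination (norm := module)
      ((c * (c + 1)) ^ 2 - (c * t) ^ 2) • h0 + (-(c * t) * (c * (c + 1)) + (c * t) * (t ^ 2 - c - 1)) • h1
        + ((c * t) ^ 2 - (c * (c + 1)) * (t ^ 2 - c - 1)) • h2
  · linear_combination (norm := module)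
      (-(c * t) * (c * (c + 1)) + (c * t) * (t ^ 2 - c - 1)) • h0
        + ((c * (c + 1)) ^ 2 - (t ^ 2 - c - 1) ^ 2) • h1
        + (-(c * t) * (c * (c + 1)) + (c * t) * (t ^ 2 - c - 1)) • h2
  · linear_combination (norm := module)
      ((c * t) ^ 2 - (c * (c + 1)) * (t ^ 2 - c - 1)) • h0
        + (-(c * t) * (c * (c + 1)) + (c * t) * (t ^ 2 - c - 1)) • h1
        + ((c * (c + 1)) ^ 2 - (c * t) ^ 2) • h2

variable (L s n) in
/-- `E = (s+1)² - T_s²` on `KV (FN L) n`. -/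
def eOp : KV Kbar (FN L) n →+ KV Kbar (FN L) n :=
  (((s : ℤ) + 1) ^ 2) • AddMonoidHom.id _ - (heckeT Kbar L s n).comp (heckeT Kbar L s n)

theorem eOp_apply (y : KV Kbar (FN L) n) :
    eOp L s n y = (((s : ℤ) + 1) ^ 2) • y - TT (TT y) := rfl

variable (L s n) in
/-- `δ (y0, y1, y2) = π₁^* y0 + π_s^* y1 + π_{s²}^* y2`. -/
def dlt (y0 y1 y2 : KV Kbar (FN L) n) : KV Kbar (FN (L * s * s)) n :=
  pull1 L s n y0 + pullS L s n y1 + pullS2 L s n y2

/-- **The kernel of `δᵗ δ`** is killed by `s (s-1) E²`. -/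
theorem dtd_ker (hs : s.Prime) (hsL : ¬ s ∣ L) (y0 y1 y2 : KV Kbar (FN L) n)
    (h0 : push1 L s n (dlt L s n y0 y1 y2) = 0) (h1 : pushS L s n (dlt L s n y0 y1 y2) = 0)
    (h2 : pushS2 L s n (dlt L s n y0 y1 y2) = 0) :
    ((s : ℤ) * ((s : ℤ) - 1)) • eOp L s n (eOp L s n y0) = 0 ∧
      ((s : ℤ) * ((s : ℤ) - 1)) • eOp L s n (eOp L s n y1) = 0 ∧
      ((s : ℤ) * ((s : ℤ) - 1)) • eOp L s n (eOp L s n y2) = 0 := by
  refine ker_abs (heckeT Kbar L s n) (s : ℤ) y0 y1 y2 ?_ ?_ ?_ (eOp L s n) eOp_apply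
  · rw [dlt, map_add, map_add, push1_pull1 hs hsL, push1_pullS hs, push1_pullS2 hs hsL] at h0
    rw [← h0]
    simp only [← natCast_zsmul]
    push_cast
    rfl
  · rw [dlt, map_add, map_add, pushS_pull1 hs hsL, pushS_pullS hs hsL, pushS_pullS2 hs] at h1
    rw [← h1]
    simp only [← natCast_zsmul]
    push_cast
    rfl
  · rw [dlt, map_add, map_add, pushS2_pull1 hs hsL, pushS2_pullS hs hsL, pushS2_pullS2 hs hsL] at h2
    rw [← h2]
    simp only [← natCast_zsmul]
    push_cast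
    rfl

theorem zOf_eq_dlt (x : KV Kbar (FN L) n) :
    zOf L s n x = dlt L s n (s • x) (- TT x) x := by
  rw [zOf_apply, dlt, map_nsmul, map_neg]
  simp only [pull1, pullS, pullS2, AddMonoidHom.comp_apply]
  abel

end Fermat.Agent.S43.Size
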