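import Mathlib

/-!
# S43 / Size / Fin : Theorem G (SIZE, report 420) at ONE finite level, abstract form

No `p^∞`-group and no divisibility.  `J = V_n(L s²)`, `J' = V_n(L)`, `Y = J'³` (`n = p^(3k+1)`, `P = p^k ∥ s - 1`), `G`, `G'`, `GY`
their `θ`-parts, `δ : Y → J`, `δt : J → Y` its transpose, `z = δ ∘ j : J' → J`, `δt (z x) = P • e x`.
`σ` a generator of the image of inertia, `τ = σ^P`, `Nσ = ∑_{i<P} σ^i`.

`size_fin` : for `x ∈ G'` there is `w ∈ G` with `P³ • (Nσ w - z x) = 0`.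

PROOF.  `w` with `δt w = e x`; `ν := P w - z x ∈ ker δt`.  `a := τ ν - ν` is `σ`-fixed, hence old, `a = δ y`, `δt δ y = 0`, so `P y = 0`,
`P a = 0`.  So `b := Nσ (P ν)` is `σ`-fixed, old, `δt b = 0`, `P b = 0`.  Finally `Nσ ν = P (Nσ w - z x)`.
-/

set_option autoImplicit false

namespace Fermat.Agent.S43.SizeFin

variable {J J' Y : Type*} [AddCommGroup J] [AddCommGroup J'] [AddCommGroup Y]

/-- an old, `δt`-trivial element of the `θ`-part is killed by `P`. -/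
theorem old_kill (P : ℕ) (G : AddSubgroup J) (GY : AddSubgroup Y) (δ : Y →+ J) (δt : J →+ Y)
    (σ : J →+ J)
    (hY : ∀ x ∈ G, σ x = x → ∃ y ∈ GY, δ y = x)
    (hK : ∀ y ∈ GY, δt (δ y) = 0 → P • y = 0)
    (a : J) (ha : a ∈ G) (hσ : σ a = a) (ht : δt a = 0) : P • a = 0 := by
  obtain ⟨y, hy, rfl⟩ := hY a ha hσ
  rw [← map_nsmul, hK y hy ht, map_zero]

/-- **Theorem G at a finite level (abstract).** -/
theorem size_fin (P : ℕ) (G : AddSubgroup J) (G' : AddSubgroup J') (GY : AddSubgroup Y)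
    (δ : Y →+ J) (δt : J →+ Y) (σ τ Nσ : J →+ J) (z : J' →+ J) (e : J' →+ Y)
    (hτG : ∀ x ∈ G, τ x ∈ G) (hNG : ∀ x ∈ G, Nσ x ∈ G)
    (hzG : ∀ x ∈ G', z x ∈ G) (heG : ∀ x ∈ G', e x ∈ GY)
    (hN1 : ∀ x, σ (Nσ x) - Nσ x = τ x - x)
    (hN2 : ∀ x, σ x = x → Nσ x = P • x)
    (hN3 : ∀ x, δt (Nσ x) = P • δt x)
    (hτt : ∀ x, δt (τ x) = δt x)
    (hστ : ∀ x ∈ G, σ (τ x - x) = τ x - x)
    (hσz : ∀ x, σ (z x) = z x)
    (hze : ∀ x, δt (z x) = P • e x)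
    (hY : ∀ x ∈ G, σ x = x → ∃ y ∈ GY, δ y = x)
    (hK : ∀ y ∈ GY, δt (δ y) = 0 → P • y = 0)
    (hsurj : ∀ y ∈ GY, ∃ w ∈ G, δt w = y)
    (x : J') (hx : x ∈ G') : ∃ w ∈ G, (P ^ 3) • (Nσ w - z x) = 0 := by
  obtain ⟨w, hw, hwe⟩ := hsurj (e x) (heG x hx)
  refine ⟨w, hw, ?_⟩
  obtain ⟨ν, hν⟩ : ∃ ν, ν = P • w - z x := ⟨_, rfl⟩
  have hνG : ν ∈ G := hν ▸ G.sub_mem (G.nsmul_mem hw P) (hzG x hx)
  have hνt : δt ν = 0 := by rw [hν, map_sub, map_nsmul, hwe, hze, sub_self]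
  -- step 1
  have h1 : P • (τ ν - ν) = 0 :=
    old_kill P G GY δ δt σ hY hK _ (G.sub_mem (hτG ν hνG) hνG) (hστ ν hνG)
      (by rw [map_sub, hτt, sub_self])
  -- step 2
  have h2 : σ (Nσ (P • ν)) = Nσ (P • ν) := by
    have := hN1 (P • ν)
    rw [map_nsmul τ, ← smul_sub, h1] at this
    exact sub_eq_zero.1 this
  have h3 : P • Nσ (P • ν) = 0 :=
    old_kill P G GY δ δt σ hY hK _ (hNG _ (G.nsmul_mem hνG P)) h2
      (by rw [hN3, map_nsmul, hνt, smul_zero, smul_zero])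
  -- conclusion
  have h4 : Nσ ν = P • (Nσ w - z x) := by
    rw [hν, map_sub, map_nsmul, hN2 _ (hσz x), smul_sub]
  rw [map_nsmul, h4, smul_smul, smul_smul] at h3
  rw [show P ^ 3 = P * P * P by ring]
  exact h3

end Fermat.Agent.S43.SizeFin
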