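import Fermat.Agent.S41.Dual.Pair
import Fermat.Agent.GAL.KVGalois

/-!
# S43 / Size / RedKer : the transition maps `KV.red : V_{p^j} → V_p` of a function field

`K` algebraically closed of characteristic `0`, `F` a function field.
* `kvPic_red`          : `kvPic m (red u) = d • kvPic (m d) u`;
* `red_eq_zero_of_nsmul` : `d • u = 0 → red u = 0`;
* `red_surjective`     : `red : V_{p^j} → V_{p^i}` is onto;
* `exists_nsmul_of_red_eq_zero` : `red u = 0` (to level `p`) `→ u ∈ p V_{p^j}`.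
-/

set_option autoImplicit false
set_option linter.unusedSectionVars false

noncomputable section

namespace Fermat.Agent.S43.Size

open AlgebraicCurve Fermat.Agent.Lib.RR Fermat.Agent.GAL Fermat.Agent.S15.H

universe u v

variable {K : Type u} {F : Type v} [Field K] [IsAlgClosed K] [CharZero K] [Field F] [Algebra K F]
  [IsFF K F]

theorem kvPic_red (m d : ℕ) (hm : m ≠ 0) (hd : d ≠ 0) (x : KV K F (m * d)) :
    kvPic (K := K) (F := F) m hm (KV.red (Dvd.intro d rfl) x) =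
      d • kvPic (K := K) (F := F) (m * d) (mul_ne_zero hm hd) x := by
  obtain ⟨u, rfl⟩ := KV.mk_surjective x
  rw [KV.red_mk, kvPic_mk, kvPic_mk]
  have h1 : ∀ D : Divisor.degZero (K := K) (F := F), d • Pic0.mk D = Pic0.mk (d • D) :=
    fun _ => rfl
  rw [h1]
  congr 1
  apply Subtype.ext
  show divM (K := K) m ((u : Fˣ) : F) = d • divM (K := K) (m * d) ((u : Fˣ) : F)
  ext w
  rw [Finsupp.smul_apply, divM_apply, divM_apply]
  obtain ⟨c, hc⟩ := u.2 w
  have hm' : (m : ℤ) ≠ 0 := by exact_mod_cast hm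
  have hd' : (d : ℤ) ≠ 0 := by exact_mod_cast hd
  rw [hc]
  push_cast
  rw [Int.mul_ediv_cancel_left _ (mul_ne_zero hm' hd'), mul_assoc,
    Int.mul_ediv_cancel_left _ hm', nsmul_eq_mul]

theorem red_eq_zero_of_nsmul (m d : ℕ) (hm : m ≠ 0) (hd : d ≠ 0) (x : KV K F (m * d))
    (hx : d • x = 0) : KV.red (Dvd.intro d rfl) x = 0 := by
  apply kvPic_injective (K := K) (F := F) m hm
  rw [kvPic_red m d hm hd, ← map_nsmul, hx, map_zero, map_zero]

theorem pic0_divisible_pow (p : ℕ) (hp : p.Prime) (j : ℕ) (x : Pic0 K F) :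
    ∃ y : Pic0 K F, (p ^ j) • y = x := by
  induction j generalizing x with
  | zero => exact ⟨x, by rw [pow_zero, one_smul]⟩
  | succ j ih =>
    obtain ⟨y, hy⟩ := Fermat.Agent.S19.DIV.divStatement K F p hp x
    obtain ⟨z, hz⟩ := ih y
    exact ⟨z, by rw [pow_succ, mul_comm, mul_smul, hz, hy]⟩

theorem red_surjective (p : ℕ) (hp : p.Prime) (i j : ℕ) (x : KV K F (p ^ i)) :
    ∃ y : KV K F (p ^ i * p ^ j), KV.red (Dvd.intro (p ^ j) rfl) y = x := by
  have hi : p ^ i ≠ 0 := pow_ne_zero _ hp.ne_zero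
  have hj : p ^ j ≠ 0 := pow_ne_zero _ hp.ne_zero
  obtain ⟨Y, hY⟩ := pic0_divisible_pow (K := K) (F := F) p hp j (kvPic (p ^ i) hi x)
  have h1 : (p ^ i * p ^ j) • Y = 0 := by
    rw [mul_smul, hY, nsmul_kvPic]
  obtain ⟨y, hy⟩ := exists_kvPic_eq (K := K) (F := F) (p ^ i * p ^ j) (mul_ne_zero hi hj) Y h1
  refine ⟨y, kvPic_injective (K := K) (F := F) (p ^ i) hi ?_⟩
  rw [kvPic_red _ _ hi hj, hy, hY]

theorem exists_nsmul_of_red_eq_zero (p : ℕ) (hp : p.Prime) (j : ℕ) (x : KV K F (p * p ^ j))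
    (hx : KV.red (Dvd.intro (p ^ j) rfl) x = 0) : ∃ y : KV K F (p * p ^ j), p • y = x := by
  have hj : p ^ j ≠ 0 := pow_ne_zero _ hp.ne_zero
  have h0 : p * p ^ j ≠ 0 := mul_ne_zero hp.ne_zero hj
  have h1 : (p ^ j) • kvPic (K := K) (F := F) (p * p ^ j) h0 x = 0 := by
    rw [← kvPic_red p (p ^ j) hp.ne_zero hj, hx, map_zero]
  obtain ⟨Y, hY⟩ := Fermat.Agent.S19.DIV.divStatement K F p hp (kvPic (p * p ^ j) h0 x)
  have h2 : (p * p ^ j) • Y = 0 := by
    rw [mul_comm, mul_smul, hY, h1]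
  obtain ⟨y, hy⟩ := exists_kvPic_eq (K := K) (F := F) (p * p ^ j) h0 Y h2
  refine ⟨y, kvPic_injective (K := K) (F := F) (p * p ^ j) h0 ?_⟩
  rw [map_nsmul, hy, hY]

end Fermat.Agent.S43.Size
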