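import Fermat.Agent.S43.Size.DTDEquiv
import Fermat.Agent.S43.Size.DTDMat
import Fermat.Agent.S43.Size.RedKer
import Fermat.Agent.S43.Size.Fin
import Fermat.Agent.S43.Tower.Abs

set_option autoImplicit false
set_option linter.style.haveILetI false
set_option linter.unusedSectionVars false

/-!
# S43 / Size / StepDefs : the `θ`-parts `th N n D a` and their formal stabilities

`th N n D a = Tower.gen (T_ℓ)_{ℓ ∤ D} a ≤ KV Kbar (FN N) n`.
-/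

noncomputable section

namespace Fermat.Agent.S43.Size

open AlgebraicCurve ModularCurve Fermat.Agent.S24 Fermat.Agent.GAL Fermat.Agent.GAL.Hecke
  Fermat.Agent.DR Fermat.Agent.DR.Hecke Fermat.Agent.S36 Fermat.Agent.S36.Hecke
  Fermat.Agent.S41.Dual Fermat.Agent.S43.Tower

/-- the primes not dividing `D`. -/
abbrev Idx (D : ℕ) : Type := {ℓ : ℕ // ℓ.Prime ∧ ¬ ℓ ∣ D}

/-- the Hecke operators `T_ℓ`, `ℓ ∤ D`. -/
def TT (N n D : ℕ) [NeZero N] : Idx D → AddMonoid.End (KV Kbar (FN N) n) :=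
  fun ℓ => heckeTtot N n ℓ.1

theorem TT_apply (N n D : ℕ) [NeZero N] (ℓ : Idx D) (x : KV Kbar (FN N) n) :
    TT N n D ℓ x = heckeTtot N n ℓ.1 x := rfl

/-- **the `θ`-part** of `V_n(N)`. -/
def th (N n D : ℕ) [NeZero N] (a : ℕ → ℤ) : AddSubgroup (KV Kbar (FN N) n) :=
  gen (TT N n D) (fun ℓ => a ℓ.1)

/-- the action of a Galois element. -/
def gal (N n : ℕ) (σ : Kbar ≃ₐ[ℚ] Kbar) : AddMonoid.End (KV Kbar (FN N) n) :=
  DistribMulAction.toAddMonoidHom _ σ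

theorem gal_apply (N n : ℕ) (σ : Kbar ≃ₐ[ℚ] Kbar) (x : KV Kbar (FN N) n) :
    gal N n σ x = σ • x := rfl

variable {N n D : ℕ} [NeZero N] {a : ℕ → ℤ}

theorem heckeTtot_smul (ℓ : ℕ) (σ : Kbar ≃ₐ[ℚ] Kbar) (x : KV Kbar (FN N) n) :
    heckeTtot N n ℓ (σ • x) = σ • heckeTtot N n ℓ x := by
  by_cases h : ℓ = 0
  · rw [heckeTtot, dif_pos h]
    simp
  · haveI : NeZero ℓ := ⟨h⟩
    rw [heckeTtot_eq, heckeT_galois_smul]

theorem heckeTtot_red (ℓ : ℕ) {m m' : ℕ} (h : m ∣ m') (x : KV Kbar (FN N) m') :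
    heckeTtot N m ℓ (KV.red h x) = KV.red h (heckeTtot N m' ℓ x) := by
  by_cases h0 : ℓ = 0
  · rw [heckeTtot, dif_pos h0, heckeTtot, dif_pos h0]
    simp
  · haveI : NeZero ℓ := ⟨h0⟩
    rw [heckeTtot_eq, heckeTtot_eq, heckeT_red]

theorem smul_mem_th (σ : Kbar ≃ₐ[ℚ] Kbar) {x : KV Kbar (FN N) n} (hx : x ∈ th N n D a) :
    σ • x ∈ th N n D a :=
  gen_stable (E := gal N n σ) (fun ℓ => by
    ext y
    exact heckeTtot_smul ℓ.1 σ y) hx

theorem red_mem_th {m m' : ℕ} (h : m ∣ m') {x : KV Kbar (FN N) m'} (hx : x ∈ th N m' D a) :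
    KV.red h x ∈ th N m D a :=
  map_mem_gen (KV.red h) (fun ℓ y => heckeTtot_red ℓ.1 h y) hx

theorem not_dvd_of_idx {L s p j : ℕ} (hD : L * s * p ∣ D) (ℓ : Idx D) : ¬ ℓ.1 ∣ L * s * (p * p ^ j) := by
  intro h
  have h1 : ¬ ℓ.1 ∣ L * s * p := fun h' => ℓ.2.2 (h'.trans hD)
  rcases (ℓ.2.1.dvd_mul.1 h) with h | h
  · exact h1 (h.mul_right p)
  · rcases (ℓ.2.1.dvd_mul.1 h) with h | h
    · exact h1 (h.mul_left _)
    · exact h1 ((ℓ.2.1.dvd_of_dvd_pow h).mul_left _)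

end Fermat.Agent.S43.Size
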