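/-
S43 (route TWQ), block SIZE: the inertia groups over a prime `s ∤ L n` act trivially on `V_n(F(L))`; Eichler-Shimura relation
at `s`, for an arbitrary exponent `n` (not only prime powers) and an arbitrary level `L` (not only neat levels).
-/
import Fermat.Agent.DR.S34.Final
import Fermat.Agent.GAL.GeomFinal

set_option autoImplicit false

noncomputable section

namespace Fermat.Agent.S43.Size

open AlgebraicCurve ModularCurve Fermat.Agent.S24 Fermat.Agent.GAL Fermat.Agent.GAL.Hecke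

/-- INJ at all levels and exponents prime to the residue characteristic. -/
theorem inj_all (L n s : ℕ) [NeZero L] (hs : s.Prime) (hsL : ¬ s ∣ L) (hsn : ¬ s ∣ n)
    (A : ValuationSubring Kbar) (hA : A.LiesOverPrime s) : Hecke.INJ L n A :=
  KL.klAll L (NeZero.ne L) A n (natCast_residueField_ne_zero A hs hA hsL)
    (natCast_residueField_ne_zero A hs hA hsn)

/-- **`V_n(F(L))` is unramified at `s ∤ L n`.** -/
theorem kv_unram (L n s : ℕ) [NeZero L] (hn : 0 < n) (hs : s.Prime) (hsL : ¬ s ∣ L) (hsn : ¬ s ∣ n)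
    (A : ValuationSubring (AlgebraicClosure ℚ)) (hA : A.LiesOverPrime s)
    (τ : GQ) (hτ : τ ∈ A.inertiaSubgroupIn ℚ) (x : KV Kbar (FN L) n) : τ • x = x :=
  Hecke.inertia_smul L n s hn hs hsL A hA (inj_all L n s hs hsL hsn A hA) τ hτ x

/-- **Eichler-Shimura at `s ∤ L n`.** -/
theorem kv_ES (L n s : ℕ) [NeZero L] [NeZero s] (hn : 0 < n) (hs : s.Prime) (hsL : ¬ s ∣ L)
    (hsn : ¬ s ∣ n) (A : ValuationSubring (AlgebraicClosure ℚ)) (hA : A.LiesOverPrime s)
    (φ : GQ) (hφ : A.IsFrobeniusAt φ s) (x : KV Kbar (FN L) n) :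
    φ • φ • x - heckeT Kbar L s n (φ • x) + s • x = 0 :=
  Hecke.eichlerShimura L n s hn hs hsL A hA (inj_all L n s hs hsL hsn A hA) φ hφ x

end Fermat.Agent.S43.Size
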