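import Fermat.Agent.S43.Size.EInj
import Fermat.Agent.S43.Size.Unram
import Fermat.Agent.S43.Size.StepDefs

/-!
# S43 / Size / EInjC : `E = (s+1)² - T_s²` is injective on the `θ`-part of `V_n(F(L))`, `n = p ^ e`

Concrete instance of `Size.E_inj` (`Size/EInj.lean`): `Φ` = a Frobenius at `s`, `T = T_s`, Eichler-Shimura = `Size.kv_ES`.
-/

set_option autoImplicit false
set_option linter.style.haveILetI false
set_option linter.unusedSectionVars false
set_option linter.unusedVariables false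

noncomputable section

namespace Fermat.Agent.S43.Size

open AlgebraicCurve ModularCurve Fermat.Agent.S24 Fermat.Agent.GAL Fermat.Agent.GAL.Hecke
  Fermat.Agent.S43.Tower

/-- **(E)** `E = (s+1)² - T_s²` is injective on `th L n D a`, `n = p ^ e`. -/
theorem eOp_inj {p : ℕ} (hp : p.Prime) (L s n e D : ℕ) [NeZero L] [NeZero s] (hn : n = p ^ e)
    (hs : s.Prime) (hsL : ¬ s ∣ L) (hsp : s ≠ p) (hLD : L ∣ D) (a : ℕ → ℤ) (t : ℤ)
    (hs1 : (p : ℤ) ∣ (s : ℤ) - 1) (ht : ¬ (p : ℤ) ∣ t ^ 2 - 4)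
    (A : ValuationSubring Kbar) (hA : A.LiesOverPrime s)
    (φ : GQ) (hφ : A.IsFrobeniusAt φ s)
    (hq : ∀ x ∈ th L n D a, ∃ M : ℕ, (Tower.quad t s (gal L n φ) ^ M) x = 0) :
    ∀ y ∈ th L n D a, eOp L s n y = 0 → y = 0 := by
  intro y hy h0
  haveI : Fact p.Prime := ⟨hp⟩
  have hn0 : 0 < n := by rw [hn]; exact pow_pos hp.pos e
  have hsn : ¬ s ∣ n := by
    rw [hn]
    intro h
    exact hsp ((Nat.prime_dvd_prime_iff_eq hs hp).1 (hs.dvd_of_dvd_pow h))
  refine E_inj p t (s : ℤ) (gal L n φ) (heckeT Kbar L s n) ?_ ?_ hs1 ht (th L n D a) ?_ hq e y hy ?_ ?_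
  · intro x
    change heckeT Kbar L s n (φ • x) = φ • heckeT Kbar L s n x
    exact heckeT_galois_smul L s n φ x
  · intro x
    change φ • φ • x - heckeT Kbar L s n (φ • x) + (s : ℤ) • x = 0
    rw [natCast_zsmul]
    exact kv_ES L n s hn0 hs hsL hsn A hA φ hφ x
  · intro x hx
    exact smul_mem_th φ hx
  · rw [← hn]
    exact KV.nsmul_eq_zero y
  · rw [← eOp_apply]
    exact h0

end Fermat.Agent.S43.Size
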