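import Fermat.Agent.S43.Size.StepDefs

set_option autoImplicit false
set_option linter.style.haveILetI false
set_option linter.unusedSectionVars false

/-!
# S43 / Size / Step : **Theorem G, one step** (report 420), concrete form

`s` a prime, `s ∤ L`, `s = p^k c + 1`, `p ∤ c`, `P = p^k`, `n = p · p^(3k)`.  `σ ∈ G_ℚ` (a generator of the image of the inertia at `s`).
Under the hypotheses
* `hσL`  : `σ` acts trivially on `V_n(L)`                                        (block `Unram`);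
* `hστ`  : `(σ - 1)(σ^P - 1) = 0` on `th (L s s) n`                              (block `Sigma`);
* `hY`   : a `σ`-fixed element of `th (L s s) n` is old                          (block CTRL + `Sigma`);
* `hE`   : `E = (s+1)² - T_s²` is injective on `th L n`                          (TW condition);
* `hsurj`: `δᵗ : th (L s s) n → (th L n)³` is onto                               (blocks `Surj`, `Naka`);
* `hlift`: `KV.red : th L n → th L p` is onto                                    (block `GenRed`);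
every `zOf x`, `x ∈ th L p`, is the norm `∑_{i<P} σ^i w` of some `w ∈ th (L s s) p`.
-/

noncomputable section

namespace Fermat.Agent.S43.Size

open AlgebraicCurve ModularCurve Fermat.Agent.S24 Fermat.Agent.GAL Fermat.Agent.GAL.Hecke
  Fermat.Agent.DR Fermat.Agent.DR.Hecke Fermat.Agent.S36 Fermat.Agent.S36.Hecke
  Fermat.Agent.S41.Dual Fermat.Agent.S43.Tower

attribute [local instance] Fermat.Agent.GAL.Desc.isFF_FF_Kbar

section maps

variable (L s n : ℕ) [NeZero L] [NeZero s]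

/-- `δ` on triples. -/
def dltHom : (KV Kbar (FN L) n × KV Kbar (FN L) n × KV Kbar (FN L) n) →+
    KV Kbar (FN (L * s * s)) n :=
  (pull1 L s n).coprod ((pullS L s n).coprod (pullS2 L s n))

/-- `δᵗ`. -/
def dltT : KV Kbar (FN (L * s * s)) n →+
    (KV Kbar (FN L) n × KV Kbar (FN L) n × KV Kbar (FN L) n) :=
  (push1 L s n).prod ((pushS L s n).prod (pushS2 L s n))

variable {L s n}

theorem dltHom_apply (y : KV Kbar (FN L) n × KV Kbar (FN L) n × KV Kbar (FN L) n) :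
    dltHom L s n y = dlt L s n y.1 y.2.1 y.2.2 := by
  simp only [dltHom, dlt, AddMonoidHom.coprod_apply]
  rw [add_assoc]

theorem dltT_apply (x : KV Kbar (FN (L * s * s)) n) :
    dltT L s n x = (push1 L s n x, pushS L s n x, pushS2 L s n x) := rfl

theorem push1_smul (σ : Kbar ≃ₐ[ℚ] Kbar) (x : KV Kbar (FN (L * s * s)) n) :
    push1 L s n (σ • x) = σ • push1 L s n x := by
  simp only [push1, AddMonoidHom.comp_apply, alphaKV_smul]

theorem pushS_smul (σ : Kbar ≃ₐ[ℚ] Kbar) (x : KV Kbar (FN (L * s * s)) n) :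
    pushS L s n (σ • x) = σ • pushS L s n x := by
  simp only [pushS, AddMonoidHom.comp_apply, alphaKV_smul, betaKV_smul]

theorem pushS2_smul (σ : Kbar ≃ₐ[ℚ] Kbar) (x : KV Kbar (FN (L * s * s)) n) :
    pushS2 L s n (σ • x) = σ • pushS2 L s n x := by
  simp only [pushS2, AddMonoidHom.comp_apply, betaKV_smul]

end maps

section norm

variable {N n : ℕ}

/-- the norm `∑_{i<P} σ^i`. -/
def nrm (N n : ℕ) (σ : Kbar ≃ₐ[ℚ] Kbar) (P : ℕ) : KV Kbar (FN N) n →+ KV Kbar (FN N) n where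
  toFun x := ∑ i ∈ Finset.range P, σ ^ i • x
  map_zero' := by simp
  map_add' x y := by simp [Finset.sum_add_distrib]

theorem nrm_apply (σ : Kbar ≃ₐ[ℚ] Kbar) (P : ℕ) (x : KV Kbar (FN N) n) :
    nrm N n σ P x = ∑ i ∈ Finset.range P, σ ^ i • x := rfl

theorem smul_nrm_sub (σ : Kbar ≃ₐ[ℚ] Kbar) (P : ℕ) (x : KV Kbar (FN N) n) :
    σ • nrm N n σ P x - nrm N n σ P x = σ ^ P • x - x := by
  rw [nrm_apply, Finset.smul_sum]
  have h : ∀ i, σ • σ ^ i • x = σ ^ (i + 1) • x := fun i => by rw [pow_succ', mul_smul]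
  simp only [h]
  have e : ∑ i ∈ Finset.range P, σ ^ (i + 1) • x + σ ^ 0 • x
      = ∑ i ∈ Finset.range P, σ ^ i • x + σ ^ P • x :=
    (Finset.sum_range_succ' (fun i => σ ^ i • x) P).symm.trans (Finset.sum_range_succ _ _)
  rw [pow_zero, one_smul] at e
  rw [sub_eq_sub_iff_add_eq_add, e, add_comm]

theorem pow_smul_of_fixed {σ : Kbar ≃ₐ[ℚ] Kbar} {x : KV Kbar (FN N) n} (h : σ • x = x) (i : ℕ) :
    σ ^ i • x = x := by
  induction i with
  | zero => rw [pow_zero, one_smul]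
  | succ i ih => rw [pow_succ, mul_smul, h, ih]

theorem nrm_of_fixed {σ : Kbar ≃ₐ[ℚ] Kbar} (P : ℕ) {x : KV Kbar (FN N) n} (h : σ • x = x) :
    nrm N n σ P x = P • x := by
  rw [nrm_apply]
  simp only [pow_smul_of_fixed h, Finset.sum_const, Finset.card_range]

theorem nrm_red (σ : Kbar ≃ₐ[ℚ] Kbar) (P : ℕ) {m m' : ℕ} (h : m ∣ m') (x : KV Kbar (FN N) m') :
    KV.red h (nrm N m' σ P x) = nrm N m σ P (KV.red h x) := by
  rw [nrm_apply, nrm_apply, map_sum]
  exact Finset.sum_congr rfl fun i _ => KV.red_galois_smul _ h _ _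

theorem nrm_mem_th [NeZero N] {D : ℕ} {a : ℕ → ℤ} (σ : Kbar ≃ₐ[ℚ] Kbar) (P : ℕ)
    {x : KV Kbar (FN N) n} (hx : x ∈ th N n D a) : nrm N n σ P x ∈ th N n D a := by
  rw [nrm_apply]
  exact AddSubgroup.sum_mem _ fun i _ => smul_mem_th _ hx

end norm

section main

variable {L s : ℕ} [NeZero L] [NeZero s]

theorem zOf_mem_th {p j D : ℕ} {a : ℕ → ℤ} (hp : p.Prime) (hs : s.Prime) (hsL : ¬ s ∣ L)
    (hD : L * s * p ∣ D) {x : KV Kbar (FN L) (p * p ^ j)} (hx : x ∈ th L (p * p ^ j) D a) :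
    zOf L s (p * p ^ j) x ∈ th (L * s * s) (p * p ^ j) D a :=
  map_mem_gen (zOf L s (p * p ^ j)) (fun ℓ y =>
    (zOf_heckeTtot (mul_ne_zero hp.ne_zero (pow_ne_zero _ hp.ne_zero)) hs hsL ℓ.2.1
      (not_dvd_of_idx hD ℓ) y).symm) hx

theorem eOp_mem_th {n D : ℕ} {a : ℕ → ℤ} (hn : n ≠ 0) (hs : s.Prime) (hsL : ¬ s ∣ L)
    (hD : L ∣ D) {x : KV Kbar (FN L) n} (hx : x ∈ th L n D a) : eOp L s n x ∈ th L n D a := by
  have hT : ∀ {y : KV Kbar (FN L) n}, y ∈ th L n D a → heckeT Kbar L s n y ∈ th L n D a := by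
    intro y hy
    refine gen_stable (E := (heckeT Kbar L s n : AddMonoid.End _)) (fun ℓ => ?_) hy
    ext z
    have := heckeTtot_comm L n hn ℓ.2.1 hs (fun h => ℓ.2.2 (h.trans hD)) hsL z
    rw [heckeTtot_eq L n s] at this
    exact this
  rw [eOp_apply]
  exact AddSubgroup.sub_mem _ (AddSubgroup.zsmul_mem _ hx _) (hT (hT hx))

/-- a unit multiple. -/
theorem eq_zero_of_coprime_smul {A : Type*} [AddCommGroup A] {n : ℕ} {u : ℤ} (h : IsCoprime u (n : ℤ))
    {y : A} (hn : n • y = 0) (hu : u • y = 0) : y = 0 := by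
  obtain ⟨b, c, hbc⟩ := h
  have : (b * u + c * (n : ℤ)) • y = 0 := by
    rw [add_smul, mul_smul, hu, smul_zero, mul_smul, natCast_zsmul, hn, smul_zero, add_zero]
  rwa [hbc, one_smul] at this

/-- **Theorem G, one step.** -/
theorem stepG {p : ℕ} (hp : p.Prime) (hs : s.Prime) (hsL : ¬ s ∣ L) (hsp : s ≠ p) (k c : ℕ)
    (hsc : s = p ^ k * c + 1) (hc : ¬ p ∣ c) (D : ℕ) (hD : L * s * p ∣ D) (a : ℕ → ℤ)
    (σ : Kbar ≃ₐ[ℚ] Kbar)
    (hσL : ∀ x : KV Kbar (FN L) (p * p ^ (3 * k)), σ • x = x)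
    (hστ : ∀ x ∈ th (L * s * s) (p * p ^ (3 * k)) D a,
      σ • (σ ^ (p ^ k) • x - x) = σ ^ (p ^ k) • x - x)
    (hY : ∀ x ∈ th (L * s * s) (p * p ^ (3 * k)) D a, σ • x = x →
      ∃ y0 ∈ th L (p * p ^ (3 * k)) D a, ∃ y1 ∈ th L (p * p ^ (3 * k)) D a,
        ∃ y2 ∈ th L (p * p ^ (3 * k)) D a, dlt L s (p * p ^ (3 * k)) y0 y1 y2 = x)
    (hE : ∀ y ∈ th L (p * p ^ (3 * k)) D a, eOp L s (p * p ^ (3 * k)) y = 0 → y = 0)
    (hsurj : ∀ y0 ∈ th L (p * p ^ (3 * k)) D a, ∀ y1 ∈ th L (p * p ^ (3 * k)) D a,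
      ∀ y2 ∈ th L (p * p ^ (3 * k)) D a, ∃ w ∈ th (L * s * s) (p * p ^ (3 * k)) D a,
      push1 L s (p * p ^ (3 * k)) w = y0 ∧ pushS L s (p * p ^ (3 * k)) w = y1 ∧
        pushS2 L s (p * p ^ (3 * k)) w = y2)
    (hlift : ∀ x ∈ th L p D a, ∃ x' ∈ th L (p * p ^ (3 * k)) D a,
      KV.red (Dvd.intro (p ^ (3 * k)) rfl) x' = x)
    (x : KV Kbar (FN L) p) (hx : x ∈ th L p D a) :
    ∃ w ∈ th (L * s * s) p D a, nrm (L * s * s) p σ (p ^ k) w = zOf L s p x := by
  set n : ℕ := p * p ^ (3 * k) with hn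
  have hn0 : n ≠ 0 := mul_ne_zero hp.ne_zero (pow_ne_zero _ hp.ne_zero)
  have hLD : L ∣ D := (Dvd.intro _ (by rw [mul_assoc])).trans hD
  obtain ⟨x', hx', rfl⟩ := hlift x hx
  -- the subgroup of triples `(y, 0, 0)`-compatible: we use the full `θ`-part of triples
  let GY : AddSubgroup (KV Kbar (FN L) n × KV Kbar (FN L) n × KV Kbar (FN L) n) :=
    (th L n D a).prod ((th L n D a).prod (th L n D a))
  let e : KV Kbar (FN L) n →+ (KV Kbar (FN L) n × KV Kbar (FN L) n × KV Kbar (FN L) n) :=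
    AddMonoidHom.prod (c • eOp L s n) (AddMonoidHom.prod 0 0)
  have hs1 : ((s : ℤ) - 1) = ((p ^ k : ℕ) : ℤ) * (c : ℤ) := by
    rw [hsc]; push_cast; ring
  have hcop : IsCoprime ((s : ℤ) * (c : ℤ)) (n : ℤ) := by
    have h1 : IsCoprime (s : ℤ) (p : ℤ) :=
      Nat.isCoprime_iff_coprime.2 ((Nat.coprime_primes hs hp).2 hsp)
    have h2 : IsCoprime (c : ℤ) (p : ℤ) :=
      Nat.isCoprime_iff_coprime.2 ((Nat.Prime.coprime_iff_not_dvd hp).2 hc).symm
    have h3 : IsCoprime ((s : ℤ) * (c : ℤ)) (p : ℤ) := h1.mul_left h2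
    rw [hn]
    push_cast
    exact h3.mul_right (h3.pow_right)
  have hkill : ∀ y ∈ th L n D a,
      ((s : ℤ) * ((s : ℤ) - 1)) • eOp L s n (eOp L s n y) = 0 → (p ^ k) • y = 0 := by
    intro y hy h
    rw [← map_zsmul, ← map_zsmul] at h
    have hy' : ((s : ℤ) * ((s : ℤ) - 1)) • y ∈ th L n D a := AddSubgroup.zsmul_mem _ hy _
    have h1 := hE _ hy' (hE _ (eOp_mem_th hn0 hs hsL hLD hy') h)
    refine eq_zero_of_coprime_smul hcop (y := (p ^ k) • y) ?_ ?_
    · rw [smul_comm, KV.nsmul_eq_zero, smul_zero]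
    · rw [← natCast_zsmul, smul_smul, ← h1]
      congr 1
      rw [hs1]; ring
  have hN3 : ∀ x, dltT L s n (nrm (L * s * s) n σ (p ^ k) x) = (p ^ k) • dltT L s n x := by
    intro x
    have h : ∀ i : ℕ, dltT L s n (σ ^ i • x) = dltT L s n x := by
      intro i
      rw [dltT_apply, dltT_apply, push1_smul, pushS_smul, pushS2_smul,
        pow_smul_of_fixed (hσL _), pow_smul_of_fixed (hσL _), pow_smul_of_fixed (hσL _)]
    rw [nrm_apply, map_sum]
    simp only [h, Finset.sum_const, Finset.card_range]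
  have hτt : ∀ x, dltT L s n (gal (L * s * s) n (σ ^ (p ^ k)) x) = dltT L s n x := by
    intro x
    rw [gal_apply, dltT_apply, dltT_apply, push1_smul, pushS_smul, pushS2_smul,
      pow_smul_of_fixed (hσL _), pow_smul_of_fixed (hσL _), pow_smul_of_fixed (hσL _)]
  have hσz : ∀ x, gal (L * s * s) n σ (zOf L s n x) = zOf L s n x := by
    intro x
    rw [gal_apply, ← zOf_smul, hσL]
  have hze : ∀ x, dltT L s n (zOf L s n x) = (p ^ k) • e x := by
    intro x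
    rw [dltT_apply, push1_zOf hs hsL, pushS_zOf hs hsL, pushS2_zOf hs hsL]
    refine Prod.ext ?_ (Prod.ext ?_ ?_)
    · show _ = (p ^ k) • (c • eOp L s n x)
      rw [← eOp_apply, hs1, mul_smul, natCast_zsmul, natCast_zsmul]
    · show (0 : KV Kbar (FN L) n) = (p ^ k) • (0 : KV Kbar (FN L) n)
      rw [smul_zero]
    · show (0 : KV Kbar (FN L) n) = (p ^ k) • (0 : KV Kbar (FN L) n)
      rw [smul_zero]
  have hY' : ∀ x ∈ th (L * s * s) n D a, gal (L * s * s) n σ x = x →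
      ∃ y ∈ GY, dltHom L s n y = x := by
    intro x hx hσx
    obtain ⟨y0, h0, y1, h1, y2, h2, h⟩ := hY x hx hσx
    exact ⟨(y0, y1, y2), ⟨h0, h1, h2⟩, by rw [dltHom_apply]; exact h⟩
  have hK : ∀ y ∈ GY, dltT L s n (dltHom L s n y) = 0 → (p ^ k) • y = 0 := by
    rintro ⟨y0, y1, y2⟩ ⟨h0, h1, h2⟩ h
    rw [dltHom_apply, dltT_apply] at h
    have e0 := congrArg Prod.fst h
    have e1 := congrArg (fun t => t.2.1) h
    have e2 := congrArg (fun t => t.2.2) h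
    obtain ⟨k0, k1, k2⟩ := dtd_ker hs hsL y0 y1 y2 e0 e1 e2
    exact Prod.ext (hkill y0 h0 k0) (Prod.ext (hkill y1 h1 k1) (hkill y2 h2 k2))
  have hsurj' : ∀ y ∈ GY, ∃ w ∈ th (L * s * s) n D a, dltT L s n w = y := by
    rintro ⟨y0, y1, y2⟩ ⟨h0, h1, h2⟩
    obtain ⟨w, hw, e0, e1, e2⟩ := hsurj y0 h0 y1 h1 y2 h2
    exact ⟨w, hw, by rw [dltT_apply, e0, e1, e2]⟩
  obtain ⟨w, hw, hw3⟩ := SizeFin.size_fin (p ^ k) (th (L * s * s) n D a) (th L n D a) GY
    (dltHom L s n) (dltT L s n) (gal (L * s * s) n σ) (gal (L * s * s) n (σ ^ (p ^ k)))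
    (nrm (L * s * s) n σ (p ^ k)) (zOf L s n) e
    (fun x hx => smul_mem_th _ hx) (fun x hx => nrm_mem_th _ _ hx)
    (fun x hx => zOf_mem_th hp hs hsL hD hx)
    (fun x hx => ⟨AddSubgroup.nsmul_mem _ (eOp_mem_th hn0 hs hsL hLD hx) _,
      AddSubgroup.zero_mem _, AddSubgroup.zero_mem _⟩)
    (fun x => smul_nrm_sub σ (p ^ k) x)
    (fun x hx => nrm_of_fixed (p ^ k) hx)
    hN3 hτt hστ hσz hze hY' hK hsurj' x' hx'
  refine ⟨KV.red (Dvd.intro (p ^ (3 * k)) rfl) w, red_mem_th _ hw, ?_⟩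
  have h3 : (p ^ (3 * k)) • (nrm (L * s * s) n σ (p ^ k) w - zOf L s n x') = 0 := by
    rw [mul_comm 3 k, pow_mul]
    exact hw3
  have h4 := red_eq_zero_of_nsmul p (p ^ (3 * k)) hp.ne_zero (pow_ne_zero _ hp.ne_zero) _ h3
  rw [map_sub, sub_eq_zero, nrm_red, ← zOf_red] at h4
  exact h4

end main

end Fermat.Agent.S43.Size
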