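import Fermat.Agent.S43.Tower.Theta
import Fermat.Agent.S43.Size.Step

/-!
# S43 / Size / HY : Theorem Y on the `θ`-parts, in the shape consumed by `Size.stepG`

Everything is a repackaging of `Tower.ctrl_th` (`Tower/Theta.lean`).

* `twAt_of`  : `φ² - c φ + s = 0` on `E[p]`, `c² ≢ 4 (mod p)`  ⟹  `Tower.TWAt P s φ`;
* `hY1`      : an inertia invariant element of `th (L s s) n` is `dlt y0 y1 y2`, `y_i ∈ th L n`;
* `hY2`      : `dlt` is injective on `(th L n)³`;
* `hY3`      : `zOf` is injective on `th L n`.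
`n = p ^ (e + 1)` is arbitrary.
-/

set_option autoImplicit false
set_option linter.unusedSectionVars false
set_option linter.style.haveILetI false

noncomputable section

namespace Fermat.Agent.S43.Size

open AlgebraicCurve ModularCurve Fermat.Agent.S24 Fermat.Agent.GAL Fermat.Agent.MR.Glue
  Fermat.Agent.MR.E Fermat.Agent.S43.Ctrl Fermat.Agent.S43.Tower

/-- the Taylor-Wiles condition from one quadratic relation with non zero discriminant. -/
theorem twAt_of (P : FreyPackage) (s : ℕ) (φ : GQ) (c : ℤ)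
    (hc : ∀ y : Ep P, φ • φ • y - c • φ • y + (s : ℤ) • y = 0) (hd : ¬ (P.p : ℤ) ∣ c ^ 2 - 4) :
    TWAt P s φ := by
  intro t ht hdvd
  have hcard := card_Ep P
  haveI : Finite (Ep P) := Nat.finite_of_card_ne_zero (by rw [hcard]; exact pow_ne_zero _ P.pp.ne_zero)
  haveI : Nontrivial (Ep P) := by
    rw [← Finite.one_lt_card_iff_nontrivial, hcard]
    exact Nat.one_lt_pow (by norm_num) P.pp.one_lt
  obtain ⟨y, hy⟩ := exists_ne (0 : Ep P)
  have h1 : ∀ z : Ep P, (t - c) • φ • z = 0 := by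
    intro z
    have e1 := hc z
    have e2 := ht z
    have : (t - c) • φ • z = (φ • φ • z - c • φ • z + (s : ℤ) • z) - (φ • φ • z - t • φ • z + (s : ℤ) • z) := by
      rw [sub_smul]; abel
    rw [this, e1, e2, sub_zero]
  have h2 : (t - c) • y = 0 := by
    have := h1 (φ⁻¹ • y)
    rwa [smul_inv_smul] at this
  have hpy : (P.p : ℤ) • y = 0 := by
    rw [natCast_zsmul]
    exact Subtype.ext (Ep_nsmul P y)
  have hp : Prime (P.p : ℤ) := Nat.prime_iff_prime_int.mp P.pp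
  have h3 : (P.p : ℤ) ∣ t - c := by
    by_contra hnd
    have hcop : IsCoprime (t - c) (P.p : ℤ) := ((hp.coprime_iff_not_dvd).2 hnd).symm
    obtain ⟨u, v, huv⟩ := hcop
    apply hy
    have : (u * (t - c) + v * (P.p : ℤ)) • y = 0 := by
      rw [add_smul, mul_smul, h2, smul_zero, mul_smul, hpy, smul_zero, add_zero]
    rwa [huv, one_smul] at this
  apply hd
  have h4 : c ^ 2 - 4 = (t ^ 2 - 4) - (t - c) * (t + c) := by ring
  rw [h4]
  exact dvd_sub hdvd (h3.mul_right _)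

section main

variable (hC : CtrlStatement) (P : FreyPackage) (W : WeierstrassCurve ℤ)
  (hW : W.IsIntegralModelOf P.freyCurve) (L s D n e : ℕ) [NeZero L] [NeZero s] (hs : s.Prime)
  (hsL : ¬ s ∣ L) (hneat : 4 ∣ L ∨ 9 ∣ L) (A : ValuationSubring Kbar) (hA : A.LiesOverPrime s)
  (hps : P.p ≠ s) (hn : n = P.p ^ (e + 1)) (hD : L * s * P.p ∣ D) (hD0 : D ≠ 0) (φ : GQ)
  (hφ : A.IsFrobeniusAt φ s) (hs1 : (P.p : ℤ) ∣ (s : ℤ) - 1) (hTW : TWAt P s φ)

include hC hW hs hsL hneat hA hps hn hD hD0 hφ hs1 hTW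

/-- **(Y1)** -/
theorem hY1 (x : KV Kbar (FN (L * s * s)) n) (hx : x ∈ th (L * s * s) n D W.apOfModel)
    (hI : ∀ τ ∈ A.inertiaSubgroupIn ℚ, τ • x = x) :
    ∃ y0 ∈ th L n D W.apOfModel, ∃ y1 ∈ th L n D W.apOfModel, ∃ y2 ∈ th L n D W.apOfModel,
      dlt L s n y0 y1 y2 = x := by
  obtain ⟨z0, h0, z1, h1, z2, h2, h⟩ :=
    (ctrl_th hC P W hW L s D n e hs hsL hneat A hA hps hn hD hD0 φ hφ hs1 hTW).1 x hx hI
  exact ⟨z0, h0, z1, h1, z2, h2, h.symm⟩

/-- **(Y2)** -/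
theorem hY2 (y0 y1 y2 : KV Kbar (FN L) n) (h0 : y0 ∈ th L n D W.apOfModel)
    (h1 : y1 ∈ th L n D W.apOfModel) (h2 : y2 ∈ th L n D W.apOfModel)
    (h : dlt L s n y0 y1 y2 = 0) : y0 = 0 ∧ y1 = 0 ∧ y2 = 0 :=
  (ctrl_th hC P W hW L s D n e hs hsL hneat A hA hps hn hD hD0 φ hφ hs1 hTW).2 y0 h0 y1 h1 y2 h2 h

/-- **(Y3)** -/
theorem hY3 (x : KV Kbar (FN L) n) (hx : x ∈ th L n D W.apOfModel) (h : zOf L s n x = 0) : x = 0 := by
  have hn0 : n ≠ 0 := by rw [hn]; exact pow_ne_zero _ P.pp.ne_zero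
  have hLD : L ∣ D := (Dvd.intro _ (by rw [mul_assoc])).trans hD
  have hT : heckeT Kbar L s n x ∈ th L n D W.apOfModel := by
    refine gen_stable (E := (heckeT Kbar L s n : AddMonoid.End _)) (fun ℓ => ?_) hx
    ext z
    have := S41.Dual.heckeTtot_comm L n hn0 ℓ.2.1 hs (fun h => ℓ.2.2 (h.trans hLD)) hsL z
    rw [heckeTtot_eq L n s] at this
    exact this
  have h1 : dlt L s n (s • x) (- heckeT Kbar L s n x) x = 0 := by
    show pull1 L s n (s • x) + pullS L s n (- heckeT Kbar L s n x) + pullS2 L s n x = 0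
    rw [map_nsmul, map_neg, ← sub_eq_add_neg]
    exact h
  exact (hY2 hC P W hW L s D n e hs hsL hneat A hA hps hn hD hD0 φ hφ hs1 hTW _ _ _
    (AddSubgroup.nsmul_mem _ hx _) (AddSubgroup.neg_mem _ hT) hx h1).2.2

end main

end Fermat.Agent.S43.Size
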