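import Fermat.Agent.S43.Size.GenRed
import Fermat.Agent.S43.Size.StepDefs

/-!
# S43 / Size / Lift : the hypothesis `hlift` of `Size.stepG`, in the `th` form

* `th_lift`       : `KV.red : th L (m * p^j) D a → th L m D a` is onto (`L ∣ D`, `m ≠ 0`);
* `hlift`         : exactly the hypothesis `hlift` of `stepG` (any `j` in place of `3 * k`);
* `th_nsmul`      : `x ∈ th L (p * p^j) D a`, `KV.red x = 0` `⇒` `x = p • y` with `y ∈ th L (p * p^j) D a`;
* `th_nsmul'`     : `x ∈ th L n D a`, `x = d • y₀` `⇒` `x = d • y` with `y ∈ th L n D a`.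
-/

set_option autoImplicit false
set_option linter.style.haveILetI false
set_option linter.unusedSectionVars false

noncomputable section

namespace Fermat.Agent.S43.Size

open AlgebraicCurve ModularCurve Fermat.Agent.S24 Fermat.Agent.GAL Fermat.Agent.GAL.Hecke
  Fermat.Agent.S41.Dual

variable {L D : ℕ} [NeZero L]

theorem th_eq_gen_TD (n : ℕ) (a : ℕ → ℤ) :
    th L n D a = Tower.gen (TD L D n) (fun l => a l.1) := rfl

/-- `KV.red` maps `th L (m * p^j)` onto `th L m`. -/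
theorem th_lift (hLD : L ∣ D) (m : ℕ) (hm : m ≠ 0) {p : ℕ} (hp : p.Prime) (j : ℕ) (a : ℕ → ℤ) :
    ∀ x ∈ th L m D a, ∃ x' ∈ th L (m * p ^ j) D a, KV.red (Dvd.intro (p ^ j) rfl) x' = x :=
  fun _ hx => red_gen_onto hLD m hm p hp j (fun l => a l.1) hx

/-- the hypothesis `hlift` of `stepG`. -/
theorem hlift (hLD : L ∣ D) {p : ℕ} (hp : p.Prime) (j : ℕ) (a : ℕ → ℤ) :
    ∀ x ∈ th L p D a, ∃ x' ∈ th L (p * p ^ j) D a, KV.red (Dvd.intro (p ^ j) rfl) x' = x :=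
  th_lift hLD p hp.ne_zero hp j a

theorem th_nsmul' (hLD : L ∣ D) (n : ℕ) (hn : n ≠ 0) (d : ℕ) (a : ℕ → ℤ)
    {x : KV Kbar (FN L) n} (hx : x ∈ th L n D a) (y₀ : KV Kbar (FN L) n) (hy₀ : d • y₀ = x) :
    ∃ y ∈ th L n D a, d • y = x :=
  exists_nsmul_gen' hLD n hn d (fun l => a l.1) hx y₀ hy₀

theorem th_nsmul (hLD : L ∣ D) {p : ℕ} (hp : p.Prime) (j : ℕ) (a : ℕ → ℤ)
    {x : KV Kbar (FN L) (p * p ^ j)} (hx : x ∈ th L (p * p ^ j) D a)
    (h0 : KV.red (Dvd.intro (p ^ j) rfl) x = 0) :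
    ∃ y ∈ th L (p * p ^ j) D a, p • y = x :=
  exists_nsmul_gen hLD p hp j (fun l => a l.1) hx h0

end Fermat.Agent.S43.Size
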