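import Fermat.Agent.S43.Size.HY
import Fermat.Agent.GAL.S31.RootsOfUnity

/-!
# S43 / Size / QuadCor : corollaries of `Tower.quad_nil` for Frobenius and inertia elements (exponent `n = p ^ e`)

* `quad_frob_th` : for a Frobenius `φ` at `A ∣ s` with `TWAt P s φ`: some `t`, `t² ≢ 4`, with `φ² - t φ + s` nilpotent on `th N n D a`;
* `unip_th`      : if `E[p]` is unramified at `A ∣ s` then the inertia group at `A` acts unipotently on `th N n D a`.
-/

set_option autoImplicit false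
set_option linter.unusedSectionVars false
set_option linter.style.haveILetI false

noncomputable section

namespace Fermat.Agent.S43.Size

open AlgebraicCurve ModularCurve Fermat.Agent.S24 Fermat.Agent.GAL Fermat.Agent.MR.Glue
  Fermat.Agent.MR.E Fermat.Agent.S43.Ctrl Fermat.Agent.S43.Tower

theorem not_dvd_pow_of_ne_qc {p s e : ℕ} (hp : p.Prime) (hs : s.Prime) (hsp : s ≠ p) : ¬ s ∣ p ^ e :=
  fun h => hsp ((Nat.prime_dvd_prime_iff_eq hs hp).1 (hs.dvd_of_dvd_pow h))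

/-- the sum of an operator which is nilpotent at `x` and of a commuting nilpotent operator is nilpotent at `x`. -/
theorem add_pow_apply_eq_zero_qc {V : Type*} [AddCommGroup V] (Q ν : AddMonoid.End V) (h : Commute Q ν)
    (K e : ℕ) (hν : ν ^ e = 0) (x : V) (hx : (Q ^ K) x = 0) : ((Q + ν) ^ (K + e)) x = 0 := by
  rw [h.add_pow']
  let ev : AddMonoid.End V →+ V :=
    { toFun := fun f => f x, map_zero' := rfl, map_add' := fun _ _ => rfl }
  have hev : ∀ f : AddMonoid.End V, f x = ev f := fun _ => rfl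
  rw [hev, map_sum]
  refine Finset.sum_eq_zero fun m hm => ?_
  rw [Finset.HasAntidiagonal.mem_antidiagonal] at hm
  rw [map_nsmul, ← hev]
  by_cases h1 : K ≤ m.1
  · obtain ⟨j, hj⟩ := Nat.exists_eq_add_of_le h1
    have h2 : (Q ^ m.1 * ν ^ m.2) x = (ν ^ m.2 * Q ^ j) ((Q ^ K) x) := by
      rw [(h.pow_pow m.1 m.2).eq, hj, add_comm, pow_add, ← mul_assoc]
      rfl
    rw [h2, hx, map_zero, smul_zero]
  · have h2 : e ≤ m.2 := by omega
    obtain ⟨j, hj⟩ := Nat.exists_eq_add_of_le h2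
    rw [hj, pow_add, hν, zero_mul, mul_zero]
    simp

variable (P : FreyPackage) (W : WeierstrassCurve ℤ) (hW : W.IsIntegralModelOf P.freyCurve)
  (N n e D : ℕ) [NeZero N] (hn : n = P.p ^ (e + 1)) (hD0 : D ≠ 0) {s : ℕ} (hs : s.Prime)
  (hsp : s ≠ P.p) (A : ValuationSubring Kbar) (hA : A.LiesOverPrime s)

include hW hn hD0 hs hsp hA

/-- Frobenius elements. -/
theorem quad_frob_th (φ : GQ) (hφ : A.IsFrobeniusAt φ s) (hTW : TWAt P s φ) :
    ∃ t : ℤ, ¬ (P.p : ℤ) ∣ t ^ 2 - 4 ∧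
      ∀ x ∈ th N n D W.apOfModel, ∃ M : ℕ, (Tower.quad t (s : ℤ) (gal N n φ) ^ M) x = 0 := by
  haveI : NeZero n := ⟨by rw [hn]; exact pow_ne_zero _ P.pp.ne_zero⟩
  have hpn : P.p ∣ n := by rw [hn, pow_succ]; exact dvd_mul_left _ _
  obtain ⟨t, ht1, ht2⟩ := Tower.quad_nil P W hW N n D s hpn hD0 φ fun _ hμ =>
    S31.frobenius_apply_root A hs hA hφ (hn ▸ not_dvd_pow_of_ne_qc P.pp hs hsp) hμ
  exact ⟨t, hTW t ht1, ht2⟩

/-- inertia is unipotent. -/
theorem unip_th (hur : ∀ τ ∈ A.inertiaSubgroupIn ℚ, ∀ y : Ep P, τ • y = y)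
    (τ : GQ) (hτ : τ ∈ A.inertiaSubgroupIn ℚ) :
    ∀ x ∈ th N n D W.apOfModel, ∃ M : ℕ, (fun y => τ • y - y)^[M] x = 0 := by
  haveI : NeZero n := ⟨by rw [hn]; exact pow_ne_zero _ P.pp.ne_zero⟩
  have hpn : P.p ∣ n := by rw [hn, pow_succ]; exact dvd_mul_left _ _
  obtain ⟨t, ht1, ht2⟩ := Tower.quad_nil P W hW N n D 1 hpn hD0 τ fun μ hμ => by
    rw [pow_one]
    exact S31.inertia_apply_root A hs hA hτ (hn ▸ not_dvd_pow_of_ne_qc P.pp hs hsp) hμ
  -- `p ∣ t - 2`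
  have hcard := card_Ep P
  haveI : Finite (Ep P) :=
    Nat.finite_of_card_ne_zero (by rw [hcard]; exact pow_ne_zero _ P.pp.ne_zero)
  haveI : Nontrivial (Ep P) := by
    rw [← Finite.one_lt_card_iff_nontrivial, hcard]
    exact Nat.one_lt_pow (by norm_num) P.pp.one_lt
  obtain ⟨y, hy⟩ := exists_ne (0 : Ep P)
  obtain ⟨B, hB⟩ := frobMod_Ep P W hW
  have h2 : (t - 2) • y = 0 := by
    have h1 := ht1 y
    rw [hur τ hτ, hur τ hτ, Nat.cast_one, one_smul] at h1
    rw [sub_smul, two_smul, ← neg_eq_zero, ← h1]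
    abel
  have hdvd : (P.p : ℤ) ∣ t - 2 := by
    by_contra hnd
    have hc : IsCoprime (P.p : ℤ) (t - 2) :=
      (Prime.coprime_iff_not_dvd (Nat.prime_iff_prime_int.1 P.pp)).2 hnd
    obtain ⟨u, v, huv⟩ := hc
    apply hy
    have : ((u * P.p + v * (t - 2) : ℤ)) • y = 0 := by
      rw [add_smul, mul_smul, mul_smul, h2, natCast_zsmul, hB.tors y, smul_zero, smul_zero, add_zero]
    rwa [huv, one_smul] at this
  obtain ⟨u, hu⟩ := hdvd
  intro x hx
  obtain ⟨K, hK⟩ := ht2 x hx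
  set T : AddMonoid.End (KV Kbar (FN N) n) := gal N n τ with hT
  set ν : AddMonoid.End (KV Kbar (FN N) n) := ((t - 2 : ℤ) : AddMonoid.End (KV Kbar (FN N) n)) * T
    with hν
  have hQ : Tower.quad t ((1 : ℕ) : ℤ) T + ν = (T - 1) ^ 2 := by
    rw [Tower.quad, hν, Nat.cast_one, Int.cast_one, Int.cast_sub, Int.cast_ofNat]
    noncomm_ring
  have hcT : Commute (Tower.quad t ((1 : ℕ) : ℤ) T) T := by
    rw [Tower.quad]
    exact (((Commute.refl T).mul_left (Commute.refl T)).sub_left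
      ((Int.cast_commute t T).mul_left (Commute.refl T))).add_left (Int.cast_commute _ T)
  have hc : Commute (Tower.quad t ((1 : ℕ) : ℤ) T) ν :=
    (Int.commute_cast _ _).mul_right hcT
  have hν0 : ν ^ (e + 1) = 0 := by
    rw [hν, (Int.cast_commute _ T).mul_pow, ← Int.cast_pow, hu, mul_pow]
    have : (((P.p : ℤ) ^ (e + 1) * u ^ (e + 1) : ℤ) : AddMonoid.End (KV Kbar (FN N) n)) = 0 := by
      apply AddMonoidHom.ext
      intro z
      show ((P.p : ℤ) ^ (e + 1) * u ^ (e + 1) : ℤ) • z = 0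
      rw [mul_comm, mul_smul]
      have : ((P.p : ℤ) ^ (e + 1)) • z = 0 := by
        have h3 : ((P.p : ℤ) ^ (e + 1)) = ((n : ℕ) : ℤ) := by rw [hn]; push_cast; rfl
        rw [h3, natCast_zsmul, KV.nsmul_eq_zero]
      rw [this, smul_zero]
    rw [this, zero_mul]
  have h3 := add_pow_apply_eq_zero_qc _ ν hc K (e + 1) hν0 x hK
  rw [hQ, ← pow_mul, AddMonoid.End.coe_pow] at h3
  exact ⟨_, h3⟩

end Fermat.Agent.S43.Size
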