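import Fermat.Agent.S43.Size.SigmaAbs
import Fermat.Agent.S43.CHC.KV
import Fermat.Agent.S43.Tame.Main

/-!
# S43 / Size / Sigma : `(σ - 1)(σ^P - 1) = 0` on a Galois stable subgroup `G` of `V_m(F(N))`, `m = p^k`

`σ` in the inertia group at `A ∣ s`, `s ≠ p`, `σ - 1` nilpotent on `G`, `φ σ φ⁻¹ = σ ^ s` on `G` (tame relation),
`s = P c + 1`, `p ∤ c`, `p ∤ s + 1`.  Then `σ (σ^P x - x) = σ^P x - x` for `x ∈ G`.

Proof: Cayley-Hamilton (`CHC.kv_CH`): `σ + σ⁻¹ = a T_ℓ` on `V_m(F(N))`, which commutes with `φ`; so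
`σ^s + σ^{-s} = σ + σ⁻¹` on `G`; then `SigmaAbs.sigma_ring`.
-/

set_option autoImplicit false

namespace Fermat.Agent.S43.Size

open AlgebraicCurve ModularCurve Fermat.Agent.S24 Fermat.Agent.GAL Fermat.Agent.DR

variable {N m : ℕ} [NeZero N] [NeZero m]

/-- the action of `G_ℚ` on a stable subgroup, as endomorphisms. -/
noncomputable def actOn (G : AddSubgroup (KV Kbar (FN N) m)) (hG : ∀ g : GQ, ∀ x ∈ G, g • x ∈ G) :
    GQ →* AddMonoid.End G where
  toFun g :=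
    { toFun := fun x => ⟨g • x.1, hG g x.1 x.2⟩
      map_zero' := Subtype.ext (smul_zero g)
      map_add' := fun x y => Subtype.ext (smul_add g x.1 y.1) }
  map_one' := by
    ext x
    exact one_smul _ _
  map_mul' g h := by
    ext x
    exact mul_smul g h _

theorem coe_actOn (G : AddSubgroup (KV Kbar (FN N) m)) (hG : ∀ g : GQ, ∀ x ∈ G, g • x ∈ G) (g : GQ)
    (x : G) : ((actOn G hG g x : G) : KV Kbar (FN N) m) = g • (x : KV Kbar (FN N) m) := rfl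

/-- **Cayley-Hamilton for an element of an inertia group**: `σ + σ⁻¹` is a multiple of a Hecke operator. -/
theorem exists_trace_inertia (A : ValuationSubring Kbar) {s : ℕ} (hs : s.Prime)
    (hA : A.LiesOverPrime s) (hsm : ¬ s ∣ m) {σ : GQ} (hσ : σ ∈ A.inertiaSubgroupIn ℚ) :
    ∃ t : KV Kbar (FN N) m →+ KV Kbar (FN N) m, (∀ (g : GQ) y, t (g • y) = g • t y) ∧
      ∀ y, σ • y + σ⁻¹ • y = t y := by
  obtain ⟨ℓ, a, d, _, A', σ', -, -, -, -, -, -, -, hCH, hμ⟩ :=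
    CHC.kv_CH N m (⊥ : IntermediateField ℚ Kbar) ∅ σ
  have hm0 : m ≠ 0 := NeZero.ne m
  have : NeZero ((m : ℕ) : Kbar) := ⟨Nat.cast_ne_zero.2 hm0⟩
  obtain ⟨ζ, hζ⟩ := HasEnoughRootsOfUnity.exists_primitiveRoot Kbar m
  have h1 : ζ ^ d = ζ ^ 1 := by
    rw [pow_one, ← hμ ζ hζ.pow_eq_one]
    exact Tame.inertia_root ⟨A, s, hs, hA⟩ hsm hσ hζ.pow_eq_one
  have h2 : d ≡ 1 [MOD m] := by
    have h3 := (pow_eq_pow_iff_modEq (x := hζ.isUnit hm0 |>.unit) (n := d) (m := 1)).1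
      (Units.ext (by simpa using h1))
    rwa [← orderOf_units, IsUnit.unit_spec, ← hζ.eq_orderOf] at h3
  have hd : ∀ y : KV Kbar (FN N) m, d • y = y := by
    intro y
    have h3 : (m : ℤ) ∣ (1 : ℤ) - (d : ℤ) := by
      have := (Nat.modEq_iff_dvd.1 h2)
      simpa using this
    obtain ⟨e, he⟩ := h3
    have h4 : ((1 : ℤ) - (d : ℤ)) • y = 0 := by
      rw [he, mul_comm, mul_smul, natCast_zsmul, KV.nsmul_eq_zero, smul_zero]
    rw [sub_smul, one_smul, natCast_zsmul, sub_eq_zero] at h4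
    exact h4.symm
  refine ⟨a • heckeT Kbar N ℓ m, fun g y => ?_, fun y => ?_⟩
  · rw [AddMonoidHom.nsmul_apply, AddMonoidHom.nsmul_apply, heckeT_galois_smul, smul_comm]
  · have h5 := hCH (σ⁻¹ • y)
    rw [smul_inv_smul, hd] at h5
    rw [AddMonoidHom.nsmul_apply]
    have h6 : σ • y + σ⁻¹ • y - a • heckeT Kbar N ℓ m y = 0 := by
      rw [← h5]; abel
    exact sub_eq_zero.1 h6

/-- **The relation `(σ - 1)(σ^P - 1) = 0`.** -/
theorem sigma_rel (p k : ℕ) [Fact p.Prime] (hm : m = p ^ k) (A : ValuationSubring Kbar) {s : ℕ}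
    (hs : s.Prime) (hA : A.LiesOverPrime s) (hsp : s ≠ p)
    (G : AddSubgroup (KV Kbar (FN N) m)) (hG : ∀ g : GQ, ∀ x ∈ G, g • x ∈ G)
    {σ φ : GQ} (hσ : σ ∈ A.inertiaSubgroupIn ℚ)
    (hnil : ∃ n : ℕ, ∀ x ∈ G, (fun y => σ • y - y)^[n] x = 0)
    (hrel : ∀ x ∈ G, (φ * σ * φ⁻¹) • x = σ ^ s • x)
    (P c : ℕ) (hPc : s = P * c + 1) (hc : ¬ p ∣ c) (hs1 : ¬ p ∣ s + 1) :
    ∀ x ∈ G, σ • (σ ^ P • x - x) = σ ^ P • x - x := by
  have hp : p.Prime := Fact.out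
  have hsm : ¬ s ∣ m := by
    rw [hm]
    exact fun h => hsp ((Nat.prime_dvd_prime_iff_eq hs hp).1 (hs.dvd_of_dvd_pow h))
  obtain ⟨t, htG, ht⟩ := exists_trace_inertia (N := N) (m := m) A hs hA hsm hσ
  -- the relation on `G`
  have hinv : ∀ x ∈ G, (φ * σ⁻¹ * φ⁻¹) • x = (σ ^ s)⁻¹ • x := by
    intro x hx
    have h1 := hrel _ (hG (φ * σ⁻¹ * φ⁻¹) x hx)
    rw [← mul_smul] at h1
    have h2 : φ * σ * φ⁻¹ * (φ * σ⁻¹ * φ⁻¹) = 1 := by group
    rw [h2, one_smul] at h1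
    conv_rhs => rw [h1]
    rw [inv_smul_smul]
  have hsym : ∀ x ∈ G, σ • x + σ⁻¹ • x = σ ^ s • x + (σ ^ s)⁻¹ • x := by
    intro x hx
    have h1 : t x = φ • t (φ⁻¹ • x) := by rw [htG, smul_inv_smul]
    rw [ht, h1, ← ht, smul_add, ← mul_smul, ← mul_smul, ← mul_smul, ← mul_smul, hrel x hx,
      hinv x hx]
  set S : AddMonoid.End G := actOn G hG σ with hS
  have hSpow : ∀ j : ℕ, S ^ j = actOn G hG (σ ^ j) := fun j => (map_pow _ _ _).symm
  have hrelS : (S ^ (s + 1) - 1) * (S ^ (P * c) - 1) = 0 := by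
    have h1 : S ^ (s + 1) + S ^ (P * c) = S ^ (s + 1 + P * c) + 1 := by
      ext x
      have h2 := hsym _ (hG (σ ^ s) x.1 x.2)
      rw [inv_smul_smul, ← mul_smul, ← mul_smul, ← mul_smul] at h2
      simp only [hSpow]
      show σ ^ (s + 1) • x.1 + σ ^ (P * c) • x.1 = σ ^ (s + 1 + P * c) • x.1 + x.1
      have e1 : σ * σ ^ s = σ ^ (s + 1) := (pow_succ' σ s).symm
      have e2 : σ⁻¹ * σ ^ s = σ ^ (P * c) := by
        rw [hPc, pow_succ', inv_mul_cancel_left]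
      have e3 : σ ^ s * σ ^ s = σ ^ (s + 1 + P * c) := by
        rw [← pow_add]
        congr 1
        omega
      rw [e1, e2, e3] at h2
      exact h2
    have h2 : (S ^ (s + 1) - 1) * (S ^ (P * c) - 1)
        = S ^ (s + 1 + P * c) + 1 - (S ^ (s + 1) + S ^ (P * c)) := by
      rw [pow_add (S) (s + 1) (P * c), sub_mul, mul_sub, mul_sub, mul_one, one_mul, one_mul]
      abel
    rw [h2, h1, sub_self]
  have hnilS : IsNilpotent (S - 1) := by
    obtain ⟨n, hn⟩ := hnil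
    refine ⟨n, ?_⟩
    ext x
    have h1 : ∀ (j : ℕ) (y : G), (((S - 1) ^ j) y : KV Kbar (FN N) m)
        = (fun y => σ • y - y)^[j] (y : KV Kbar (FN N) m) := by
      intro j
      induction j with
      | zero => intro y; rfl
      | succ j ih =>
        intro y
        rw [pow_succ, Function.iterate_succ_apply]
        exact ih ((S - 1) y)
    rw [h1, hn x.1 x.2]
    rfl
  have hcast : ∀ z : ℤ, (m : ℤ) ∣ z - 1 → ((z : ℤ) : AddMonoid.End G) = 1 := by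
    rintro z ⟨e, he⟩
    ext x
    show ((z • x : G) : KV Kbar (FN N) m) = x
    have h1 : z = 1 + e * m := by linarith
    rw [h1, add_smul, one_smul, mul_smul, natCast_zsmul]
    have h2 : m • x = 0 := Subtype.ext (KV.nsmul_eq_zero x.1)
    rw [h2, smul_zero, add_zero]
  have hunit : ∀ n : ℕ, ¬ p ∣ n → ∃ a : ℤ, ((a * (n : ℤ) : ℤ) : AddMonoid.End G) = 1 := by
    intro n hn
    have hcop : IsCoprime (n : ℤ) (m : ℤ) := by
      rw [hm]
      push_cast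
      refine IsCoprime.pow_right ?_
      rw [Nat.isCoprime_iff_coprime]
      exact ((Nat.Prime.coprime_iff_not_dvd hp).2 hn).symm
    obtain ⟨a, b, hab⟩ := hcop
    exact ⟨a, hcast _ ⟨-b, by linarith⟩⟩
  have key := sigma_ring hnilS s P c (hunit _ hs1) (hunit _ hc) hrelS
  intro x hx
  have h1 := congrArg (fun f : AddMonoid.End G => ((f ⟨x, hx⟩ : G) : KV Kbar (FN N) m)) key
  simp only [hSpow] at h1
  have h2 : σ • (σ ^ P • x - x) - (σ ^ P • x - x) = 0 := h1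
  exact sub_eq_zero.1 h2

end Fermat.Agent.S43.Size
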