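import Fermat.Agent.S43.Size.DTD
import Fermat.Agent.S41.Dual.Orth

set_option autoImplicit false
set_option linter.style.haveILetI false
set_option linter.unusedSectionVars false

/-!
# S43 / Size / DTDEquiv : formal compatibilities of the maps of `Size/DTD.lean`

Galois equivariance, compatibility with `KV.red`, with `T_ℓ` (`ℓ ∤ L s n`), and the Weil pairing
adjunctions `e(π^* x, z) = e(x, π_* z)` for the degeneracy maps (any level).
-/

noncomputable section

namespace Fermat.Agent.S43.Size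

open AlgebraicCurve ModularCurve Fermat.Agent.S24 Fermat.Agent.GAL Fermat.Agent.GAL.Hecke
  Fermat.Agent.DR Fermat.Agent.DR.Hecke Fermat.Agent.S36 Fermat.Agent.S36.Hecke
  Fermat.Agent.S41.Dual Fermat.Agent.S15.H

attribute [local instance] Fermat.Agent.GAL.Desc.isFF_FF_Kbar

section General

variable (M q : ℕ) [NeZero M] [NeZero q]

/-- `Norm_β` commutes with the Galois action. -/
theorem normAlong_beta_arithmeticRingAut (σ : Kbar ≃ₐ[ℚ] Kbar) (f : FN (M * q)) :
    normAlong (heckeBetaBar Kbar M q) (arithmeticRingAut (modularFunctionFieldFull (M * q)) σ f) =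
      arithmeticRingAut (modularFunctionFieldFull M) σ (normAlong (heckeBetaBar Kbar M q) f) := by
  let _ := algebraAlong (heckeBetaBar Kbar M q)
  have key := Algebra.norm_eq_of_equiv_equiv (A₁ := FN M) (B₁ := FN (M * q))
    (A₂ := FN M) (B₂ := FN (M * q))
    (arithmeticRingAut (modularFunctionFieldFull M) σ)
    (arithmeticRingAut (modularFunctionFieldFull (M * q)) σ)
    (RingHom.ext fun x => heckeBetaBar_arithmeticRingAut M q σ x) f
  have h1 : normAlong (heckeBetaBar Kbar M q) f = Algebra.norm (FN M) f := rfl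
  have h2 : normAlong (heckeBetaBar Kbar M q)
      (arithmeticRingAut (modularFunctionFieldFull (M * q)) σ f) =
      Algebra.norm (FN M) (arithmeticRingAut (modularFunctionFieldFull (M * q)) σ f) := rfl
  rw [h1, h2, key, RingEquiv.apply_symm_apply]

variable {M q} {m : ℕ}

theorem betaKV_smul (σ : Kbar ≃ₐ[ℚ] Kbar) (x : KV Kbar (FN (M * q)) m) :
    betaKV M q m (σ • x) = σ • betaKV M q m x := by
  obtain ⟨u, rfl⟩ := KV.mk_surjective x
  rw [betaKV_mk, KV.galois_smul_mk, KV.galois_smul_mk, betaKV_mk]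
  exact congrArg KV.mk (Subtype.ext (Units.ext (normAlong_beta_arithmeticRingAut M q σ _)))

theorem alphaKV_smul (σ : Kbar ≃ₐ[ℚ] Kbar) (x : KV Kbar (FN (M * q)) m) :
    alphaKV M q m (σ • x) = σ • alphaKV M q m x :=
  aPush_smul σ x

theorem betaKV_red {m' : ℕ} (h : m ∣ m') (x : KV Kbar (FN (M * q)) m') :
    betaKV M q m (KV.red h x) = KV.red h (betaKV M q m' x) := by
  obtain ⟨u, rfl⟩ := KV.mk_surjective x
  rw [KV.red_mk, betaKV_mk, betaKV_mk, KV.red_mk]

theorem alphaKV_red {m' : ℕ} (h : m ∣ m') (x : KV Kbar (FN (M * q)) m') :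
    alphaKV M q m (KV.red h x) = KV.red h (alphaKV M q m' x) :=
  aPush_red h x

/-- the adjunction `e(α^* x, z) = e(x, α_* z)` (any level). -/
theorem adj_alpha (hm : m ≠ 0) (x : KV Kbar (FN M) m) (z : KV Kbar (FN (M * q)) m) :
    kvPair m hm (aPull M q m x) z = kvPair m hm x (alphaKV M q m z) :=
  orth_adj M q m hm x z

/-- the adjunction `e(β^* x, z) = e(x, β_* z)` (any level). -/
theorem adj_beta (hm : m ≠ 0) (x : KV Kbar (FN M) m) (z : KV Kbar (FN (M * q)) m) :
    kvPair m hm (bPull M q m x) z = kvPair m hm x (betaKV M q m z) := by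
  letI := algebraAlong (heckeBetaBar Kbar M q)
  haveI := isScalarTower_along (heckeBetaBar Kbar M q)
  haveI : Module.Finite (FN M) (FN (M * q)) := finiteAlong_beta M q
  haveI : CharZero (FN M) := charZero_of_injective_algebraMap (algebraMap Kbar (FN M)).injective
  haveI : Algebra.IsSeparable (FN M) (FN (M * q)) := Algebra.IsAlgebraic.isSeparable_of_perfectField
  obtain ⟨u, rfl⟩ := KV.mk_surjective x
  obtain ⟨v, rfl⟩ := KV.mk_surjective z
  rw [bPull_mk, betaKV_mk]
  exact kvPair_adj m hm u v _ _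

end General

variable {L s : ℕ} [NeZero L] [NeZero s] {n : ℕ}

theorem heckeT_red {M ℓ : ℕ} [NeZero M] [NeZero ℓ] {m m' : ℕ} (h : m ∣ m')
    (x : KV Kbar (FN M) m') :
    heckeT Kbar M ℓ m (KV.red h x) = KV.red h (heckeT Kbar M ℓ m' x) := by
  obtain ⟨u, rfl⟩ := KV.mk_surjective x
  rw [KV.red_mk, heckeT_mk (heckeNormPreserves M ℓ m), heckeT_mk (heckeNormPreserves M ℓ m'),
    KV.red_mk]

theorem zOf_smul (σ : Kbar ≃ₐ[ℚ] Kbar) (x : KV Kbar (FN L) n) :
    zOf L s n (σ • x) = σ • zOf L s n x := by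
  rw [zOf_apply, zOf_apply, heckeT_galois_smul, aPull_smul, aPull_smul, bPull_smul, aPull_smul,
    bPull_smul, bPull_smul, smul_add, smul_sub, smul_comm]

theorem zOf_red {n' : ℕ} (h : n ∣ n') (x : KV Kbar (FN L) n') :
    zOf L s n (KV.red h x) = KV.red h (zOf L s n' x) := by
  rw [zOf_apply, zOf_apply, heckeT_red, aPull_red, aPull_red, bPull_red, aPull_red, bPull_red,
    bPull_red, map_add, map_sub, map_nsmul]

/-- `δ j` commutes with `T_ℓ`, `ℓ ∤ L s n`. -/
theorem zOf_heckeTtot (hn : n ≠ 0) (hs : s.Prime) (hsL : ¬ s ∣ L) {ℓ : ℕ} (hℓ : ℓ.Prime)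
    (hℓM : ¬ ℓ ∣ L * s * n) (x : KV Kbar (FN L) n) :
    zOf L s n (heckeTtot L n ℓ x) = heckeTtot (L * s * s) n ℓ (zOf L s n x) := by
  have h2 : ¬ ℓ ∣ L * s * s * n := by
    intro h
    rcases (hℓ.dvd_mul.1 h) with h | h
    · rcases (hℓ.dvd_mul.1 h) with h | h
      · exact hℓM (h.mul_right n)
      · exact hℓM ((h.mul_left L).mul_right n)
    · exact hℓM (h.mul_left _)
  have hℓL : ¬ ℓ ∣ L := fun h => hℓM ((h.mul_right s).mul_right n)
  have hc : heckeT Kbar L s n (heckeTtot L n ℓ x) = heckeTtot L n ℓ (heckeT Kbar L s n x) := by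
    rw [← heckeTtot_eq L n s]
    exact heckeTtot_comm L n hn hs hℓ hsL hℓL x
  rw [zOf_apply, zOf_apply, hc, map_add, map_sub, map_nsmul,
    aPull_heckeTtot L s n hn hℓ hℓM, aPull_heckeTtot (L * s) s n hn hℓ h2,
    bPull_heckeTtot L s n hn hℓ hℓM, aPull_heckeTtot (L * s) s n hn hℓ h2,
    bPull_heckeTtot L s n hn hℓ hℓM, bPull_heckeTtot (L * s) s n hn hℓ h2]

end Fermat.Agent.S43.Size
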