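import Fermat.Agent.S43.Size.SurjAbs

/-!
# S43 / Size / SurjTriple : `surj_genKer_of` for `A = X × X × X`, in abstract form

`a = (a0, a1, a2) : X³ → B`, `b = (b0, b1, b2) : B → X³` its transpose; `a` injective on `(genKer U)³` ⟹ `b` maps `genKer UB`
onto `(genKer U)³`.   Everything is abstract, so that no unfolding of `KV` can occur in the application.
-/

set_option autoImplicit false

namespace Fermat.Agent.S43.Size

open Fermat.Agent.S41.Dual

variable {ι X Y B : Type*} [AddCommGroup X] [AddCommGroup Y] [AddCommGroup B]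

theorem iterate_prodMap' (f : X →+ X) (g : Y →+ Y)
    (k : ℕ) (x : X) (y : Y) : (f.prodMap g)^[k] (x, y) = (f^[k] x, g^[k] y) := by
  induction k generalizing x y with
  | zero => rfl
  | succ k ih =>
    rw [Function.iterate_succ_apply, Function.iterate_succ_apply, Function.iterate_succ_apply]
    exact ih (f x) (g y)

theorem mem_genKer_prodMap' (f : ι → X →+ X)
    (g : ι → Y →+ Y) (x : X) (y : Y) :
    (x, y) ∈ genKer (fun i => (f i).prodMap (g i)) ↔ x ∈ genKer f ∧ y ∈ genKer g := by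
  constructor
  · intro h
    refine ⟨fun i => ?_, fun i => ?_⟩
    · obtain ⟨k, hk⟩ := h i
      rw [iterate_prodMap'] at hk
      exact ⟨k, congrArg Prod.fst hk⟩
    · obtain ⟨k, hk⟩ := h i
      rw [iterate_prodMap'] at hk
      exact ⟨k, congrArg Prod.snd hk⟩
  · rintro ⟨hx, hy⟩ i
    obtain ⟨k, hk⟩ := hx i
    obtain ⟨l, hl⟩ := hy i
    refine ⟨max k l, ?_⟩
    rw [iterate_prodMap', iterate_eq_zero_of_le _ hk (le_max_left k l),
      iterate_eq_zero_of_le _ hl (le_max_right k l)]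
    rfl

/-- **the transpose of an injective triple is onto** (on the generalised eigenspaces). -/
theorem surj_triple {K : Type*} [Field K] [IsAlgClosed K] [CharZero K] [Finite X] [Finite B]
    (U : ι → X →+ X) (UB : ι → B →+ B)
    (hUB : ∀ i j x, UB i (UB j x) = UB j (UB i x))
    (a0 a1 a2 : X →+ B) (b0 b1 b2 : B →+ X)
    (hb0 : ∀ i x, b0 (UB i x) = U i (b0 x)) (hb1 : ∀ i x, b1 (UB i x) = U i (b1 x))
    (hb2 : ∀ i x, b2 (UB i x) = U i (b2 x))
    (e : X → X → Kˣ) (e_add_left : ∀ x y z, e (x + y) z = e x z * e y z)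
    (e_add_right : ∀ x y z, e x (y + z) = e x y * e x z)
    (e_adj : ∀ i x y, e (U i x) y = e x (U i y))
    (eB : B → B → Kˣ) (eB_add_right : ∀ x y z, eB x (y + z) = eB x y * eB x z)
    (eB_nd : ∀ y, (∀ x, eB x y = 1) → y = 0)
    (adj0 : ∀ z y, eB z (a0 y) = e (b0 z) y) (adj1 : ∀ z y, eB z (a1 y) = e (b1 z) y)
    (adj2 : ∀ z y, eB z (a2 y) = e (b2 z) y)
    (hinj : ∀ y0 ∈ genKer U, ∀ y1 ∈ genKer U, ∀ y2 ∈ genKer U,
      a0 y0 + a1 y1 + a2 y2 = 0 → y0 = 0 ∧ y1 = 0 ∧ y2 = 0)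
    {e0 e1 e2 : X} (h0 : e0 ∈ genKer U) (h1 : e1 ∈ genKer U) (h2 : e2 ∈ genKer U) :
    ∃ w ∈ genKer UB, b0 w = e0 ∧ b1 w = e1 ∧ b2 w = e2 := by
  have key := surj_genKer_of (K := K) (A := X × X × X) (B := B)
    (fun i => (U i).prodMap ((U i).prodMap (U i))) UB hUB
    (a0.coprod (a1.coprod a2)) (b0.prod (b1.prod b2))
    (by
      intro i x
      simp only [AddMonoidHom.prod_apply, AddMonoidHom.prodMap_def, AddMonoidHom.coe_comp,
        Function.comp_apply, AddMonoidHom.coe_fst, AddMonoidHom.coe_snd, hb0, hb1, hb2])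
    (fun x y => e x.1 y.1 * (e x.2.1 y.2.1 * e x.2.2 y.2.2))
    (by
      intro x y z
      simp only [Prod.fst_add, Prod.snd_add, e_add_left]
      ac_rfl)
    (by
      intro x y z
      simp only [Prod.fst_add, Prod.snd_add, e_add_right]
      ac_rfl)
    (by
      intro i x y
      simp only [AddMonoidHom.prod_apply, AddMonoidHom.prodMap_def, AddMonoidHom.coe_comp,
        Function.comp_apply, AddMonoidHom.coe_fst, AddMonoidHom.coe_snd, e_adj])
    eB eB_nd
    (by
      intro z y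
      simp only [AddMonoidHom.coprod_apply, AddMonoidHom.prod_apply, eB_add_right, adj0, adj1, adj2])
    (by
      rintro ⟨y0, y1, y2⟩ hy h
      rw [mem_genKer_prodMap', mem_genKer_prodMap'] at hy
      have h' : a0 y0 + a1 y1 + a2 y2 = 0 := by
        rw [add_assoc]
        simpa only [AddMonoidHom.coprod_apply] using h
      obtain ⟨r0, r1, r2⟩ := hinj y0 hy.1 y1 hy.2.1 y2 hy.2.2 h'
      rw [r0, r1, r2]
      rfl)
    (x := (e0, e1, e2))
    (by
      rw [mem_genKer_prodMap', mem_genKer_prodMap']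
      exact ⟨h0, h1, h2⟩)
  obtain ⟨w, hw, hwe⟩ := key
  exact ⟨w, hw, congrArg Prod.fst hwe, congrArg (fun t => t.2.1) hwe,
    congrArg (fun t => t.2.2) hwe⟩

end Fermat.Agent.S43.Size
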