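import Fermat.Agent.S43.Size.SurjAbs
import Fermat.Agent.S43.Size.SurjTriple
import Fermat.Agent.S43.Size.DTDMat
import Fermat.Agent.S43.Size.DTDEquiv
import Fermat.Agent.S41.Dual.Frob
import Fermat.Agent.GAL.S31.RootsOfUnity

/-!
# S43 / Size / Surj : `δᵗ = (π_{1 *}, π_{s *}, π_{s² *})` is onto on the generalised eigenspaces, at every level `n = p ^ m`

* `kvPair_nondeg_pow`      : the Weil pairing on `KV K F (p ^ m)` is nondegenerate;
* `heckeTtot_selfadj_gen`  : `T_ℓ` (`ℓ ∤ M n`) is self adjoint on `KV Kbar (FN M) n`, any `n ≠ 0`;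
* `alphaKV_heckeTtot`, `betaKV_heckeTtot` : the push-forwards commute with `T_ℓ`;
* `surj_dt`                : **the export**.
-/

set_option autoImplicit false
set_option linter.unusedSectionVars false
set_option linter.style.haveILetI false

noncomputable section

namespace Fermat.Agent.S43.Size

open AlgebraicCurve ModularCurve Fermat.Agent.S24 Fermat.Agent.GAL Fermat.Agent.GAL.Hecke
  Fermat.Agent.DR Fermat.Agent.DR.Hecke Fermat.Agent.S36 Fermat.Agent.S36.Hecke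
  Fermat.Agent.S41.Dual Fermat.Agent.Lib.RR Fermat.Agent.S19.Weil Fermat.Agent.S15.H

attribute [local instance] Fermat.Agent.GAL.Desc.isFF_FF_Kbar

section General

universe u v

variable {K : Type u} {F : Type v} [Field K] [IsAlgClosed K] [CharZero K] [Field F] [Algebra K F]
  [Lib.RR.IsFF K F]

/-- nondegeneracy of the Weil pairing at a prime power level. -/
theorem kvPair_nondeg_pow (p : ℕ) (hp : p.Prime) (m : ℕ) (hn : p ^ m ≠ 0) (x : KV K F (p ^ m))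
    (h : ∀ y : KV K F (p ^ m), kvPair (p ^ m) hn x y = 1) : x = 0 := by
  apply kvPic_injective (K := K) (F := F) (p ^ m) hn
  rw [map_zero]
  refine Fermat.Agent.S19.ND.weil_separates K F Fermat.Agent.S19.DIV.divStatement p hp m
    (kvPic_mem_torsion (p ^ m) hn x) (zero_mem _) fun y hy => ?_
  rw [weil_zero_left]
  rw [Pic0.mem_torsion, natCast_zsmul] at hy
  obtain ⟨y', rfl⟩ := exists_kvPic_eq (K := K) (F := F) (p ^ m) hn y hy
  exact h y'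

theorem kvPair_nondeg_pow_right (p : ℕ) (hp : p.Prime) (m : ℕ) (hn : p ^ m ≠ 0)
    (y : KV K F (p ^ m)) (h : ∀ x : KV K F (p ^ m), kvPair (p ^ m) hn x y = 1) : y = 0 := by
  apply kvPair_nondeg_pow p hp m hn
  intro x
  rw [kvPair_swap, h x, inv_one]

end General

section Level

variable (M : ℕ) [NeZero M]

/-- a Frobenius at `ℓ ∤ n` raises the values of the pairing to the power `ℓ`. -/
theorem kvPair_frob_gen {n : ℕ} (hn : n ≠ 0) {ℓ : ℕ} (hℓ : ℓ.Prime) (hℓn : ¬ ℓ ∣ n)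
    {A : ValuationSubring Kbar} (hA : A.LiesOverPrime ℓ) {σ : Kbar ≃ₐ[ℚ] Kbar}
    (hσ : A.IsFrobeniusAt σ ℓ) (x y : KV Kbar (FN M) n) :
    kvPair n hn (σ • x) (σ • y) = kvPair n hn x y ^ ℓ := by
  apply Units.ext
  rw [kvPair_gal, Units.val_pow_eq_pow_val]
  refine Fermat.Agent.GAL.S31.frobenius_apply_root A hℓ hA hσ hℓn ?_
  rw [← Units.val_pow_eq_pow_val, kvPair_pow, Units.val_one]

/-- **`T_ℓ` is self adjoint**, any level `n`. -/
theorem heckeTtot_selfadj_gen {n : ℕ} (hn : n ≠ 0) {ℓ : ℕ} (hℓ : ℓ.Prime) (hℓM : ¬ ℓ ∣ M * n)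
    (x y : KV Kbar (FN M) n) :
    kvPair n hn (heckeTtot M n ℓ x) y = kvPair n hn x (heckeTtot M n ℓ y) := by
  obtain ⟨A, σ, hA, hσ⟩ := exists_frob hℓ
  have hℓn : ¬ ℓ ∣ n := fun h => hℓM (h.mul_left M)
  rw [heckeTtot_eq_frob M n hn hℓ hℓM hA hσ, heckeTtot_eq_frob M n hn hℓ hℓM hA hσ,
    kvPair_add_left, kvPair_add_right, kvPair_nsmul_left, kvPair_nsmul_right]
  have h1 : kvPair n hn (σ • x) y = kvPair n hn x (σ⁻¹ • y) ^ ℓ := by
    rw [← kvPair_frob_gen M hn hℓ hℓn hA hσ, smul_inv_smul]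
  have h2 : kvPair n hn (σ⁻¹ • x) y ^ ℓ = kvPair n hn x (σ • y) := by
    rw [← kvPair_frob_gen M hn hℓ hℓn hA hσ, smul_inv_smul]
  rw [h1, h2, mul_comm]

variable (q : ℕ) [NeZero q]

/-- `α_*` commutes with `T_ℓ`, `ℓ ∤ M q n`. -/
theorem alphaKV_heckeTtot {n : ℕ} (hn : n ≠ 0) {ℓ : ℕ} (hℓ : ℓ.Prime) (hℓM : ¬ ℓ ∣ M * q * n)
    (z : KV Kbar (FN (M * q)) n) :
    alphaKV M q n (heckeTtot (M * q) n ℓ z) = heckeTtot M n ℓ (alphaKV M q n z) := by
  obtain ⟨A, σ, hA, hσ⟩ := exists_frob hℓ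
  have h1 : ¬ ℓ ∣ M * n := fun h => hℓM (h.trans ⟨q, by ring⟩)
  rw [heckeTtot_eq_frob M n hn hℓ h1 hA hσ, heckeTtot_eq_frob (M * q) n hn hℓ hℓM hA hσ,
    map_add, map_nsmul, alphaKV_smul, alphaKV_smul]

/-- `β_*` commutes with `T_ℓ`, `ℓ ∤ M q n`. -/
theorem betaKV_heckeTtot {n : ℕ} (hn : n ≠ 0) {ℓ : ℕ} (hℓ : ℓ.Prime) (hℓM : ¬ ℓ ∣ M * q * n)
    (z : KV Kbar (FN (M * q)) n) :
    betaKV M q n (heckeTtot (M * q) n ℓ z) = heckeTtot M n ℓ (betaKV M q n z) := by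
  obtain ⟨A, σ, hA, hσ⟩ := exists_frob hℓ
  have h1 : ¬ ℓ ∣ M * n := fun h => hℓM (h.trans ⟨q, by ring⟩)
  rw [heckeTtot_eq_frob M n hn hℓ h1 hA hσ, heckeTtot_eq_frob (M * q) n hn hℓ hℓM hA hσ,
    map_add, map_nsmul, betaKV_smul, betaKV_smul]

/-- `e(z, α^* x) = e(α_* z, x)`. -/
theorem adjR_alpha {n : ℕ} (hn : n ≠ 0) (x : KV Kbar (FN M) n) (z : KV Kbar (FN (M * q)) n) :
    kvPair n hn z (aPull M q n x) = kvPair n hn (alphaKV M q n z) x := by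
  rw [kvPair_swap, adj_alpha, ← kvPair_swap]

/-- `e(z, β^* x) = e(β_* z, x)`. -/
theorem adjR_beta {n : ℕ} (hn : n ≠ 0) (x : KV Kbar (FN M) n) (z : KV Kbar (FN (M * q)) n) :
    kvPair n hn z (bPull M q n x) = kvPair n hn (betaKV M q n z) x := by
  rw [kvPair_swap, adj_beta, ← kvPair_swap]

end Level

section Main

variable {L s : ℕ} [NeZero L] [NeZero s] {n : ℕ}

theorem adj_pull1 (hn : n ≠ 0) (x : KV Kbar (FN L) n) (z : KV Kbar (FN (L * s * s)) n) :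
    kvPair n hn z (pull1 L s n x) = kvPair n hn (push1 L s n z) x := by
  simp only [pull1, push1, AddMonoidHom.comp_apply]
  rw [adjR_alpha, adjR_alpha]

theorem adj_pullS (hn : n ≠ 0) (x : KV Kbar (FN L) n) (z : KV Kbar (FN (L * s * s)) n) :
    kvPair n hn z (pullS L s n x) = kvPair n hn (pushS L s n z) x := by
  simp only [pullS, pushS, AddMonoidHom.comp_apply]
  rw [aPull_bPull, adjR_beta, adjR_alpha]

theorem adj_pullS2 (hn : n ≠ 0) (x : KV Kbar (FN L) n) (z : KV Kbar (FN (L * s * s)) n) :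
    kvPair n hn z (pullS2 L s n x) = kvPair n hn (pushS2 L s n z) x := by
  simp only [pullS2, pushS2, AddMonoidHom.comp_apply]
  rw [adjR_beta, adjR_beta]

theorem not_dvd_aux {ℓ : ℕ} (hℓ : ℓ.Prime) (h : ¬ ℓ ∣ L * s * n) : ¬ ℓ ∣ L * s * s * n := by
  intro h'
  rcases (hℓ.dvd_mul.1 h') with h' | h'
  · rcases (hℓ.dvd_mul.1 h') with h' | h'
    · exact h (h'.mul_right n)
    · exact h ((h'.mul_left L).mul_right n)
  · exact h (h'.mul_left _)

theorem push1_heckeTtot (hn : n ≠ 0) {ℓ : ℕ} (hℓ : ℓ.Prime) (h : ¬ ℓ ∣ L * s * n)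
    (z : KV Kbar (FN (L * s * s)) n) :
    push1 L s n (heckeTtot (L * s * s) n ℓ z) = heckeTtot L n ℓ (push1 L s n z) := by
  simp only [push1, AddMonoidHom.comp_apply]
  rw [alphaKV_heckeTtot (L * s) s hn hℓ (not_dvd_aux hℓ h), alphaKV_heckeTtot L s hn hℓ h]

theorem pushS_heckeTtot (hn : n ≠ 0) {ℓ : ℕ} (hℓ : ℓ.Prime) (h : ¬ ℓ ∣ L * s * n)
    (z : KV Kbar (FN (L * s * s)) n) :
    pushS L s n (heckeTtot (L * s * s) n ℓ z) = heckeTtot L n ℓ (pushS L s n z) := by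
  simp only [pushS, AddMonoidHom.comp_apply]
  rw [betaKV_heckeTtot (L * s) s hn hℓ (not_dvd_aux hℓ h), alphaKV_heckeTtot L s hn hℓ h]

theorem pushS2_heckeTtot (hn : n ≠ 0) {ℓ : ℕ} (hℓ : ℓ.Prime) (h : ¬ ℓ ∣ L * s * n)
    (z : KV Kbar (FN (L * s * s)) n) :
    pushS2 L s n (heckeTtot (L * s * s) n ℓ z) = heckeTtot L n ℓ (pushS2 L s n z) := by
  simp only [pushS2, AddMonoidHom.comp_apply]
  rw [betaKV_heckeTtot (L * s) s hn hℓ (not_dvd_aux hℓ h), betaKV_heckeTtot L s hn hℓ h]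

/-- `U_i = T_{ℓ i} - a i` on `KV Kbar (FN N) n`. -/
def uOp (N : ℕ) [NeZero N] (n : ℕ) {ι : Type*} (ℓ : ι → ℕ) (a : ι → ℤ) (i : ι) :
    KV Kbar (FN N) n →+ KV Kbar (FN N) n :=
  heckeTtot N n (ℓ i) - a i • AddMonoidHom.id _

theorem uOp_apply (N : ℕ) [NeZero N] (n : ℕ) {ι : Type*} (ℓ : ι → ℕ) (a : ι → ℤ) (i : ι)
    (x : KV Kbar (FN N) n) : uOp N n ℓ a i x = heckeTtot N n (ℓ i) x - a i • x := rfl

theorem iterate_prodMap {X Y : Type*} [AddCommGroup X] [AddCommGroup Y] (f : X →+ X) (g : Y →+ Y)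
    (k : ℕ) (x : X) (y : Y) : (f.prodMap g)^[k] (x, y) = (f^[k] x, g^[k] y) := by
  induction k generalizing x y with
  | zero => rfl
  | succ k ih =>
    rw [Function.iterate_succ_apply, Function.iterate_succ_apply, Function.iterate_succ_apply]
    exact ih (f x) (g y)

theorem mem_genKer_prodMap {ι X Y : Type*} [AddCommGroup X] [AddCommGroup Y] (f : ι → X →+ X)
    (g : ι → Y →+ Y) (x : X) (y : Y) :
    (x, y) ∈ genKer (fun i => (f i).prodMap (g i)) ↔ x ∈ genKer f ∧ y ∈ genKer g := by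
  constructor
  · intro h
    refine ⟨fun i => ?_, fun i => ?_⟩
    · obtain ⟨k, hk⟩ := h i
      rw [iterate_prodMap] at hk
      exact ⟨k, congrArg Prod.fst hk⟩
    · obtain ⟨k, hk⟩ := h i
      rw [iterate_prodMap] at hk
      exact ⟨k, congrArg Prod.snd hk⟩
  · rintro ⟨hx, hy⟩ i
    obtain ⟨k, hk⟩ := hx i
    obtain ⟨l, hl⟩ := hy i
    refine ⟨max k l, ?_⟩
    rw [iterate_prodMap, iterate_eq_zero_of_le _ hk (le_max_left k l),
      iterate_eq_zero_of_le _ hl (le_max_right k l)]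
    rfl

/-- **`δᵗ` is onto on the generalised eigenspaces** (level `n = p ^ m`), if `δ` is injective there. -/
theorem surj_dt {p m : ℕ} (hp : p.Prime) {ι : Type*} (ℓ : ι → ℕ) (hℓ : ∀ i, (ℓ i).Prime)
    (hℓN : ∀ i, ¬ ℓ i ∣ L * s * p ^ m) (a : ι → ℤ)
    (hinj : ∀ y0 ∈ genKer (uOp L (p ^ m) ℓ a), ∀ y1 ∈ genKer (uOp L (p ^ m) ℓ a),
      ∀ y2 ∈ genKer (uOp L (p ^ m) ℓ a), dlt L s (p ^ m) y0 y1 y2 = 0 → y0 = 0 ∧ y1 = 0 ∧ y2 = 0)
    {e0 e1 e2 : KV Kbar (FN L) (p ^ m)} (h0 : e0 ∈ genKer (uOp L (p ^ m) ℓ a))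
    (h1 : e1 ∈ genKer (uOp L (p ^ m) ℓ a)) (h2 : e2 ∈ genKer (uOp L (p ^ m) ℓ a)) :
    ∃ w ∈ genKer (uOp (L * s * s) (p ^ m) ℓ a),
      push1 L s (p ^ m) w = e0 ∧ pushS L s (p ^ m) w = e1 ∧ pushS2 L s (p ^ m) w = e2 := by
  have hn : p ^ m ≠ 0 := pow_ne_zero m hp.ne_zero
  haveI : Finite (KV Kbar (FN L) (p ^ m)) := finite_KV L (p ^ m) hn
  haveI : Finite (KV Kbar (FN (L * s * s)) (p ^ m)) := finite_KV (L * s * s) (p ^ m) hn
  have hLN : ∀ i, ¬ ℓ i ∣ L * p ^ m := fun i h => hℓN i (h.trans ⟨s, by ring⟩)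
  have hBN : ∀ i, ¬ ℓ i ∣ L * s * s := fun i h => not_dvd_aux (hℓ i) (hℓN i) (h.mul_right _)
  have hUadj : ∀ i x y, kvPair (p ^ m) hn (uOp L (p ^ m) ℓ a i x) y
      = kvPair (p ^ m) hn x (uOp L (p ^ m) ℓ a i y) := by
    intro i x y
    rw [uOp_apply, uOp_apply, sub_eq_add_neg, sub_eq_add_neg, kvPair_add_left, kvPair_add_right,
      kvPair_neg_left, kvPair_neg_right, kvPair_zsmul_left, kvPair_zsmul_right,
      heckeTtot_selfadj_gen L hn (hℓ i) (hLN i)]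
  have hUB : ∀ i j x, uOp (L * s * s) (p ^ m) ℓ a i (uOp (L * s * s) (p ^ m) ℓ a j x)
      = uOp (L * s * s) (p ^ m) ℓ a j (uOp (L * s * s) (p ^ m) ℓ a i x) := by
    intro i j x
    simp only [uOp_apply, map_sub, map_zsmul, smul_sub]
    rw [heckeTtot_comm (L * s * s) (p ^ m) hn (hℓ i) (hℓ j) (hBN i) (hBN j),
      smul_comm (a i) (a j) x]
    abel
  have hb0 : ∀ i x, push1 L s (p ^ m) (uOp (L * s * s) (p ^ m) ℓ a i x)
      = uOp L (p ^ m) ℓ a i (push1 L s (p ^ m) x) := by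
    intro i x
    rw [uOp_apply, uOp_apply, map_sub, map_zsmul, push1_heckeTtot hn (hℓ i) (hℓN i)]
  have hb1 : ∀ i x, pushS L s (p ^ m) (uOp (L * s * s) (p ^ m) ℓ a i x)
      = uOp L (p ^ m) ℓ a i (pushS L s (p ^ m) x) := by
    intro i x
    rw [uOp_apply, uOp_apply, map_sub, map_zsmul, pushS_heckeTtot hn (hℓ i) (hℓN i)]
  have hb2 : ∀ i x, pushS2 L s (p ^ m) (uOp (L * s * s) (p ^ m) ℓ a i x)
      = uOp L (p ^ m) ℓ a i (pushS2 L s (p ^ m) x) := by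
    intro i x
    rw [uOp_apply, uOp_apply, map_sub, map_zsmul, pushS2_heckeTtot hn (hℓ i) (hℓN i)]
  exact surj_triple (K := Kbar) (uOp L (p ^ m) ℓ a) (uOp (L * s * s) (p ^ m) ℓ a) hUB
    (pull1 L s (p ^ m)) (pullS L s (p ^ m)) (pullS2 L s (p ^ m))
    (push1 L s (p ^ m)) (pushS L s (p ^ m)) (pushS2 L s (p ^ m)) hb0 hb1 hb2
    (kvPair (p ^ m) hn) (fun x y z => kvPair_add_left (p ^ m) hn x y z)
    (fun x y z => kvPair_add_right (p ^ m) hn x y z) hUadj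
    (kvPair (p ^ m) hn) (fun x y z => kvPair_add_right (p ^ m) hn x y z)
    (kvPair_nondeg_pow_right p hp m hn)
    (fun z y => adj_pull1 hn y z) (fun z y => adj_pullS hn y z) (fun z y => adj_pullS2 hn y z)
    hinj h0 h1 h2

end Main

end Fermat.Agent.S43.Size
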