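import Fermat.Agent.S43.Size.Step
import Fermat.Agent.S43.Size.Sigma
import Fermat.Agent.S43.Size.QuadCor
import Fermat.Agent.S43.Size.EInjC
import Fermat.Agent.S43.Size.HY
import Fermat.Agent.S43.Size.Surj
import Fermat.Agent.S43.Size.Lift
import Fermat.Agent.S43.Size.Unram
import Fermat.Agent.S43.Loc.Module
import Fermat.Agent.S43.Tower.Conc

/-!
# S43 / Size / Main : **Theorem G, one prime**, unconditional form (modulo `Ctrl.CtrlStatement`)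

`size_core` : `stepG` with its six hypotheses discharged (`σ` = any inertia element with the two module properties of a tame generator);
`sizeAt`    : the contract `Tower.SizeAt` of `Tower/Conc.lean`, for `σ` with `Loc.IsTameGen`.
-/

set_option autoImplicit false
set_option linter.style.haveILetI false
set_option linter.unusedSectionVars false

noncomputable section

namespace Fermat.Agent.S43.Size

open AlgebraicCurve ModularCurve Fermat.Agent.S24 Fermat.Agent.GAL Fermat.Agent.GAL.Hecke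
  Fermat.Agent.DR Fermat.Agent.DR.Hecke Fermat.Agent.S36 Fermat.Agent.S36.Hecke
  Fermat.Agent.S41.Dual Fermat.Agent.S43.Tower Fermat.Agent.MR.Glue Fermat.Agent.MR.E

/-- `th` in the `genKer` language of `surj_dt`. -/
theorem mem_th_iff_genKer (N n D : ℕ) [NeZero N] (a : ℕ → ℤ) (x : KV Kbar (FN N) n) :
    x ∈ th N n D a ↔ x ∈ genKer (uOp N n (fun ℓ : Idx D => ℓ.1) (fun ℓ => a ℓ.1)) :=
  mem_gen_iff_genKer _ _ x

/-- `surj_dt` for `th`, exponent `n = p ^ e`. -/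
theorem surj_th {p : ℕ} (hp : p.Prime) (L s n e D : ℕ) [NeZero L] [NeZero s] (hn : n = p ^ e)
    (hD : L * s * p ∣ D) (a : ℕ → ℤ)
    (hinj : ∀ y0 ∈ th L n D a, ∀ y1 ∈ th L n D a, ∀ y2 ∈ th L n D a,
      dlt L s n y0 y1 y2 = 0 → y0 = 0 ∧ y1 = 0 ∧ y2 = 0) :
    ∀ y0 ∈ th L n D a, ∀ y1 ∈ th L n D a, ∀ y2 ∈ th L n D a, ∃ w ∈ th (L * s * s) n D a,
      push1 L s n w = y0 ∧ pushS L s n w = y1 ∧ pushS2 L s n w = y2 := by
  subst hn
  intro y0 h0 y1 h1 y2 h2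
  simp only [mem_th_iff_genKer] at hinj h0 h1 h2 ⊢
  refine surj_dt hp (fun ℓ : Idx D => ℓ.1) (fun ℓ => ℓ.2.1) (fun ℓ h => ?_)
    (fun ℓ => a ℓ.1) hinj h0 h1 h2
  have h1 : ¬ ℓ.1 ∣ L * s * p := fun h' => ℓ.2.2 (h'.trans hD)
  rcases (ℓ.2.1.dvd_mul.1 h) with h | h
  · exact h1 (h.mul_right p)
  · exact h1 ((ℓ.2.1.dvd_of_dvd_pow h).mul_left _)

/-- a pointwise nilpotent map on a finite group is uniformly nilpotent. -/
theorem exists_uniform_iterate {V : Type*} [AddCommGroup V] [Finite V] (f : V → V) (hf : f 0 = 0)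
    (G : AddSubgroup V) (h : ∀ x ∈ G, ∃ M : ℕ, f^[M] x = 0) : ∃ M : ℕ, ∀ x ∈ G, f^[M] x = 0 := by
  classical
  cases nonempty_fintype V
  let M : V → ℕ := fun x => if hx : x ∈ G then (h x hx).choose else 0
  refine ⟨Finset.univ.sup M, fun x hx => ?_⟩
  have h1 : M x ≤ Finset.univ.sup M := Finset.le_sup (Finset.mem_univ x)
  have h2 : f^[M x] x = 0 := by
    simp only [M, dif_pos hx]
    exact (h x hx).choose_spec
  obtain ⟨j, hj⟩ := Nat.exists_eq_add_of_le h1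
  rw [hj, add_comm, Function.iterate_add_apply, h2, Function.iterate_fixed hf]

/-- **Theorem G, one prime**; `σ` is any element of the inertia group with the two properties `hσfix`, `hσrel` of a tame generator. -/
theorem size_core (hC : Ctrl.CtrlStatement) (P : FreyPackage) (W : WeierstrassCurve ℤ)
    (hW : W.IsIntegralModelOf P.freyCurve) {L s : ℕ} [NeZero L] [NeZero s] (hs : s.Prime)
    (hsL : ¬ s ∣ L) (hneat : 4 ∣ L ∨ 9 ∣ L) (hsp : s ≠ P.p) (k c : ℕ) (hk : k ≠ 0)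
    (hsc : s = P.p ^ k * c + 1) (hc : ¬ P.p ∣ c)
    (D : ℕ) (hD0 : D ≠ 0) (hD : L * s * P.p ∣ D)
    (A : ValuationSubring Kbar) (hA : A.LiesOverPrime s)
    (hur : ∀ τ ∈ A.inertiaSubgroupIn ℚ, ∀ y : Ep P, τ • y = y)
    (φ : GQ) (hφ : A.IsFrobeniusAt φ s) (hTW : TWAt P s φ)
    (σ : GQ) (hσ : σ ∈ A.inertiaSubgroupIn ℚ)
    (hσfix : ∀ x ∈ th (L * s * s) (P.p * P.p ^ (3 * k)) D W.apOfModel, σ • x = x →
      ∀ τ ∈ A.inertiaSubgroupIn ℚ, τ • x = x)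
    (hσrel : ∀ x ∈ th (L * s * s) (P.p * P.p ^ (3 * k)) D W.apOfModel,
      (φ * σ * φ⁻¹) • x = σ ^ s • x)
    (x : KV Kbar (FN L) P.p) (hx : x ∈ th L P.p D W.apOfModel) :
    ∃ w ∈ th (L * s * s) P.p D W.apOfModel,
      nrm (L * s * s) P.p σ (P.p ^ k) w = zOf L s P.p x := by
  have hp : P.p.Prime := P.pp
  haveI : Fact P.p.Prime := ⟨hp⟩
  have hp2 : P.p ≠ 2 := by have := P.hp5; omega
  have hn : P.p * P.p ^ (3 * k) = P.p ^ (3 * k + 1) := by rw [pow_succ, mul_comm]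
  have hn0 : P.p * P.p ^ (3 * k) ≠ 0 := mul_ne_zero hp.ne_zero (pow_ne_zero _ hp.ne_zero)
  haveI : NeZero (P.p * P.p ^ (3 * k)) := ⟨hn0⟩
  have hLD : L ∣ D := (Dvd.intro _ (by rw [mul_assoc])).trans hD
  have hpk : P.p ∣ P.p ^ k * c := (dvd_pow_self P.p hk).mul_right c
  have hs1 : (P.p : ℤ) ∣ (s : ℤ) - 1 := by
    rw [hsc]
    push_cast
    rw [add_sub_cancel_right]
    exact_mod_cast hpk
  have hs1' : ¬ P.p ∣ s + 1 := by
    intro h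
    rw [hsc, add_assoc] at h
    have h2 : P.p ∣ 2 := (Nat.dvd_add_right hpk).1 h
    exact hp2 ((Nat.prime_dvd_prime_iff_eq hp Nat.prime_two).1 h2)
  have hsn : ¬ s ∣ P.p * P.p ^ (3 * k) := by
    rw [hn]
    exact not_dvd_pow_of_ne_qc hp hs hsp
  obtain ⟨t, ht, hqL⟩ := quad_frob_th P W hW L _ (3 * k) D hn hD0 hs hsp A hA φ hφ hTW
  haveI : Finite (KV Kbar (FN (L * s * s)) (P.p * P.p ^ (3 * k))) := finite_KV _ _ hn0
  have hnil := exists_uniform_iterate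
    (fun y : KV Kbar (FN (L * s * s)) (P.p * P.p ^ (3 * k)) => σ • y - y)
    (by simp) (th (L * s * s) (P.p * P.p ^ (3 * k)) D W.apOfModel)
    (unip_th P W hW (L * s * s) _ (3 * k) D hn hD0 hs hsp A hA hur σ hσ)
  exact stepG hp hs hsL hsp k c hsc hc D hD W.apOfModel σ
    (fun y => kv_unram L _ s (Nat.pos_of_ne_zero hn0) hs hsL hsn A hA σ hσ y)
    (sigma_rel P.p (3 * k + 1) hn A hs hA hsp _ (fun g y hy => smul_mem_th g hy) hσ hnil hσrel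
      (P.p ^ k) c hsc hc hs1')
    (fun y hy hσy => hY1 hC P W hW L s D _ (3 * k) hs hsL hneat A hA hsp.symm hn hD hD0 φ hφ hs1 hTW
      y hy (hσfix y hy hσy))
    (eOp_inj hp L s _ _ D hn hs hsL hsp hLD W.apOfModel t hs1 ht A hA φ hφ hqL)
    (surj_th hp L s _ _ D hn hD W.apOfModel fun y0 h0 y1 h1 y2 h2 h =>
      hY2 hC P W hW L s D _ (3 * k) hs hsL hneat A hA hsp.symm hn hD hD0 φ hφ hs1 hTW
        y0 y1 y2 h0 h1 h2 h)
    (hlift hLD hp (3 * k) W.apOfModel)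
    x hx

/-- `th` and `Tower.genKV`. -/
theorem th_eq_genKV (N n D : ℕ) [NeZero N] (S : Finset ℕ) (a : ℕ → ℤ)
    (h : ∀ ℓ : ℕ, ℓ.Prime → (ℓ ∣ D ↔ ℓ ∈ S)) : th N n D a = Tower.genKV N n S a := by
  ext x
  constructor
  · intro hx i
    exact hx ⟨i.1, i.2.1, fun hd => i.2.2 ((h _ i.2.1).1 hd)⟩
  · intro hx i
    exact hx ⟨i.1, i.2.1, fun hd => i.2.2 ((h _ i.2.1).2 hd)⟩

/-- **The contract `Tower.SizeAt`.** -/
theorem sizeAt (hC : Ctrl.CtrlStatement) (P : FreyPackage) [Fact P.p.Prime] (W : WeierstrassCurve ℤ)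
    (hW : W.IsIntegralModelOf P.freyCurve) (S : Finset ℕ) (hpS : P.p ∈ S)
    (Pl : Fermat.Agent.PT.Local.Plc) [NeZero Pl.ℓ] (hsp : Pl.ℓ ≠ P.p) (k c : ℕ) (hk : k ≠ 0)
    (hsc : Pl.ℓ = P.p ^ k * c + 1) (hc : ¬ P.p ∣ c)
    (hur : ∀ τ ∈ Pl.A.inertiaSubgroupIn ℚ, ∀ y : Ep P, τ • y = y)
    (hTW : ∀ φ : GQ, Pl.A.IsFrobeniusAt φ Pl.ℓ → TWAt P Pl.ℓ φ)
    (σ : GQ) (hσ : Loc.IsTameGen P.p Pl σ) :
    Tower.SizeAt P.p S W.apOfModel Pl.ℓ σ (P.p ^ k) := by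
  have hp : P.p.Prime := P.pp
  intro L _ hsL h4 hS z hz
  obtain ⟨φ, hφ⟩ := Fermat.Agent.Lib.Frobenius.exists_isFrobeniusAt Pl.A Pl.prime Pl.liesOver
  set D : ℕ := L * Pl.ℓ * P.p * ∏ r ∈ S.filter Nat.Prime, r with hDdef
  have hprod0 : ∏ r ∈ S.filter Nat.Prime, r ≠ 0 :=
    Finset.prod_ne_zero_iff.2 fun r hr => (Finset.mem_filter.1 hr).2.ne_zero
  have hD0 : D ≠ 0 :=
    mul_ne_zero (mul_ne_zero (mul_ne_zero (NeZero.ne L) Pl.prime.ne_zero) hp.ne_zero) hprod0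
  have hD : L * Pl.ℓ * P.p ∣ D := Dvd.intro _ rfl
  have hDS : ∀ ℓ : ℕ, ℓ.Prime → (ℓ ∣ D ↔ ℓ ∈ S) := by
    intro ℓ hℓ
    constructor
    · intro h
      rcases hℓ.dvd_mul.1 h with h | h
      · rcases hℓ.dvd_mul.1 h with h | h
        · exact hS ℓ hℓ (h.mul_right _)
        · rw [(Nat.prime_dvd_prime_iff_eq hℓ hp).1 h]
          exact hpS
      · obtain ⟨r, hr, hd⟩ := (Prime.dvd_finset_prod_iff hℓ.prime _).1 h
        rw [(Nat.prime_dvd_prime_iff_eq hℓ (Finset.mem_filter.1 hr).2).1 hd]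
        exact (Finset.mem_filter.1 hr).1
    · intro h
      exact (Finset.dvd_prod_of_mem _ (Finset.mem_filter.2 ⟨h, hℓ⟩)).mul_left _
  have hn : P.p * P.p ^ (3 * k) = P.p ^ (3 * k + 1) := by rw [pow_succ, mul_comm]
  have hn0 : P.p * P.p ^ (3 * k) ≠ 0 := mul_ne_zero hp.ne_zero (pow_ne_zero _ hp.ne_zero)
  haveI : NeZero (P.p * P.p ^ (3 * k)) := ⟨hn0⟩
  haveI : Finite (KV Kbar (FN (L * Pl.ℓ * Pl.ℓ)) (P.p * P.p ^ (3 * k))) := finite_KV _ _ hn0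
  obtain ⟨F, hF, hFfix⟩ := kv_cont (L * Pl.ℓ * Pl.ℓ) (P.p * P.p ^ (3 * k))
  obtain ⟨hfix, hrel, hσI, -, -⟩ := hσ.module hsp
    (th (L * Pl.ℓ * Pl.ℓ) (P.p * P.p ^ (3 * k)) D W.apOfModel)
    (fun g y hy => smul_mem_th g hy) ⟨F, hF, fun g hg y _ => hFfix g hg y⟩
    ⟨3 * k + 1, fun y _ => by rw [← hn]; exact KV.nsmul_eq_zero y⟩
    (fun τ hτ => unip_th P W hW (L * Pl.ℓ * Pl.ℓ) _ (3 * k) D hn hD0 Pl.prime hsp
      Pl.A Pl.liesOver hur τ hτ)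
  rw [← th_eq_genKV L P.p D S W.apOfModel hDS] at hz
  obtain ⟨w, hw, hwz⟩ := size_core hC P W hW Pl.prime hsL (Or.inl h4) hsp k c hk hsc hc
    D hD0 hD Pl.A Pl.liesOver hur φ hφ (hTW φ hφ) σ hσI hfix (hrel φ hφ) z hz
  exact ⟨w, (th_eq_genKV (L * Pl.ℓ * Pl.ℓ) P.p D S W.apOfModel hDS) ▸ hw, hwz⟩

end Fermat.Agent.S43.Size
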