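import Fermat.Agent.S36.Hecke.Degen2

set_option autoImplicit false
set_option linter.style.haveILetI false
set_option linter.unusedSectionVars false

/-!
# S43 / Size / DTD : `δᵗ δ (s, -T_s, 1)ᵗ = ((s-1)((s+1)² - T_s²), 0, 0)ᵗ` (report 420, Theorem G (a))

Levels `L`, `L s`, `L s s` (`s` prime, `s ∤ L`); `a, b : FN L → FN (L s)`,
`a', b' : FN (L s) → FN (L s s)` the degeneracy maps (`a` = same series, `b` = `t ↦ t^s`).
`π₁ = a' a`, `π_s = a' b = b' a`, `π_{s²} = b' b`.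

For `x ∈ KV (FN L) n` put `zOf x = s π₁^* x - π_s^* (T_s x) + π_{s²}^* x`.  Then
* `betaKV_zOf`  : `b'_* (zOf x) = 0`  (hence `π_{s *}` and `π_{s² *}` kill `zOf x`);
* `alphaKV_zOf` : `a'_* (zOf x) = (s-1) ((s+1) a^* x - b^* T_s x)`;
* `push1_zOf`   : `π_{1 *} (zOf x) = (s-1) ((s+1)² x - T_s² x)`.
-/

noncomputable section

namespace Fermat.Agent.S43.Size

open AlgebraicCurve ModularCurve Fermat.Agent.S24 Fermat.Agent.GAL Fermat.Agent.GAL.Hecke
  Fermat.Agent.DR Fermat.Agent.DR.Hecke Fermat.Agent.S36 Fermat.Agent.S36.Hecke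
  Fermat.Agent.GAL.NormFormula

variable {L s : ℕ} [NeZero L] [NeZero s]

/-! ### identities on functions -/

/-- `a' ∘ b = b' ∘ a`. -/
theorem alpha_beta_eq (x : FN L) :
    heckeAlphaBar Kbar (L * s) s (heckeBetaBar Kbar L s x) =
      heckeBetaBar Kbar (L * s) s (heckeAlphaBar Kbar L s x) := by
  apply Subtype.ext
  rw [coe_heckeAlphaBar, coe_heckeBetaBar, coe_heckeBetaBar, coe_heckeAlphaBar]

/-- **Key identity** `N_{b'}(a' a x) · b x = a (T_s x)`. -/
theorem normBeta_alpha_alpha (hs : s.Prime) (hsL : ¬ s ∣ L) (x : FN L) :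
    normAlong (heckeBetaBar Kbar (L * s) s)
        (heckeAlphaBar Kbar (L * s) s (heckeAlphaBar Kbar L s x)) * heckeBetaBar Kbar L s x =
      heckeAlphaBar Kbar L s (heckeNorm Kbar L s x) := by
  obtain ⟨ζ, hζ⟩ := HasEnoughRootsOfUnity.exists_primitiveRoot Kbar s
  apply Subtype.ext
  apply qExpand_injective (R := Kbar) (N := s)
  rw [coe_heckeAlphaBar, qExpand_heckeNorm hs hsL hζ]
  have h1 : ((normAlong (heckeBetaBar Kbar (L * s) s)
        (heckeAlphaBar Kbar (L * s) s (heckeAlphaBar Kbar L s x)) * heckeBetaBar Kbar L s x :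
          FN (L * s)) : LaurentSeries Kbar) =
      ((normAlong (heckeBetaBar Kbar (L * s) s)
        (heckeAlphaBar Kbar (L * s) s (heckeAlphaBar Kbar L s x)) : FN (L * s)) :
          LaurentSeries Kbar) * ((heckeBetaBar Kbar L s x : FN (L * s)) : LaurentSeries Kbar) := rfl
  rw [h1, map_mul, qExpand_normAlong_beta hs (dvd_mul_left s L) hζ, coe_heckeAlphaBar,
    coe_heckeAlphaBar, coe_heckeBetaBar, mul_comm]

/-- `N_{b'}(b' y) = y^s`. -/
theorem normBeta_beta (hs : s.Prime) (y : FN (L * s)) :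
    normAlong (heckeBetaBar Kbar (L * s) s) (heckeBetaBar Kbar (L * s) s y) = y ^ s := by
  letI := algebraAlong (heckeBetaBar Kbar (L * s) s)
  show Algebra.norm (FN (L * s)) (algebraMap (FN (L * s)) (FN (L * s * s)) y) = _
  rw [Algebra.norm_algebraMap]
  have h : Module.finrank (FN (L * s)) (FN (L * s * s)) = s :=
    finrankAlong_beta_of_dvd hs (dvd_mul_left s L)
  rw [h]

/-- `N_{a'}(a' y) = y^s`. -/
theorem normAlpha_alpha (hs : s.Prime) (y : FN (L * s)) :
    normAlong (heckeAlphaBar Kbar (L * s) s) (heckeAlphaBar Kbar (L * s) s y) = y ^ s := by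
  letI := algebraAlong (heckeAlphaBar Kbar (L * s) s)
  show Algebra.norm (FN (L * s)) (algebraMap (FN (L * s)) (FN (L * s * s)) y) = _
  rw [Algebra.norm_algebraMap]
  have h : Module.finrank (FN (L * s)) (FN (L * s * s)) = s :=
    finrankAlong_alpha_of_dvd hs (dvd_mul_left s L)
  rw [h]

/-- **Key identity, mirrored by Fricke** `N_{a'}(b' b x) · a x = b (T_s x)`. -/
theorem normAlpha_beta_beta (hs : s.Prime) (hsL : ¬ s ∣ L) (x : FN L) :
    normAlong (heckeAlphaBar Kbar (L * s) s)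
        (heckeBetaBar Kbar (L * s) s (heckeBetaBar Kbar L s x)) * heckeAlphaBar Kbar L s x =
      heckeBetaBar Kbar L s (heckeNorm Kbar L s x) := by
  have key := congrArg (fricke (L * s)) (normBeta_alpha_alpha hs hsL (fricke L x))
  rw [map_mul, ← normAlong_alpha_fricke, fricke_alpha, fricke_alpha, fricke_beta, fricke_alpha,
    fricke_fricke, heckeNorm_fricke hs hsL, fricke_fricke] at key
  exact key

/-! ### the same identities on the Kummer models -/

variable (n : ℕ)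

/-- `a'^* b^* = b'^* a^*`. -/
theorem aPull_bPull (x : KV Kbar (FN L) n) :
    aPull (L * s) s n (bPull L s n x) = bPull (L * s) s n (aPull L s n x) := by
  obtain ⟨u, rfl⟩ := KV.mk_surjective x
  rw [bPull_mk, aPull_mk, aPull_mk, bPull_mk]
  exact congrArg KV.mk (Subtype.ext (Units.ext (alpha_beta_eq _)))

/-- `b'_* b'^* = s`. -/
theorem betaKV_bPull (hs : s.Prime) (y : KV Kbar (FN (L * s)) n) :
    betaKV (L * s) s n (bPull (L * s) s n y) = s • y := by
  obtain ⟨u, rfl⟩ := KV.mk_surjective y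
  rw [bPull_mk, betaKV_mk, ← KV.mk_pow]
  exact congrArg KV.mk (Subtype.ext (Units.ext (normBeta_beta hs _)))

/-- `a'_* a'^* = s`. -/
theorem alphaKV_aPull (hs : s.Prime) (y : KV Kbar (FN (L * s)) n) :
    alphaKV (L * s) s n (aPull (L * s) s n y) = s • y := by
  obtain ⟨u, rfl⟩ := KV.mk_surjective y
  rw [aPull_mk, alphaKV_mk, ← KV.mk_pow]
  exact congrArg KV.mk (Subtype.ext (Units.ext (normAlpha_alpha hs _)))

/-- `b'_* a'^* a^* x + b^* x = a^* T_s x`. -/
theorem betaKV_aPull_aPull (hs : s.Prime) (hsL : ¬ s ∣ L) (x : KV Kbar (FN L) n) :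
    betaKV (L * s) s n (aPull (L * s) s n (aPull L s n x)) + bPull L s n x =
      aPull L s n (heckeT Kbar L s n x) := by
  obtain ⟨u, rfl⟩ := KV.mk_surjective x
  rw [heckeT_mk (heckeNormPreserves L s n), aPull_mk, aPull_mk, aPull_mk, betaKV_mk, bPull_mk,
    ← KV.mk_mul]
  exact congrArg KV.mk (Subtype.ext (Units.ext (normBeta_alpha_alpha hs hsL _)))

/-- `a'_* b'^* b^* x + a^* x = b^* T_s x`. -/
theorem alphaKV_bPull_bPull (hs : s.Prime) (hsL : ¬ s ∣ L) (x : KV Kbar (FN L) n) :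
    alphaKV (L * s) s n (bPull (L * s) s n (bPull L s n x)) + aPull L s n x =
      bPull L s n (heckeT Kbar L s n x) := by
  obtain ⟨u, rfl⟩ := KV.mk_surjective x
  rw [heckeT_mk (heckeNormPreserves L s n), bPull_mk, bPull_mk, bPull_mk, alphaKV_mk, aPull_mk,
    ← KV.mk_mul]
  exact congrArg KV.mk (Subtype.ext (Units.ext (normAlpha_beta_beta hs hsL _)))

/-- `a_* b^* = T_s`. -/
theorem alphaKV_bPull (x : KV Kbar (FN L) n) :
    alphaKV L s n (bPull L s n x) = heckeT Kbar L s n x := by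
  obtain ⟨u, rfl⟩ := KV.mk_surjective x
  rw [heckeT_mk (heckeNormPreserves L s n), bPull_mk, alphaKV_mk]
  rfl

/-- `a_* a^* = s + 1`. -/
theorem alphaKV_aPull' (hs : s.Prime) (hsL : ¬ s ∣ L) (x : KV Kbar (FN L) n) :
    alphaKV L s n (aPull L s n x) = (s + 1) • x :=
  aPush_aPull hs hsL x

variable (L s)

/-- `π₁^* = a'^* a^*`. -/
def pull1 : KV Kbar (FN L) n →+ KV Kbar (FN (L * s * s)) n :=
  (aPull (L * s) s n).comp (aPull L s n)

/-- `π_s^* = a'^* b^* = b'^* a^*`. -/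
def pullS : KV Kbar (FN L) n →+ KV Kbar (FN (L * s * s)) n :=
  (aPull (L * s) s n).comp (bPull L s n)

/-- `π_{s²}^* = b'^* b^*`. -/
def pullS2 : KV Kbar (FN L) n →+ KV Kbar (FN (L * s * s)) n :=
  (bPull (L * s) s n).comp (bPull L s n)

/-- `π_{1 *} = a_* a'_*`. -/
def push1 : KV Kbar (FN (L * s * s)) n →+ KV Kbar (FN L) n :=
  (alphaKV L s n).comp (alphaKV (L * s) s n)

/-- `π_{s *} = a_* b'_*`. -/
def pushS : KV Kbar (FN (L * s * s)) n →+ KV Kbar (FN L) n :=
  (alphaKV L s n).comp (betaKV (L * s) s n)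

/-- `π_{s² *} = b_* b'_*`. -/
def pushS2 : KV Kbar (FN (L * s * s)) n →+ KV Kbar (FN L) n :=
  (betaKV L s n).comp (betaKV (L * s) s n)

/-- `δ j x = s π₁^* x - π_s^* T_s x + π_{s²}^* x`. -/
def zOf : KV Kbar (FN L) n →+ KV Kbar (FN (L * s * s)) n :=
  s • pull1 L s n - (pullS L s n).comp (heckeT Kbar L s n) + pullS2 L s n

variable {L s n}

theorem zOf_apply (x : KV Kbar (FN L) n) :
    zOf L s n x = s • aPull (L * s) s n (aPull L s n x) -
      aPull (L * s) s n (bPull L s n (heckeT Kbar L s n x)) +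
      bPull (L * s) s n (bPull L s n x) := rfl

/-- **`b'_* (δ j x) = 0`.** -/
theorem betaKV_zOf (hs : s.Prime) (hsL : ¬ s ∣ L) (x : KV Kbar (FN L) n) :
    betaKV (L * s) s n (zOf L s n x) = 0 := by
  have h1 := betaKV_aPull_aPull n hs hsL x
  rw [zOf_apply, map_add, map_sub, map_nsmul, aPull_bPull, betaKV_bPull n hs, betaKV_bPull n hs,
    ← h1, smul_add]
  abel

/-- **`a'_* (δ j x) = (s-1) ((s+1) a^* x - b^* T_s x)`.** -/
theorem alphaKV_zOf (hs : s.Prime) (hsL : ¬ s ∣ L) (x : KV Kbar (FN L) n) :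
    alphaKV (L * s) s n (zOf L s n x) =
      ((s : ℤ) - 1) • (((s : ℤ) + 1) • aPull L s n x - bPull L s n (heckeT Kbar L s n x)) := by
  have h1 := alphaKV_bPull_bPull n hs hsL x
  have h2 : alphaKV (L * s) s n (bPull (L * s) s n (bPull L s n x)) =
      bPull L s n (heckeT Kbar L s n x) - aPull L s n x := by
    rw [← h1]; abel
  rw [zOf_apply, map_add, map_sub, map_nsmul, alphaKV_aPull n hs, alphaKV_aPull n hs, h2]
  simp only [← natCast_zsmul]
  module

theorem pushS_zOf (hs : s.Prime) (hsL : ¬ s ∣ L) (x : KV Kbar (FN L) n) :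
    pushS L s n (zOf L s n x) = 0 := by
  rw [pushS, AddMonoidHom.comp_apply, betaKV_zOf hs hsL, map_zero]

theorem pushS2_zOf (hs : s.Prime) (hsL : ¬ s ∣ L) (x : KV Kbar (FN L) n) :
    pushS2 L s n (zOf L s n x) = 0 := by
  rw [pushS2, AddMonoidHom.comp_apply, betaKV_zOf hs hsL, map_zero]

/-- **`π_{1 *} (δ j x) = (s-1) ((s+1)² x - T_s² x)`.** -/
theorem push1_zOf (hs : s.Prime) (hsL : ¬ s ∣ L) (x : KV Kbar (FN L) n) :
    push1 L s n (zOf L s n x) =
      ((s : ℤ) - 1) • ((((s : ℤ) + 1) ^ 2) • x - heckeT Kbar L s n (heckeT Kbar L s n x)) := by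
  rw [push1, AddMonoidHom.comp_apply, alphaKV_zOf hs hsL, map_zsmul, map_sub, map_zsmul,
    alphaKV_aPull' n hs hsL, alphaKV_bPull]
  simp only [← natCast_zsmul]
  push_cast
  module

end Fermat.Agent.S43.Size
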