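import Fermat.Agent.S43.Tower.Frob

/-!
# S43 / Size / EInj : `E = (s+1)² - T_s²` is injective on the `θ`-part (all exponents `p^m`)

The Taylor-Wiles prime `s` is EXCLUDED from the Hecke operators which define the `θ`-part, so "`T_s - a_s` nilpotent" is not part of
the definition.  But Eichler-Shimura at `s` (`Φ² - T Φ + s = 0`, `Φ` a Frobenius at `s`) gives `Φ² E = - (Φ² - 1)(Φ² - s²)`, and the
two factors are injective where `Φ² - tΦ + s` is nilpotent (`s = 1`, `t² ≠ 4` mod `p`).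

* `frob_sq_E` : the identity `Φ² E y = - (Φ² - 1)(Φ² - s²) y`;
* `E_inj_p`   : injectivity on `p`-torsion;
* `E_inj`     : injectivity on `p^m`-torsion;
* `E_E_inj`, `kill_of_E_E` : the form consumed after `dtd_ker`.
-/

set_option autoImplicit false

namespace Fermat.Agent.S43.Size

open Fermat.Agent.S43.Tower
open Fermat.Agent.S43.Ctrl (opE)

variable {X : Type*} [AddCommGroup X]

/-- `Φ² E = - (Φ² - 1) (Φ² - s²)`. -/
theorem frob_sq_E (s : ℤ) (Φ T : X →+ X) (hTΦ : ∀ x, T (Φ x) = Φ (T x))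
    (hES : ∀ x, Φ (Φ x) - T (Φ x) + s • x = 0) (y : X) :
    Φ (Φ (((s + 1) ^ 2) • y - T (T y))) = - (Φ (Φ (opE s Φ y)) - opE s Φ y) := by
  have h1 : ∀ x, Φ (T x) = Φ (Φ x) + s • x := by
    intro x
    have := hES x
    rw [hTΦ] at this
    have h : Φ (Φ x) + s • x - Φ (T x) = 0 := by rw [← this]; abel
    exact (sub_eq_zero.1 h).symm
  have h2 : Φ (Φ (T (T y))) = Φ (Φ (Φ (Φ y))) + (2 * s) • Φ (Φ y) + (s * s) • y := by
    have e1 : Φ (Φ (T (T y))) = Φ (T (Φ (T y))) := by rw [hTΦ]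
    rw [e1, h1 y, map_add, map_add, map_zsmul, map_zsmul, h1, h1, smul_add, smul_smul, two_mul,
      add_smul]
    abel
  simp only [opE, map_sub, map_zsmul, h2]
  have e3 : ((s + 1) ^ 2 : ℤ) = s * s + 2 * s + 1 := by ring
  rw [e3, add_smul, add_smul, one_smul]
  abel

variable (p : ℕ) [Fact p.Prime] (t s : ℤ)

/-- injectivity on `p`-torsion. -/
theorem E_inj_p (Φ T : X →+ X) (hTΦ : ∀ x, T (Φ x) = Φ (T x))
    (hES : ∀ x, Φ (Φ x) - T (Φ x) + s • x = 0)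
    (hs : (p : ℤ) ∣ s - 1) (ht : ¬ (p : ℤ) ∣ t ^ 2 - 4)
    (W : AddSubgroup X) (hW : ∀ x ∈ W, Φ x ∈ W)
    (hq : ∀ x ∈ W, ∃ N : ℕ, (quad t s Φ ^ N) x = 0)
    (y : X) (hy : y ∈ W) (hp : p • y = 0) (h0 : ((s + 1) ^ 2) • y - T (T y) = 0) : y = 0 := by
  have h1 := frob_sq_E s Φ T hTΦ hES y
  rw [h0, map_zero, map_zero, eq_comm, neg_eq_zero] at h1
  have m1 : opE s Φ y ∈ W := opE_mem s Φ W hW y hy
  have hp1 : p • opE s Φ y = 0 := by
    rw [opE, smul_sub, ← map_nsmul, ← map_nsmul, smul_comm, hp, map_zero, map_zero, smul_zero,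
      sub_zero]
  -- `s² = 1` on `p`-torsion
  have hss : (s * s) • opE s Φ y = opE s Φ y := by
    obtain ⟨k, hk⟩ := hs
    have e : s * s = 1 + (k * (s + 1)) * p := by
      have : s = 1 + p * k := by linarith
      calc s * s = 1 + (s - 1) * (s + 1) := by ring
        _ = 1 + (k * (s + 1)) * p := by rw [hk]; ring
    rw [e, add_smul, one_smul, mul_smul, natCast_zsmul, hp1, smul_zero, add_zero]
  have h2 : opE s Φ (opE s Φ y) = 0 := by
    have : opE s Φ (opE s Φ y) = Φ (Φ (opE s Φ y)) - (s * s) • opE s Φ y := rfl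
    rw [this, hss, h1]
  have h3 := inj_opE p t s Φ hs ht _ hp1 (hq _ m1) h2
  exact inj_opE p t s Φ hs ht _ hp (hq _ hy) h3

/-- **`E` is injective on the `p^m`-torsion of `W`.** -/
theorem E_inj (Φ T : X →+ X) (hTΦ : ∀ x, T (Φ x) = Φ (T x))
    (hES : ∀ x, Φ (Φ x) - T (Φ x) + s • x = 0)
    (hs : (p : ℤ) ∣ s - 1) (ht : ¬ (p : ℤ) ∣ t ^ 2 - 4)
    (W : AddSubgroup X) (hW : ∀ x ∈ W, Φ x ∈ W)
    (hq : ∀ x ∈ W, ∃ N : ℕ, (quad t s Φ ^ N) x = 0)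
    (m : ℕ) (y : X) (hy : y ∈ W) (hp : p ^ m • y = 0)
    (h0 : ((s + 1) ^ 2) • y - T (T y) = 0) : y = 0 := by
  induction m with
  | zero => simpa using hp
  | succ m ih =>
    apply ih
    apply E_inj_p p t s Φ T hTΦ hES hs ht W hW hq _ (W.nsmul_mem hy _)
    · rw [smul_smul, ← pow_succ']; exact hp
    · rw [map_nsmul, map_nsmul, smul_comm, ← smul_sub, h0, smul_zero]

/-- the form consumed after `dtd_ker`: `c E (E y) = 0 ⟹ c y = 0`. -/
theorem kill_of_E_E (Φ T : X →+ X) (hTΦ : ∀ x, T (Φ x) = Φ (T x))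
    (hES : ∀ x, Φ (Φ x) - T (Φ x) + s • x = 0)
    (hs : (p : ℤ) ∣ s - 1) (ht : ¬ (p : ℤ) ∣ t ^ 2 - 4)
    (W : AddSubgroup X) (hW : ∀ x ∈ W, Φ x ∈ W) (hWT : ∀ x ∈ W, T x ∈ W)
    (hq : ∀ x ∈ W, ∃ N : ℕ, (quad t s Φ ^ N) x = 0)
    (m : ℕ) (hpm : ∀ x ∈ W, p ^ m • x = 0) (c : ℤ) (y : X) (hy : y ∈ W)
    (h0 : c • (((s + 1) ^ 2) • (((s + 1) ^ 2) • y - T (T y))
      - T (T (((s + 1) ^ 2) • y - T (T y)))) = 0) : c • y = 0 := by
  have hE : ∀ x ∈ W, ((s + 1) ^ 2) • x - T (T x) ∈ W := fun x hx =>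
    W.sub_mem (W.zsmul_mem hx _) (hWT _ (hWT _ hx))
  have hc : ∀ x : X, c • (((s + 1) ^ 2) • x - T (T x)) = ((s + 1) ^ 2) • (c • x) - T (T (c • x)) := by
    intro x
    rw [map_zsmul, map_zsmul, smul_sub, smul_comm]
  rw [hc] at h0
  have h1 := E_inj p t s Φ T hTΦ hES hs ht W hW hq m _ (W.zsmul_mem (hE y hy) c)
    (hpm _ (W.zsmul_mem (hE y hy) c)) h0
  rw [hc] at h1
  exact E_inj p t s Φ T hTΦ hES hs ht W hW hq m _ (W.zsmul_mem hy c) (hpm _ (W.zsmul_mem hy c)) h1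

end Fermat.Agent.S43.Size
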