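import Fermat.Agent.S41.Dual.Abs
import Fermat.Agent.S43.Tower.Abs

/-!
# S43 / Size / GenAbs : preimages in generalised eigenspaces (pure algebra)

`r : B →+ A` an intertwiner between finite abelian groups with commuting families of operators.  An element of the generalised
eigenspace of `A` which has a preimage has a preimage in the generalised eigenspace of `B`
(`exists_genKer_preimage` for `S41.Dual.genKer`, `exists_gen_preimage` for `Tower.gen`).
-/

set_option autoImplicit false
set_option linter.unusedSectionVars false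

namespace Fermat.Agent.S43.Size

/-! ### generalised eigenspaces -/

section Abs

open Fermat.Agent.S41.Dual

variable {ι A B : Type*} [AddCommGroup A] [AddCommGroup B]

theorem iterate_intertwine (r : B →+ A) (f : B →+ B) (g : A →+ A) (h : ∀ y, r (f y) = g (r y))
    (n : ℕ) (y : B) : r (f^[n] y) = g^[n] (r y) := by
  induction n generalizing y with
  | zero => rfl
  | succ n ih => rw [Function.iterate_succ_apply, Function.iterate_succ_apply, ih, h]

/-- finite set version. -/
theorem exists_preimage_finset [Finite A] [Finite B] (UA : ι → A →+ A) (UB : ι → B →+ B)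
    (hUB : ∀ i j x, UB i (UB j x) = UB j (UB i x))
    (r : B →+ A) (hr : ∀ i y, r (UB i y) = UA i (r y)) {x : A} (hx : x ∈ genKer UA)
    (y₀ : B) (hy₀ : r y₀ = x) (s : Finset ι) :
    ∃ y : B, r y = x ∧ ∀ i ∈ s, ∃ n : ℕ, (UB i)^[n] y = 0 := by
  classical
  induction s using Finset.induction_on with
  | empty => exact ⟨y₀, hy₀, by simp⟩
  | insert j s _ ih =>
    obtain ⟨y, hy, hys⟩ := ih
    obtain ⟨k, ρ, hk, ⟨n, hn⟩, hρ⟩ := fitting_exists (UB j) y
    refine ⟨k, ?_, ?_⟩
    · -- `x - r k` is killed by a power of `UA j` and lies in all the ranges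
      obtain ⟨m, hm⟩ := hx j
      have h1 : (x - r k) + (- r ρ) = 0 := by
        rw [← hy, hk, map_add]; abel
      have h2 : x - r k = 0 := by
        apply fitting_unique (UA j) h1
        · refine ⟨m + n, ?_⟩
          rw [iterate_map_sub, ← iterate_intertwine r (UB j) (UA j) (hr j)]
          have e1 : (UA j)^[m + n] x = 0 := by
            rw [add_comm, Function.iterate_add_apply, hm, iterate_map_zero]
          have e2 : (UB j)^[m + n] k = 0 := by
            rw [Function.iterate_add_apply, hn, iterate_map_zero]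
          rw [e1, e2, map_zero, sub_zero]
        · intro l
          obtain ⟨c, hc⟩ := hρ l
          exact ⟨- r c, by rw [iterate_map_neg, ← iterate_intertwine r (UB j) (UA j) (hr j), hc]⟩
      exact (sub_eq_zero.mp h2).symm
    · intro i hi
      rcases Finset.mem_insert.1 hi with rfl | hi
      · exact ⟨n, hn⟩
      · obtain ⟨m, hm⟩ := hys i hi
        refine ⟨m, ?_⟩
        apply fitting_unique (UB j) (r := (UB i)^[m] ρ)
        · rw [← iterate_map_add, ← hk, hm]
        · exact ⟨n, by rw [iterate_iterate_comm UB hUB, hn, iterate_map_zero]⟩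
        · intro l
          obtain ⟨c, hc⟩ := hρ l
          exact ⟨(UB i)^[m] c, by rw [iterate_iterate_comm UB hUB, hc]⟩

/-- **Preimages in generalised eigenspaces** (`genKer` form). -/
theorem exists_genKer_preimage [Finite A] [Finite B] (UA : ι → A →+ A) (UB : ι → B →+ B)
    (hUB : ∀ i j x, UB i (UB j x) = UB j (UB i x))
    (r : B →+ A) (hr : ∀ i y, r (UB i y) = UA i (r y)) {x : A} (hx : x ∈ genKer UA)
    (y₀ : B) (hy₀ : r y₀ = x) : ∃ y ∈ genKer UB, r y = x := by
  obtain ⟨s, hs⟩ := exists_finset_genKer UB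
  obtain ⟨y, hy, hys⟩ := exists_preimage_finset UA UB hUB r hr hx y₀ hy₀ s
  exact ⟨y, hs y hys, hy⟩

open Fermat.Agent.S43.Tower

theorem mem_gen_iff_genKer {V : Type*} [AddCommGroup V] (T : ι → AddMonoid.End V) (a : ι → ℤ)
    (x : V) : x ∈ gen T a ↔ x ∈ genKer (fun i => (T i - a i • 1 : AddMonoid.End V)) := by
  rw [mem_gen, mem_genKer]
  refine forall_congr' fun i => exists_congr fun m => ?_
  rw [AddMonoid.End.coe_pow]
  exact Iff.rfl

/-- **Preimages in generalised eigenspaces** (`Tower.gen` form). -/
theorem exists_gen_preimage [Finite A] [Finite B] (TA : ι → AddMonoid.End A)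
    (TB : ι → AddMonoid.End B) (a : ι → ℤ) (hTB : ∀ i j, Commute (TB i) (TB j))
    (r : B →+ A) (hr : ∀ i y, r (TB i y) = TA i (r y)) {x : A} (hx : x ∈ gen TA a)
    (y₀ : B) (hy₀ : r y₀ = x) : ∃ y ∈ gen TB a, r y = x := by
  rw [mem_gen_iff_genKer] at hx
  obtain ⟨y, hy, hyx⟩ := exists_genKer_preimage (fun i => (TA i - a i • 1 : AddMonoid.End A))
    (fun i => (TB i - a i • 1 : AddMonoid.End B)) (by
      intro i j x
      have hc : Commute (TB i - a i • 1 : AddMonoid.End B) (TB j - a j • 1) :=
        (commute_sub_smul ((commute_sub_smul (hTB j i) (a j)).symm) (a i))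
      exact congrArg (fun f : AddMonoid.End B => f x) hc.eq) r (by
      intro i y
      show r (TB i y - a i • y) = TA i (r y) - a i • r y
      rw [map_sub, map_zsmul, hr]) hx y₀ hy₀
  exact ⟨y, (mem_gen_iff_genKer TB a y).2 hy, hyx⟩

end Abs

end Fermat.Agent.S43.Size
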