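import Fermat.Agent.S43.Size.GenAbs
import Fermat.Agent.S43.Size.RedKer
import Fermat.Agent.S43.Size.DTDEquiv

/-!
# S43 / Size / GenRed : `KV.red` on the generalised eigenspaces (`θ`-parts) of `KV Kbar (FN N) n`  (task T1 of block SIZE)

`θ`-part of level `N`, exponent `n`, away from `D` (`N ∣ D`):
`Tower.gen (fun l : {l // l.Prime ∧ ¬ l ∣ D} => heckeTtot N n l) a`.

* `red_surjective'`   : `KV.red : KV K F (m * p^j) → KV K F m` is onto (any `m ≠ 0`);
* `red_gen_onto`      : (i) `KV.red` maps the `θ`-part of exponent `m * p^j` ONTO the `θ`-part of exponent `m`;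
* `exists_nsmul_gen`  : (ii) `x` in the `θ`-part of exponent `p * p^j`, `KV.red x = 0` `⇒` `x = p • y`, `y` in the `θ`-part;
* `exists_nsmul_gen'` : `x` in the `θ`-part of exponent `n`, `x = d • y₀` `⇒` `x = d • y` with `y` in the `θ`-part.
-/

set_option autoImplicit false
set_option linter.style.haveILetI false
set_option linter.unusedSectionVars false

noncomputable section

namespace Fermat.Agent.S43.Size

open AlgebraicCurve ModularCurve Fermat.Agent.S24 Fermat.Agent.GAL Fermat.Agent.GAL.Hecke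
  Fermat.Agent.S41.Dual Fermat.Agent.S15.H Fermat.Agent.Lib.RR

attribute [local instance] Fermat.Agent.GAL.Desc.isFF_FF_Kbar

section Pic

universe u v

variable {K : Type u} {F : Type v} [Field K] [IsAlgClosed K] [CharZero K] [Field F] [Algebra K F]
  [Fermat.Agent.Lib.RR.IsFF K F]

/-- `KV.red : KV K F (m * p^j) → KV K F m` is onto. -/
theorem red_surjective' (m : ℕ) (hm : m ≠ 0) (p : ℕ) (hp : p.Prime) (j : ℕ) (x : KV K F m) :
    ∃ y : KV K F (m * p ^ j), KV.red (Dvd.intro (p ^ j) rfl) y = x := by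
  have hj : p ^ j ≠ 0 := pow_ne_zero _ hp.ne_zero
  obtain ⟨Y, hY⟩ := pic0_divisible_pow (K := K) (F := F) p hp j (kvPic m hm x)
  have h1 : (m * p ^ j) • Y = 0 := by
    rw [mul_smul, hY, nsmul_kvPic]
  obtain ⟨y, hy⟩ := exists_kvPic_eq (K := K) (F := F) (m * p ^ j) (mul_ne_zero hm hj) Y h1
  refine ⟨y, kvPic_injective (K := K) (F := F) m hm ?_⟩
  rw [kvPic_red _ _ hm hj, hy, hY]

end Pic

variable (N D : ℕ) [NeZero N]

/-- the Hecke operators away from `D`, as a family of endomorphisms. -/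
abbrev TD (n : ℕ) : {l : ℕ // l.Prime ∧ ¬ l ∣ D} → AddMonoid.End (KV Kbar (FN N) n) :=
  fun l => heckeTtot N n l

variable {N D}

theorem TD_commute (hND : N ∣ D) (n : ℕ) (hn : n ≠ 0) (i j : {l : ℕ // l.Prime ∧ ¬ l ∣ D}) :
    Commute (TD N D n i) (TD N D n j) := by
  apply AddMonoidHom.ext
  intro x
  exact heckeTtot_comm N n hn i.2.1 j.2.1 (fun h => i.2.2 (h.trans hND))
    (fun h => j.2.2 (h.trans hND)) x

theorem TD_red {m m' : ℕ} (h : m ∣ m') (i : {l : ℕ // l.Prime ∧ ¬ l ∣ D})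
    (y : KV Kbar (FN N) m') : KV.red h (TD N D m' i y) = TD N D m i (KV.red h y) := by
  haveI : NeZero (i : ℕ) := ⟨i.2.1.ne_zero⟩
  show KV.red h (heckeTtot N m' i y) = heckeTtot N m i (KV.red h y)
  rw [heckeTtot_eq, heckeTtot_eq, heckeT_red]

/-- **(i)** `KV.red` maps the `θ`-part onto the `θ`-part. -/
theorem red_gen_onto (hND : N ∣ D) (m : ℕ) (hm : m ≠ 0) (p : ℕ) (hp : p.Prime) (j : ℕ)
    (a : {l : ℕ // l.Prime ∧ ¬ l ∣ D} → ℤ) {x : KV Kbar (FN N) m}
    (hx : x ∈ Tower.gen (TD N D m) a) :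
    ∃ y ∈ Tower.gen (TD N D (m * p ^ j)) a, KV.red (Dvd.intro (p ^ j) rfl) y = x := by
  have hmj : m * p ^ j ≠ 0 := mul_ne_zero hm (pow_ne_zero _ hp.ne_zero)
  haveI := finite_KV N m hm
  haveI := finite_KV N (m * p ^ j) hmj
  obtain ⟨y₀, hy₀⟩ := red_surjective' (K := Kbar) (F := FN N) m hm p hp j x
  exact exists_gen_preimage (TD N D m) (TD N D (m * p ^ j)) a (TD_commute hND _ hmj)
    (KV.red (Dvd.intro (p ^ j) rfl)) (fun i y => TD_red _ i y) hx y₀ hy₀

/-- divisibility inside the `θ`-part. -/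
theorem exists_nsmul_gen' (hND : N ∣ D) (n : ℕ) (hn : n ≠ 0) (d : ℕ)
    (a : {l : ℕ // l.Prime ∧ ¬ l ∣ D} → ℤ) {x : KV Kbar (FN N) n}
    (hx : x ∈ Tower.gen (TD N D n) a) (y₀ : KV Kbar (FN N) n) (hy₀ : d • y₀ = x) :
    ∃ y ∈ Tower.gen (TD N D n) a, d • y = x := by
  haveI := finite_KV N n hn
  exact exists_gen_preimage (TD N D n) (TD N D n) a (TD_commute hND _ hn) (nsmulAddMonoidHom d)
    (fun i z => (map_nsmul (TD N D n i) d z).symm) hx y₀ hy₀

/-- **(ii)** the kernel of `KV.red` (to exponent `p`) in the `θ`-part is `p` times the `θ`-part. -/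
theorem exists_nsmul_gen (hND : N ∣ D) (p : ℕ) (hp : p.Prime) (j : ℕ)
    (a : {l : ℕ // l.Prime ∧ ¬ l ∣ D} → ℤ) {x : KV Kbar (FN N) (p * p ^ j)}
    (hx : x ∈ Tower.gen (TD N D (p * p ^ j)) a) (h0 : KV.red (Dvd.intro (p ^ j) rfl) x = 0) :
    ∃ y ∈ Tower.gen (TD N D (p * p ^ j)) a, p • y = x := by
  obtain ⟨y₀, hy₀⟩ := exists_nsmul_of_red_eq_zero (K := Kbar) (F := FN N) p hp j x h0
  exact exists_nsmul_gen' hND _ (mul_ne_zero hp.ne_zero (pow_ne_zero _ hp.ne_zero)) p a hx y₀ hy₀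

/-- `KV.red` maps the `θ`-part into the `θ`-part. -/
theorem red_mem_gen {m m' : ℕ} (h : m ∣ m') (a : {l : ℕ // l.Prime ∧ ¬ l ∣ D} → ℤ)
    {y : KV Kbar (FN N) m'} (hy : y ∈ Tower.gen (TD N D m') a) :
    KV.red h y ∈ Tower.gen (TD N D m) a :=
  Tower.map_mem_gen (KV.red h) (fun i z => (TD_red h i z).symm) hy

end Fermat.Agent.S43.Size
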