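import Fermat.Agent.S43.Tower.Frob

/-!
# S43 / Size / TorsInj : `polY_inj`, `polI_inj` (Tower/Frob.lean) for modules killed by `p ^ e`

* `inj_of_inj_tors`  : an additive map which is injective on `W[p]` is injective on `W` (`W` killed by `p ^ e`);
* `polY_inj'`, `polI_inj'` : the Frobenius polynomials of Theorem Y are injective on a `Φ`-stable subgroup killed by `p ^ e` on which
  `Φ² - tΦ + s` is locally nilpotent (`s = 1`, `t² ≠ 4` mod `p`);
* `frob_inj'`, `frob_sub_one_inj'`, `opE_inj'`, `smul_inj'` : the same for the four factors.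
-/

set_option autoImplicit false

namespace Fermat.Agent.S43.Size

open Fermat.Agent.S43.Tower
open Fermat.Agent.S43.Ctrl (opE)

variable {X Y : Type*} [AddCommGroup X] [AddCommGroup Y]

/-- An additive map which is injective on the `p`-torsion of `W` is injective on `W`, if `W` is killed by `p ^ e`. -/
theorem inj_of_inj_tors (p e : ℕ) (f : X →+ Y) (W : AddSubgroup X) (hpe : ∀ x ∈ W, p ^ e • x = 0)
    (hinj : ∀ x ∈ W, p • x = 0 → f x = 0 → x = 0) (x : X) (hx : x ∈ W) (h0 : f x = 0) : x = 0 := by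
  have key : ∀ j : ℕ, ∀ y ∈ W, p ^ j • y = 0 → f y = 0 → y = 0 := by
    intro j
    induction j with
    | zero =>
      intro y _ h _
      simpa using h
    | succ j ih =>
      intro y hy h hf
      refine ih y hy (hinj _ (W.nsmul_mem hy _) ?_ ?_) hf
      · rw [smul_smul, ← pow_succ']
        exact h
      · rw [map_nsmul, hf, smul_zero]
  exact key e x hx (hpe x hx) h0

/-- the same for a function which is additive only through an equation `g = f`. -/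
theorem inj_of_inj_tors' (p e : ℕ) (g : X → Y) (hadd : ∀ x y, g (x + y) = g x + g y)
    (W : AddSubgroup X) (hpe : ∀ x ∈ W, p ^ e • x = 0)
    (hinj : ∀ x ∈ W, p • x = 0 → g x = 0 → x = 0) (x : X) (hx : x ∈ W) (h0 : g x = 0) : x = 0 :=
  inj_of_inj_tors p e (AddMonoidHom.mk' g hadd) W hpe hinj x hx h0

theorem opE_add (s : ℤ) (Φ : X →+ X) (x y : X) : opE s Φ (x + y) = opE s Φ x + opE s Φ y := by
  simp only [opE, map_add, smul_add]
  abel

theorem polY_add (s : ℤ) (Φ : X →+ X) (x y : X) : polY s Φ (x + y) = polY s Φ x + polY s Φ y := by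
  have h : Φ (x + y) - (x + y) = (Φ x - x) + (Φ y - y) := by
    rw [map_add]
    abel
  unfold polY
  rw [h, opE_add, opE_add, map_add, smul_add]

theorem polI_add (s : ℤ) (Φ : X →+ X) (x y : X) : polI s Φ (x + y) = polI s Φ x + polI s Φ y := by
  simp only [polI, opE_add, map_add, smul_add]

/-- the `p`-torsion of `W`. -/
def torsP (p : ℕ) (W : AddSubgroup X) : AddSubgroup X where
  carrier := {x | x ∈ W ∧ p • x = 0}
  zero_mem' := ⟨W.zero_mem, smul_zero _⟩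
  add_mem' := fun hx hy => ⟨W.add_mem hx.1 hy.1, by rw [smul_add, hx.2, hy.2, add_zero]⟩
  neg_mem' := fun hx => ⟨W.neg_mem hx.1, by rw [smul_neg, hx.2, neg_zero]⟩

theorem mem_torsP {p : ℕ} {W : AddSubgroup X} {x : X} : x ∈ torsP p W ↔ x ∈ W ∧ p • x = 0 := Iff.rfl

theorem map_mem_torsP {p : ℕ} {W : AddSubgroup X} (Φ : X →+ X) (hW : ∀ x ∈ W, Φ x ∈ W) (x : X)
    (hx : x ∈ torsP p W) : Φ x ∈ torsP p W :=
  ⟨hW x hx.1, by rw [← map_nsmul, hx.2, map_zero]⟩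

section

variable (p : ℕ) [Fact p.Prime] (e : ℕ) (t s : ℤ) (Φ : X →+ X) (W : AddSubgroup X)

/-- `polY_inj` for `p ^ e`-torsion modules. -/
theorem polY_inj' (hp : ∀ x ∈ W, p ^ e • x = 0) (hW : ∀ x ∈ W, Φ x ∈ W)
    (hq : ∀ x ∈ W, ∃ N : ℕ, (quad t s Φ ^ N) x = 0)
    (hs : (p : ℤ) ∣ s - 1) (ht : ¬ (p : ℤ) ∣ t ^ 2 - 4) (x : X) (hx : x ∈ W) (h0 : polY s Φ x = 0) :
    x = 0 :=
  inj_of_inj_tors' p e (polY s Φ) (polY_add s Φ) W hp
    (fun y hy hpy h => polY_inj p t s Φ (torsP p W) (fun _ hz => hz.2) (map_mem_torsP Φ hW)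
      (fun z hz => hq z hz.1) hs ht y ⟨hy, hpy⟩ h) x hx h0

/-- `polI_inj` for `p ^ e`-torsion modules. -/
theorem polI_inj' (hp : ∀ x ∈ W, p ^ e • x = 0) (hW : ∀ x ∈ W, Φ x ∈ W)
    (hq : ∀ x ∈ W, ∃ N : ℕ, (quad t s Φ ^ N) x = 0)
    (hs : (p : ℤ) ∣ s - 1) (ht : ¬ (p : ℤ) ∣ t ^ 2 - 4) (x : X) (hx : x ∈ W) (h0 : polI s Φ x = 0) :
    x = 0 :=
  inj_of_inj_tors' p e (polI s Φ) (polI_add s Φ) W hp
    (fun y hy hpy h => polI_inj p t s Φ (torsP p W) (fun _ hz => hz.2) (map_mem_torsP Φ hW)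
      (fun z hz => hq z hz.1) hs ht y ⟨hy, hpy⟩ h) x hx h0

/-- `Φ` is injective. -/
theorem frob_inj' (hp : ∀ x ∈ W, p ^ e • x = 0)
    (hq : ∀ x ∈ W, ∃ N : ℕ, (quad t s Φ ^ N) x = 0)
    (hs : (p : ℤ) ∣ s - 1) (ht : ¬ (p : ℤ) ∣ t ^ 2 - 4) (x : X) (hx : x ∈ W) (h0 : Φ x = 0) :
    x = 0 :=
  inj_of_inj_tors p e Φ W hp (fun y hy hpy h => inj_frob p t s Φ hs ht y hpy (hq y hy) h) x hx h0

/-- `Φ - 1` is injective. -/
theorem frob_sub_one_inj' (hp : ∀ x ∈ W, p ^ e • x = 0)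
    (hq : ∀ x ∈ W, ∃ N : ℕ, (quad t s Φ ^ N) x = 0)
    (hs : (p : ℤ) ∣ s - 1) (ht : ¬ (p : ℤ) ∣ t ^ 2 - 4) (x : X) (hx : x ∈ W) (h0 : Φ x - x = 0) :
    x = 0 :=
  inj_of_inj_tors p e (Φ - AddMonoidHom.id X) W hp
    (fun y hy hpy h => inj_frob_sub_one p t s Φ hs ht y hpy (hq y hy) h) x hx h0

/-- `Φ² - s²` is injective. -/
theorem opE_inj' (hp : ∀ x ∈ W, p ^ e • x = 0)
    (hq : ∀ x ∈ W, ∃ N : ℕ, (quad t s Φ ^ N) x = 0)
    (hs : (p : ℤ) ∣ s - 1) (ht : ¬ (p : ℤ) ∣ t ^ 2 - 4) (x : X) (hx : x ∈ W) (h0 : opE s Φ x = 0) :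
    x = 0 :=
  inj_of_inj_tors' p e (opE s Φ) (opE_add s Φ) W hp
    (fun y hy hpy h => inj_opE p t s Φ hs ht y hpy (hq y hy) h) x hx h0

omit [Fact p.Prime] in
/-- `s •` is injective. -/
theorem smul_inj' (hp : ∀ x ∈ W, p ^ e • x = 0) (hs : (p : ℤ) ∣ s - 1) (x : X) (hx : x ∈ W)
    (h0 : s • x = 0) : x = 0 :=
  inj_of_inj_tors' p e (fun y => s • y) (fun y z => smul_add s y z) W hp
    (fun y _ hpy h => inj_smul p s hs y hpy h) x hx h0

end

end Fermat.Agent.S43.Size
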