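import Fermat.Agent.S43.Tower.Theta
import Fermat.Agent.S43.Size.Step
import Fermat.Agent.S43.Size.TorsInj

/-!
# S43 / Size / HY1 : Theorem Y on the `θ`-parts, general eigensystem `a`

`ctrl_gen` : the general form of `Tower.ctrl_th`: the input is the nilpotence of `φ² - t φ + s` on the `θ`-parts at the levels
`L` and `L s s`.  `old_of_fixed` (surjectivity), `dlt_inj0`, `zOf_inj0` (injectivity).
-/

set_option autoImplicit false
set_option linter.unusedSectionVars false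
set_option linter.style.haveILetI false

noncomputable section

namespace Fermat.Agent.S43.Size

open AlgebraicCurve ModularCurve Fermat.Agent.S24 Fermat.Agent.GAL
  Fermat.Agent.S43.Ctrl Fermat.Agent.S43.Tower

/-- **Theorem Y on the `θ`-parts**, general form. -/
theorem ctrl_gen {p : ℕ} (L s n e D : ℕ) [NeZero L] [NeZero s] (hctrl : Ctrl.CtrlStatement)
    (hp : p.Prime) (hn : n = p ^ e) (hs : s.Prime) (hsL : ¬ s ∣ L) (hneat : 4 ∣ L ∨ 9 ∣ L)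
    (hsp : s ≠ p) (hD : L * s * p ∣ D) (a : ℕ → ℤ) (t : ℤ) (hs1 : (p : ℤ) ∣ (s : ℤ) - 1)
    (ht : ¬ (p : ℤ) ∣ t ^ 2 - 4) (A : ValuationSubring Kbar) (hA : A.LiesOverPrime s) (φ : GQ)
    (hφ : A.IsFrobeniusAt φ s)
    (hq : ∀ x ∈ th L n D a, ∃ M : ℕ, (Tower.quad t s (gal L n φ) ^ M) x = 0) :
    ((∀ x ∈ th (L * s * s) n D a, ∃ M : ℕ, (Tower.quad t s (gal (L * s * s) n φ) ^ M) x = 0) →
      ∀ x ∈ th (L * s * s) n D a, (∀ τ ∈ A.inertiaSubgroupIn ℚ, τ • x = x) →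
      ∃ y0 ∈ th L n D a, ∃ y1 ∈ th L n D a, ∃ y2 ∈ th L n D a, dlt L s n y0 y1 y2 = x) ∧
    (∀ y0 ∈ th L n D a, ∀ y1 ∈ th L n D a, ∀ y2 ∈ th L n D a, dlt L s n y0 y1 y2 = 0 →
      y0 = 0 ∧ y1 = 0 ∧ y2 = 0) := by
  subst hn
  haveI : Fact p.Prime := ⟨hp⟩
  obtain ⟨hmain, hinj⟩ := hctrl L s hs hsL hneat A hA p e hp hsp.symm φ hφ
  set n := p ^ e with hn
  have hI0 : ∀ x ∈ th L n D a, EI (s : ℤ) (frob n L φ) x = 0 → x = 0 := fun x hx h0 =>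
    polI_inj' p e t s (frob n L φ) (th L n D a) (fun x _ => KV.nsmul_eq_zero x)
      (fun x hx => smul_mem_th φ hx) hq hs1 ht x hx h0
  haveI : Finite (KV Kbar (FN (L * s * s)) n) :=
    S41.Dual.finite_KV (L * s * s) n (pow_ne_zero _ hp.ne_zero)
  set Φ : AddMonoid.End (KV Kbar (FN (L * s * s)) n) := frob n (L * s * s) φ with hΦ
  set Φ' : AddMonoid.End (KV Kbar (FN L) n) := frob n L φ with hΦ'
  set δ := del (d1 L s n) (ds L s n) (dss L s n) with hδ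
  have hinj' : ∀ y, δ y = 0 → tri (EI (s : ℤ) Φ') y = 0 := by
    intro y hy
    rw [hδ, del_apply, ← add_assoc] at hy
    obtain ⟨h0, h1, h2⟩ := hinj y.1 y.2.1 y.2.2 hy
    rw [tri_apply]
    exact Prod.ext h0 (Prod.ext h1 h2)
  have hI0' : ∀ y ∈ gen (fun i => tri (TT L n D i)) (fun ℓ : Idx D => a ℓ.1),
      tri (EI (s : ℤ) Φ') y = 0 → y = 0 := by
    intro y hy h
    obtain ⟨g0, g1, g2⟩ := mem_gen_tri.mp hy
    rw [tri_apply] at h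
    exact Prod.ext (hI0 _ g0 (congrArg Prod.fst h))
      (Prod.ext (hI0 _ g1 (congrArg (fun t => t.2.1) h)) (hI0 _ g2 (congrArg (fun t => t.2.2) h)))
  refine ⟨fun hq' x hx hxI => ?_, fun z0 h0 z1 h1 z2 h2 h => ?_⟩
  · have hY1 : ∀ x ∈ th (L * s * s) n D a, EY (s : ℤ) Φ x = 0 → x = 0 := fun x hx h0 =>
      polY_inj' p e t s Φ (th (L * s * s) n D a) (fun x _ => KV.nsmul_eq_zero x)
        (fun x hx => smul_mem_th φ hx) hq' hs1 ht x hx h0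
    have hI1 : ∀ x ∈ th (L * s * s) n D a, EI (s : ℤ) Φ x = 0 → x = 0 := fun x hx h0 =>
      polI_inj' p e t s Φ (th (L * s * s) n D a) (fun x _ => KV.nsmul_eq_zero x)
        (fun x hx => smul_mem_th φ hx) hq' hs1 ht x hx h0
    obtain ⟨y, hy, hxy⟩ := step_theta (T := TT (L * s * s) n D)
      (TY := fun i => tri (TT L n D i)) (a := fun ℓ : Idx D => a ℓ.1)
      (EY (s : ℤ) Φ) (EI (s : ℤ) Φ) (tri (EI (s : ℤ) Φ')) δ
      (fun i y => del_tri _ _ _ (TT_d1 hp.ne_zero hD i) (TT_ds hp.ne_zero hD i)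
        (TT_dss hp.ne_zero hD i) y)
      (fun y => del_tri _ _ _ (EI_intertwine _ _ (frob_d1 φ)) (EI_intertwine _ _ (frob_ds φ))
        (EI_intertwine _ _ (frob_dss φ)) y)
      (fun i => commute_EY (commute_TT_frob φ _ D i) _)
      (fun i => commute_EI (commute_TT_frob φ _ D i) _)
      (fun i => tri_commute (commute_EI (commute_TT_frob φ _ D i) _))
      (VI A (L * s * s) n)
      (fun x hx => EY_mem _ _ _ (fun _ h => frob_mem_VI hφ h) x hx)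
      (fun x hx => EI_mem _ _ _ (fun _ h => frob_mem_VI hφ h) x hx)
      (fun x hx => by
        obtain ⟨z0, z1, z2, hz⟩ := hmain x hx
        exact ⟨(z0, z1, z2), by rw [hδ, del_apply, ← add_assoc]; exact hz⟩)
      hinj' hY1 hI1 x hxI hx
    obtain ⟨g0, g1, g2⟩ := mem_gen_tri.mp hy
    refine ⟨y.1, g0, y.2.1, g1, y.2.2, g2, ?_⟩
    rw [hxy, hδ, del_apply, ← add_assoc]
    rfl
  · have hy : ((z0, z1, z2) : _ × _ × _) ∈
        gen (fun i => tri (TT L n D i)) (fun ℓ : Idx D => a ℓ.1) :=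
      mem_gen_tri.mpr ⟨h0, h1, h2⟩
    have h3 := step_inj (tri (EI (s : ℤ) Φ')) δ hinj' hI0' _ hy
      (by rw [hδ, del_apply, ← add_assoc]; exact h)
    exact ⟨congrArg Prod.fst h3, congrArg (fun t => t.2.1) h3, congrArg (fun t => t.2.2) h3⟩

/-- **(Y1)**: an inertia invariant element of the `θ`-part at the level `L s s` is old. -/
theorem old_of_fixed {p : ℕ} (L s n e D : ℕ) [NeZero L] [NeZero s] (hctrl : Ctrl.CtrlStatement)
    (hp : p.Prime) (hn : n = p ^ e) (hs : s.Prime) (hsL : ¬ s ∣ L) (hneat : 4 ∣ L ∨ 9 ∣ L)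
    (hsp : s ≠ p) (hD : L * s * p ∣ D) (a : ℕ → ℤ) (t : ℤ) (hs1 : (p : ℤ) ∣ (s : ℤ) - 1)
    (ht : ¬ (p : ℤ) ∣ t ^ 2 - 4) (A : ValuationSubring Kbar) (hA : A.LiesOverPrime s) (φ : GQ)
    (hφ : A.IsFrobeniusAt φ s)
    (hq : ∀ x ∈ th L n D a, ∃ M : ℕ, (Tower.quad t s (gal L n φ) ^ M) x = 0)
    (hq' : ∀ x ∈ th (L * s * s) n D a, ∃ M : ℕ, (Tower.quad t s (gal (L * s * s) n φ) ^ M) x = 0) :
    ∀ x ∈ th (L * s * s) n D a, (∀ τ ∈ A.inertiaSubgroupIn ℚ, τ • x = x) →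
      ∃ y0 ∈ th L n D a, ∃ y1 ∈ th L n D a, ∃ y2 ∈ th L n D a, dlt L s n y0 y1 y2 = x :=
  (ctrl_gen L s n e D hctrl hp hn hs hsL hneat hsp hD a t hs1 ht A hA φ hφ hq).1 hq'

/-- **(Y2)**: `δ` is injective on the `θ`-parts. -/
theorem dlt_inj0 {p : ℕ} (L s n e D : ℕ) [NeZero L] [NeZero s] (hctrl : Ctrl.CtrlStatement)
    (hp : p.Prime) (hn : n = p ^ e) (hs : s.Prime) (hsL : ¬ s ∣ L) (hneat : 4 ∣ L ∨ 9 ∣ L)
    (hsp : s ≠ p) (hD : L * s * p ∣ D) (a : ℕ → ℤ) (t : ℤ) (hs1 : (p : ℤ) ∣ (s : ℤ) - 1)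
    (ht : ¬ (p : ℤ) ∣ t ^ 2 - 4) (A : ValuationSubring Kbar) (hA : A.LiesOverPrime s) (φ : GQ)
    (hφ : A.IsFrobeniusAt φ s)
    (hq : ∀ x ∈ th L n D a, ∃ M : ℕ, (Tower.quad t s (gal L n φ) ^ M) x = 0) :
    ∀ y0 ∈ th L n D a, ∀ y1 ∈ th L n D a, ∀ y2 ∈ th L n D a, dlt L s n y0 y1 y2 = 0 →
      y0 = 0 ∧ y1 = 0 ∧ y2 = 0 :=
  (ctrl_gen L s n e D hctrl hp hn hs hsL hneat hsp hD a t hs1 ht A hA φ hφ hq).2

end Fermat.Agent.S43.Size
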