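import Fermat.Agent.S43.Size.Step
import Fermat.Agent.S43.Size.TorsInj
import Fermat.Agent.S43.Ctrl.Defs

set_option autoImplicit false
set_option linter.style.haveILetI false
set_option linter.unusedSectionVars false

/-!
# S43 / Size / HY23 : `dlt` is injective on `(th L n)³`, `zOf` is injective on `th L n` (`n = p ^ e`)

From `Ctrl.CtrlStatement` (second half) and `polI_inj'`.
-/

noncomputable section

namespace Fermat.Agent.S43.Size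

open AlgebraicCurve ModularCurve Fermat.Agent.S24 Fermat.Agent.GAL Fermat.Agent.GAL.Hecke
  Fermat.Agent.DR Fermat.Agent.DR.Hecke Fermat.Agent.S36 Fermat.Agent.S36.Hecke
  Fermat.Agent.S41.Dual Fermat.Agent.S43.Tower

theorem gal_eq_frob (N n : ℕ) (φ : GQ) : gal N n φ = Ctrl.frob n N φ := rfl

/-- the raw form: `dlt y0 y1 y2 = 0` kills every component which lies in the `θ`-part. -/
theorem dlt_inj_aux {p : ℕ} (L s n e D : ℕ) [NeZero L] [NeZero s] (hctrl : Ctrl.CtrlStatement)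
    (hp : p.Prime) (hn : n = p ^ e) (hs : s.Prime) (hsL : ¬ s ∣ L) (hneat : 4 ∣ L ∨ 9 ∣ L)
    (hsp : s ≠ p) (a : ℕ → ℤ) (t : ℤ) (hs1 : (p : ℤ) ∣ (s : ℤ) - 1) (ht : ¬ (p : ℤ) ∣ t ^ 2 - 4)
    (A : ValuationSubring Kbar) (hA : A.LiesOverPrime s) (φ : GQ) (hφ : A.IsFrobeniusAt φ s)
    (hq : ∀ x ∈ th L n D a, ∃ M : ℕ, (Tower.quad t s (gal L n φ) ^ M) x = 0)
    (y0 y1 y2 : KV Kbar (FN L) n) (h : dlt L s n y0 y1 y2 = 0) :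
    (y0 ∈ th L n D a → y0 = 0) ∧ (y1 ∈ th L n D a → y1 = 0) ∧ (y2 ∈ th L n D a → y2 = 0) := by
  subst hn
  haveI : Fact p.Prime := ⟨hp⟩
  obtain ⟨k0, k1, k2⟩ := (hctrl L s hs hsL hneat A hA p e hp (Ne.symm hsp) φ hφ).2 y0 y1 y2 h
  have key : ∀ y ∈ th L (p ^ e) D a, polI (s : ℤ) (Ctrl.frob (p ^ e) L φ) y = 0 → y = 0 :=
    fun y hy h0 => polI_inj' p e t (s : ℤ) (Ctrl.frob (p ^ e) L φ) (th L (p ^ e) D a)
      (fun x _ => KV.nsmul_eq_zero x) (fun x hx => smul_mem_th φ hx) hq hs1 ht y hy h0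
  exact ⟨fun h0 => key y0 h0 k0, fun h1 => key y1 h1 k1, fun h2 => key y2 h2 k2⟩

/-- (Y2) `δ` is injective on the `θ`-part. -/
theorem dlt_inj {p : ℕ} (L s n e D : ℕ) [NeZero L] [NeZero s] (hctrl : Ctrl.CtrlStatement)
    (hp : p.Prime) (hn : n = p ^ e) (hs : s.Prime) (hsL : ¬ s ∣ L) (hneat : 4 ∣ L ∨ 9 ∣ L)
    (hsp : s ≠ p) (a : ℕ → ℤ) (t : ℤ) (hs1 : (p : ℤ) ∣ (s : ℤ) - 1) (ht : ¬ (p : ℤ) ∣ t ^ 2 - 4)
    (A : ValuationSubring Kbar) (hA : A.LiesOverPrime s) (φ : GQ) (hφ : A.IsFrobeniusAt φ s)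
    (hq : ∀ x ∈ th L n D a, ∃ M : ℕ, (Tower.quad t s (gal L n φ) ^ M) x = 0) :
    ∀ y0 ∈ th L n D a, ∀ y1 ∈ th L n D a, ∀ y2 ∈ th L n D a,
      dlt L s n y0 y1 y2 = 0 → y0 = 0 ∧ y1 = 0 ∧ y2 = 0 := by
  intro y0 h0 y1 h1 y2 h2 h
  obtain ⟨k0, k1, k2⟩ := dlt_inj_aux L s n e D hctrl hp hn hs hsL hneat hsp a t hs1 ht A hA φ hφ hq
    y0 y1 y2 h
  exact ⟨k0 h0, k1 h1, k2 h2⟩

/-- (Y3) `δ j` is injective on the `θ`-part. -/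
theorem zOf_inj {p : ℕ} (L s n e D : ℕ) [NeZero L] [NeZero s] (hctrl : Ctrl.CtrlStatement)
    (hp : p.Prime) (hn : n = p ^ e) (hs : s.Prime) (hsL : ¬ s ∣ L) (hneat : 4 ∣ L ∨ 9 ∣ L)
    (hsp : s ≠ p) (a : ℕ → ℤ) (t : ℤ) (hs1 : (p : ℤ) ∣ (s : ℤ) - 1) (ht : ¬ (p : ℤ) ∣ t ^ 2 - 4)
    (A : ValuationSubring Kbar) (hA : A.LiesOverPrime s) (φ : GQ) (hφ : A.IsFrobeniusAt φ s)
    (hq : ∀ x ∈ th L n D a, ∃ M : ℕ, (Tower.quad t s (gal L n φ) ^ M) x = 0) :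
    ∀ x ∈ th L n D a, zOf L s n x = 0 → x = 0 := by
  intro x hx h
  rw [zOf_eq_dlt] at h
  exact (dlt_inj_aux L s n e D hctrl hp hn hs hsL hneat hsp a t hs1 ht A hA φ hφ hq _ _ _ h).2.2 hx

end Fermat.Agent.S43.Size
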