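import Mathlib

/-!
# S43 / Size / Naka : abstract Nakayama for subgroups of finite `p`-groups

`b : A → B`, subgroups `G ≤ A`, `H ≤ B` (the `θ`-parts at exponent `p^m`), reductions `redA : A → A1`, `redB : B → B1`
to the exponent `p`.  If `b1 : G1 → H1` is onto at the exponent `p`, `redA : G → G1` is onto, the kernel of `redB` on `H` is
`p H` and `p^m` kills `H`, then `b : G → H` is onto.
-/

set_option autoImplicit false

namespace Fermat.Agent.S43.Size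

variable {A B A1 B1 : Type*} [AddCommGroup A] [AddCommGroup B] [AddCommGroup A1] [AddCommGroup B1]

/-- the successive approximation. -/
theorem naka_approx (p : ℕ) (b : A →+ B) (b1 : A1 →+ B1) (redA : A →+ A1) (redB : B →+ B1)
    (G : AddSubgroup A) (H : AddSubgroup B) (G1 : AddSubgroup A1) (H1 : AddSubgroup B1)
    (hcomm : ∀ x, redB (b x) = b1 (redA x))
    (hbG : ∀ x ∈ G, b x ∈ H)
    (hredH : ∀ y ∈ H, redB y ∈ H1)
    (hsurj1 : ∀ y1 ∈ H1, ∃ x1 ∈ G1, b1 x1 = y1)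
    (hredG : ∀ x1 ∈ G1, ∃ x ∈ G, redA x = x1)
    (hker : ∀ y ∈ H, redB y = 0 → ∃ y' ∈ H, p • y' = y)
    (k : ℕ) (y : B) (hy : y ∈ H) : ∃ x ∈ G, ∃ y' ∈ H, y - b x = p ^ k • y' := by
  induction k with
  | zero => exact ⟨0, G.zero_mem, y, hy, by simp⟩
  | succ k ih =>
    obtain ⟨x, hx, y', hy', h⟩ := ih
    obtain ⟨x1, hx1, h1⟩ := hsurj1 _ (hredH y' hy')
    obtain ⟨x', hx', h2⟩ := hredG x1 hx1
    have h3 : redB (y' - b x') = 0 := by
      rw [map_sub, hcomm, h2, h1, sub_self]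
    obtain ⟨y'', hy'', h4⟩ := hker _ (H.sub_mem hy' (hbG x' hx')) h3
    refine ⟨x + p ^ k • x', G.add_mem hx (G.nsmul_mem hx' _), y'', hy'', ?_⟩
    rw [map_add, map_nsmul, pow_succ, mul_smul, h4, smul_sub, ← h]
    abel

/-- **Nakayama.** -/
theorem naka (p m : ℕ) (b : A →+ B) (b1 : A1 →+ B1) (redA : A →+ A1) (redB : B →+ B1)
    (G : AddSubgroup A) (H : AddSubgroup B) (G1 : AddSubgroup A1) (H1 : AddSubgroup B1)
    (hcomm : ∀ x, redB (b x) = b1 (redA x))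
    (hbG : ∀ x ∈ G, b x ∈ H)
    (hredH : ∀ y ∈ H, redB y ∈ H1)
    (hsurj1 : ∀ y1 ∈ H1, ∃ x1 ∈ G1, b1 x1 = y1)
    (hredG : ∀ x1 ∈ G1, ∃ x ∈ G, redA x = x1)
    (hker : ∀ y ∈ H, redB y = 0 → ∃ y' ∈ H, p • y' = y)
    (hpm : ∀ y ∈ H, p ^ m • y = 0)
    (y : B) (hy : y ∈ H) : ∃ x ∈ G, b x = y := by
  obtain ⟨x, hx, y', hy', h⟩ :=
    naka_approx p b b1 redA redB G H G1 H1 hcomm hbG hredH hsurj1 hredG hker m y hy
  refine ⟨x, hx, ?_⟩
  rw [hpm y' hy', sub_eq_zero] at h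
  exact h.symm

end Fermat.Agent.S43.Size
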