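import Mathlib

/-! # S43 / Size / PTors : injectivity on the `p`-torsion implies injectivity on a `p`-primary group -/

set_option autoImplicit false

namespace Fermat.Agent.S43.Size

theorem inj_of_inj_ptors {X : Type*} [AddCommGroup X] (p m : ℕ) (W : AddSubgroup X)
    (hW : ∀ x ∈ W, p ^ m • x = 0) (f : X → X) (hf : ∀ (k : ℕ) (x : X), f (k • x) = k • f x)
    (h : ∀ x ∈ W, p • x = 0 → f x = 0 → x = 0) : ∀ x ∈ W, f x = 0 → x = 0 := by
  intro x hx h0
  have key : ∀ j : ℕ, p ^ j • x = 0 → x = 0 := by
    intro j
    induction j with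
    | zero => intro h1; rwa [pow_zero, one_smul] at h1
    | succ j ih =>
      intro h1
      apply ih
      apply h _ (W.nsmul_mem hx _)
      · rw [smul_smul, ← pow_succ']; exact h1
      · rw [hf, h0, smul_zero]
  exact key m (hW x hx)

end Fermat.Agent.S43.Size
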