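import Fermat.Agent.S43.Size.StepDefs
import Fermat.Agent.S43.GMA.CH
import Fermat.Agent.S43.Tower.Defs
import Fermat.Agent.MR.Glue.BLRGal

/-!
# S43 / Size / Quad : Cayley-Hamilton on the `θ`-parts, with PRESCRIBED trace and determinant

`X` a non zero `FrobMod p a B X` (e.g. `E[p]`).  If `g² - c g + d = 0` on `X` and `g` acts on `μ_n` by `μ ↦ μ ^ d`, `n = p ^ e`, then
`g² - c g + d` is nilpotent on every element of `th N n D a`.

* `quad_nil`  : the general statement;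
* `quad_frob` : `g = φ` a Frobenius element at `s ∉ B`, `s ≠ p`: `c = a s`, `d = s`;
* `unip_ine`  : `g = τ` in an inertia group at `s ≠ p` acting trivially on `X`: `τ - 1` is nilpotent on every element of `th`.
-/

set_option autoImplicit false
set_option linter.unusedSectionVars false
set_option linter.unusedVariables false

noncomputable section

namespace Fermat.Agent.S43.Size

open AlgebraicCurve ModularCurve Fermat.Agent.S24 Fermat.Agent.GAL Fermat.Agent.MR.Glue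
  Fermat.Agent.S43.Tower Polynomial

section abs

variable {X : Type*} [AddCommGroup X]

/-- evaluation at `x`. -/
def evAt (x : X) : AddMonoid.End X →+ X where
  toFun E := E x
  map_zero' := rfl
  map_add' _ _ := rfl

theorem pow_apply_eq_zero_of_le (ν : AddMonoid.End X) (x : X) {K i : ℕ} (h : K ≤ i)
    (hν : (ν ^ K) x = 0) : (ν ^ i) x = 0 := by
  obtain ⟨j, rfl⟩ := Nat.exists_eq_add_of_le h
  rw [add_comm, pow_add]
  show (ν ^ j) ((ν ^ K) x) = 0
  rw [hν, map_zero]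

/-- the sum of an operator nilpotent at `x` and of a commuting nilpotent operator is nilpotent at `x`. -/
theorem add_pow_apply_eq_zero (ν κ : AddMonoid.End X) (h : Commute ν κ) (x : X) (K e : ℕ)
    (hν : (ν ^ K) x = 0) (hκ : κ ^ e = 0) : ((ν + κ) ^ (K + e)) x = 0 := by
  show evAt x ((ν + κ) ^ (K + e)) = 0
  rw [h.add_pow', map_sum]
  refine Finset.sum_eq_zero fun m hm => ?_
  rw [map_nsmul]
  have hm' : m.1 + m.2 = K + e := Finset.HasAntidiagonal.mem_antidiagonal.1 hm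
  by_cases hj : e ≤ m.2
  · rw [pow_eq_zero_of_le hj hκ, mul_zero, map_zero, smul_zero]
  · have hi : K ≤ m.1 := by omega
    rw [(h.pow_pow m.1 m.2).eq]
    have h1 : evAt x (κ ^ m.2 * ν ^ m.1) = (κ ^ m.2) ((ν ^ m.1) x) := rfl
    rw [h1, pow_apply_eq_zero_of_le ν x hi hν, map_zero, smul_zero]

/-- congruent multiples act in the same way on a group killed by `n`. -/
theorem nsmul_eq_of_modEq' {n a b : ℕ} (h : a ≡ b [MOD n]) (x : X) (hx : n • x = 0) :
    a • x = b • x := by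
  have h1 : (n : ℤ) ∣ (b : ℤ) - a := (Nat.modEq_iff_dvd.mp h)
  obtain ⟨c, hc⟩ := h1
  have h2 : ((b : ℤ) - a) • x = 0 := by
    rw [hc, mul_comm, mul_smul, natCast_zsmul, hx, smul_zero]
  rw [sub_smul, natCast_zsmul, natCast_zsmul, sub_eq_zero] at h2
  exact h2.symm

/-- an integer killing a non zero element of a group killed by the prime `p` is divisible by `p`. -/
theorem dvd_of_zsmul_eq_zero {p : ℕ} (hp : p.Prime) {y : X} (hy : y ≠ 0) (hpy : p • y = 0) {u : ℤ}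
    (hu : u • y = 0) : (p : ℤ) ∣ u := by
  by_contra hnd
  have hcop : IsCoprime (p : ℤ) u :=
    (Prime.coprime_iff_not_dvd (Nat.prime_iff_prime_int.1 hp)).2 hnd
  obtain ⟨α, β, hαβ⟩ := hcop
  apply hy
  have : ((α * p + β * u : ℤ)) • y = 0 := by
    rw [add_smul, mul_smul, mul_smul, natCast_zsmul, hpy, hu, smul_zero, smul_zero, add_zero]
  rwa [hαβ, one_smul] at this

end abs

variable {p : ℕ} {a : ℕ → ℤ} {B : Finset ℕ} {X : Type*} [AddCommGroup X] [DistribMulAction GQ X]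

/-- **Cayley-Hamilton on the `θ`-part with prescribed trace and determinant.** -/
theorem quad_nil (hp : p.Prime) (hX : FrobMod p a B X) (hX0 : ∃ y : X, y ≠ 0) (N n e D : ℕ)
    [NeZero N] (hn : n = p ^ e) (he : e ≠ 0) (hD0 : D ≠ 0) (g : GQ) (c : ℤ)
    (d : ℕ) (hgX : ∀ y : X, g • g • y - c • g • y + (d : ℤ) • y = 0)
    (hmu : ∀ μ : Kbar, μ ^ n = 1 → g μ = μ ^ d) :
    ∀ x ∈ th N n D a, ∃ M : ℕ, (quad c d (gal N n g) ^ M) x = 0 := by
  have : NeZero n := ⟨by rw [hn]; exact pow_ne_zero _ hp.ne_zero⟩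
  have hpn : p ∣ n := by rw [hn]; exact dvd_pow_self p he
  obtain ⟨ℓ, b, hℓ, hℓS, hℓB, hℓnm, hμ, hV, hE⟩ := CH.ch_common N n hX D.primeFactors g
  have hℓD : ¬ ℓ ∣ D := fun h => hℓS (Nat.mem_primeFactors.mpr ⟨hℓ, h, hD0⟩)
  -- `ℓ ^ b ≡ d (mod n)`
  have hmod : ℓ ^ b ≡ d [MOD n] := by
    have : NeZero (n : Kbar) := ⟨Nat.cast_ne_zero.2 (NeZero.ne n)⟩
    obtain ⟨ζ, hζ⟩ := HasEnoughRootsOfUnity.exists_primitiveRoot Kbar n
    have h1 : ζ ^ (ℓ ^ b) = ζ ^ d := by rw [← hμ ζ hζ.pow_eq_one, hmu ζ hζ.pow_eq_one]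
    have hζ0 : ζ ≠ 0 := hζ.ne_zero (NeZero.ne n)
    have h2 : ζ ^ ((d : ℤ) - ((ℓ ^ b : ℕ) : ℤ)) = 1 := by
      rw [zpow_sub₀ hζ0, zpow_natCast, zpow_natCast, h1, div_self (pow_ne_zero _ hζ0)]
    exact Nat.modEq_iff_dvd.mpr ((hζ.zpow_eq_one_iff_dvd _).mp h2)
  set c' : ℤ := (CH.luc ℓ b).eval (a ℓ) with hc'
  -- `p ∣ c' - c`
  have hdvd : (p : ℤ) ∣ c' - c := by
    obtain ⟨y, hy⟩ := hX0
    refine dvd_of_zsmul_eq_zero hp hy (hX.tors y) ?_
    have h1 := hE (g⁻¹ • y)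
    have h2 := hgX (g⁻¹ • y)
    have h3 : (ℓ ^ b) • (g⁻¹ • y) = d • (g⁻¹ • y) :=
      nsmul_eq_of_modEq' (hmod.of_dvd hpn) _ (hX.tors _)
    rw [h3, smul_inv_smul] at h1
    rw [smul_inv_smul, natCast_zsmul] at h2
    rw [sub_smul]
    calc c' • y - c • y = (g • y - c • y + d • g⁻¹ • y) - (g • y - c' • y + d • g⁻¹ • y) := by abel
      _ = 0 := by rw [h2, h1, sub_zero]
  intro x hx
  set ν : AddMonoid.End (KV Kbar (FN N) n) :=
    aeval (CH.tE N n ℓ) (CH.luc ℓ b) - (c' : AddMonoid.End (KV Kbar (FN N) n)) with hν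
  set κ : AddMonoid.End (KV Kbar (FN N) n) := ((c' - c : ℤ) : AddMonoid.End (KV Kbar (FN N) n))
    with hκ
  set Φ : AddMonoid.End (KV Kbar (FN N) n) := gal N n g with hΦ
  have hq : quad c d Φ = (ν + κ) * Φ := by
    apply AddMonoidHom.ext
    intro z
    have h1 := hV z
    have h2 : (ℓ ^ b) • z = d • z := nsmul_eq_of_modEq' hmod z (KV.nsmul_eq_zero z)
    rw [h2] at h1
    show g • g • z - c • g • z + ((d : ℕ) : ℤ) • z =
      aeval (CH.tE N n ℓ) (CH.luc ℓ b) (g • z) - c' • g • z + (c' - c) • g • z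
    rw [natCast_zsmul, sub_smul]
    have h3 : g • g • z + d • z = aeval (CH.tE N n ℓ) (CH.luc ℓ b) (g • z) := by
      rw [← sub_eq_zero, ← h1]; abel
    rw [← h3]; abel
  have hcν : Commute ν Φ := by
    have h1 : Commute (CH.gE N n g) (aeval (CH.tE N n ℓ) (CH.luc ℓ b)) :=
      CH.hk_gE (∅ : Finset ℕ) (CH.aeval_tE_mem_hk hℓ hℓnm (Finset.notMem_empty _) _) g
    exact (h1.symm).sub_left (Int.cast_commute c' _)
  have hc : Commute (ν + κ) Φ := hcν.add_left (Int.cast_commute _ _)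
  have hκe : κ ^ e = 0 := by
    obtain ⟨u, hu⟩ := hdvd
    apply AddMonoidHom.ext
    intro z
    rw [hκ, ← Int.cast_pow, hu, mul_pow]
    show ((p : ℤ) ^ e * u ^ e) • z = 0
    rw [mul_comm, mul_smul]
    have : ((p : ℤ) ^ e) • z = 0 := by
      have h0 := KV.nsmul_eq_zero z
      have h00 : ((p : ℤ) ^ e) = ((n : ℕ) : ℤ) := by rw [hn]; push_cast; rfl
      rw [h00, natCast_zsmul]
      exact h0
    rw [this, smul_zero]
  obtain ⟨K, hK⟩ := hx ⟨ℓ, hℓ, hℓD⟩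
  have h4 : (ν ^ K) x = 0 := by
    apply CH.trace_sub_pow_apply
    have h5 : CH.tE N n ℓ = TT N n D ⟨ℓ, hℓ, hℓD⟩ := by
      have : NeZero ℓ := ⟨hℓ.ne_zero⟩
      rw [CH.tE_eq]
      show _ = heckeTtot N n ℓ
      rw [heckeTtot_eq]
    rw [h5, ← zsmul_one]
    exact hK
  refine ⟨K + e, ?_⟩
  rw [hq, hc.mul_pow, (hc.pow_pow (K + e) (K + e)).eq]
  show (Φ ^ (K + e)) (((ν + κ) ^ (K + e)) x) = 0
  rw [add_pow_apply_eq_zero ν κ (Int.commute_cast _ _) x K e h4 hκe, map_zero]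

/-- **Frobenius elements.** -/
theorem quad_frob (hp : p.Prime) (hX : FrobMod p a B X) (hX0 : ∃ y : X, y ≠ 0) (N n e D : ℕ)
    [NeZero N] (hn : n = p ^ e) (he : e ≠ 0) (hD0 : D ≠ 0) {s : ℕ}
    (hs : s.Prime) (hsp : s ≠ p) (hsB : s ∉ B) (A : ValuationSubring Kbar) (hA : A.LiesOverPrime s)
    (φ : GQ) (hφ : A.IsFrobeniusAt φ s) :
    ∀ x ∈ th N n D a, ∃ M : ℕ, (quad (a s) s (gal N n φ) ^ M) x = 0 := by
  have hsn : ¬ s ∣ n := by
    rw [hn]
    exact fun h => hsp ((Nat.prime_dvd_prime_iff_eq hs hp).1 (hs.dvd_of_dvd_pow h))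
  exact quad_nil hp hX hX0 N n e D hn he hD0 φ (a s) s (hX.frob s hs hsB A hA φ hφ)
    (fun μ hμ => S31.frobenius_apply_root A hs hA hφ hsn hμ)

/-- **Inertia groups**: unipotent on the `θ`-part. -/
theorem unip_ine (hp : p.Prime) (hX : FrobMod p a B X) (hX0 : ∃ y : X, y ≠ 0) (N n e D : ℕ)
    [NeZero N] (hn : n = p ^ e) (he : e ≠ 0) (hD0 : D ≠ 0) {s : ℕ}
    (hs : s.Prime) (hsp : s ≠ p) (A : ValuationSubring Kbar) (hA : A.LiesOverPrime s)
    (hXA : ∀ τ ∈ A.inertiaSubgroupIn ℚ, ∀ y : X, τ • y = y)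
    (τ : GQ) (hτ : τ ∈ A.inertiaSubgroupIn ℚ) :
    ∀ x ∈ th N n D a, ∃ M : ℕ, (fun y => τ • y - y)^[M] x = 0 := by
  have hsn : ¬ s ∣ n := by
    rw [hn]
    exact fun h => hsp ((Nat.prime_dvd_prime_iff_eq hs hp).1 (hs.dvd_of_dvd_pow h))
  intro x hx
  obtain ⟨M, hM⟩ := quad_nil hp hX hX0 N n e D hn he hD0 τ 2 1
    (fun y => by
      rw [hXA τ hτ, hXA τ hτ, Nat.cast_one, one_smul, two_smul]
      abel)
    (fun μ hμ => by rw [pow_one]; exact S31.inertia_apply_root A hs hA hτ hsn hμ) x hx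
  refine ⟨2 * M, ?_⟩
  have h1 : quad 2 ((1 : ℕ) : ℤ) (gal N n τ) = (gal N n τ - 1) ^ 2 := by
    apply AddMonoidHom.ext
    intro z
    rw [sq]
    show τ • τ • z - (2 : ℤ) • τ • z + ((1 : ℕ) : ℤ) • z = τ • (τ • z - z) - (τ • z - z)
    rw [Nat.cast_one, one_smul, two_smul, smul_sub]
    abel
  rw [h1, ← pow_mul] at hM
  have h2 : ∀ (k : ℕ) (z : KV Kbar (FN N) n),
      (fun y => τ • y - y)^[k] z = ((gal N n τ - 1) ^ k) z := by
    intro k
    induction k with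
    | zero => intro z; rfl
    | succ k ih =>
      intro z
      rw [Function.iterate_succ_apply, ih, pow_succ]
      rfl
  rw [h2]
  exact hM

end Fermat.Agent.S43.Size
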