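import Mathlib

/-!
# S43 / Size / SigmaAbs : `(σ - 1)(σ^P - 1) = 0` from `σ^s + σ^{-s} = σ + σ^{-1}` (pure algebra)
-/

set_option autoImplicit false

namespace Fermat.Agent.S43.Size

/-- a geometric sum in `x ≡ 1` modulo nilpotents is a unit if its length is. -/
theorem isUnit_geom_sum {B : Type*} [CommRing B] {x : B} (hn : IsNilpotent (x - 1)) (n : ℕ)
    (hu : IsUnit ((n : ℕ) : B)) : IsUnit (∑ i ∈ Finset.range n, x ^ i) := by
  have h1 : ∀ i : ℕ, x ^ i - 1 ∈ nilradical B := by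
    intro i
    have h2 : x - 1 ∣ x ^ i - 1 := by
      have := sub_dvd_pow_sub_pow x 1 i
      rwa [one_pow] at this
    exact Ideal.mem_of_dvd _ h2 (mem_nilradical.2 hn)
  have h3 : (∑ i ∈ Finset.range n, x ^ i) = (n : B) + ∑ i ∈ Finset.range n, (x ^ i - 1) := by
    rw [Finset.sum_sub_distrib]
    simp
  rw [h3]
  exact IsNilpotent.isUnit_add_left_of_commute
    (mem_nilradical.1 (Ideal.sum_mem _ fun i _ => h1 i)) hu (Commute.all _ _)

/-- commutative form. -/
theorem sigma_comm {B : Type*} [CommRing B] {x : B} (hn : IsNilpotent (x - 1)) (s P c : ℕ)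
    (hs1 : IsUnit ((s + 1 : ℕ) : B)) (hc : IsUnit ((c : ℕ) : B))
    (h : (x ^ (s + 1) - 1) * (x ^ (P * c) - 1) = 0) : (x - 1) * (x ^ P - 1) = 0 := by
  have hnP : IsNilpotent (x ^ P - 1) := by
    have h2 : x - 1 ∣ x ^ P - 1 := by
      have := sub_dvd_pow_sub_pow x 1 P
      rwa [one_pow] at this
    exact mem_nilradical.1 (Ideal.mem_of_dvd _ h2 (mem_nilradical.2 hn))
  have e1 : x ^ (s + 1) - 1 = (∑ i ∈ Finset.range (s + 1), x ^ i) * (x - 1) :=
    (geom_sum_mul x (s + 1)).symm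
  have e2 : x ^ (P * c) - 1 = (∑ i ∈ Finset.range c, (x ^ P) ^ i) * (x ^ P - 1) := by
    rw [geom_sum_mul, pow_mul]
  obtain ⟨u1, hu1⟩ := isUnit_geom_sum hn (s + 1) hs1
  obtain ⟨u2, hu2⟩ := isUnit_geom_sum hnP c hc
  rw [e1, e2, ← hu1, ← hu2] at h
  have h3 : (u1 : B) * u2 * ((x - 1) * (x ^ P - 1)) = 0 := by
    rw [← h]; ring
  rw [← Units.val_mul] at h3
  exact (Units.mul_right_eq_zero _).1 h3

/-- **non commutative form**: `Σ` an element of any ring. -/
theorem sigma_ring {R : Type*} [Ring R] {x : R} (hn : IsNilpotent (x - 1)) (s P c : ℕ)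
    (hs1 : ∃ a : ℤ, ((a * ((s + 1 : ℕ) : ℤ) : ℤ) : R) = 1) (hc : ∃ a : ℤ, ((a * (c : ℤ) : ℤ) : R) = 1)
    (h : (x ^ (s + 1) - 1) * (x ^ (P * c) - 1) = 0) : (x - 1) * (x ^ P - 1) = 0 := by
  let f : Polynomial ℤ →+* R := (Polynomial.aeval x : Polynomial ℤ →ₐ[ℤ] R).toRingHom
  let B := Polynomial ℤ ⧸ RingHom.ker f
  let g : B →+* R := RingHom.kerLift f
  have hg : Function.Injective g := RingHom.kerLift_injective f
  let X' : B := Ideal.Quotient.mk _ Polynomial.X
  have hX : g X' = x := by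
    show f Polynomial.X = x
    simp [f]
  have hn' : IsNilpotent (X' - 1) := by
    obtain ⟨n, hn⟩ := hn
    refine ⟨n, hg ?_⟩
    rw [map_pow, map_sub, map_one, hX, hn, map_zero]
  have hunit : ∀ n : ℕ, (∃ a : ℤ, ((a * (n : ℤ) : ℤ) : R) = 1) → IsUnit ((n : ℕ) : B) := by
    rintro n ⟨a, ha⟩
    refine IsUnit.of_mul_eq_one (a : B) (hg ?_)
    rw [map_mul, map_natCast, map_intCast, map_one, ← ha]
    push_cast
    exact (Int.cast_commute a (n : R)).symm.eq ▸ rfl
  have key := sigma_comm hn' s P c (hunit _ hs1) (hunit _ hc) (hg (by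
    rw [map_mul, map_sub, map_sub, map_pow, map_pow, map_one, hX, h, map_zero]))
  have := congrArg g key
  rwa [map_mul, map_sub, map_sub, map_pow, map_one, hX, map_zero] at this

end Fermat.Agent.S43.Size
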