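import Fermat.Agent.S43.SizeAbs

/-!
# S43 / Size / StepAbs : "Theorem G" (SIZE) at FINITE exponents, abstract form

Three exponents `p^(2e+1) → p^(e+1) → p` (`P = p^e` the `p`-part of `s - 1`):
`X2 → X1 → X0` = `θ`-parts of `V_{p^K}(L s²)`, `Y2 → Y1 → Y0` = `θ`-parts of `V_{p^K}(L)³`, transition maps `KV.red`,
`δ` the three degeneracy maps, `δt` its transpose, `σ` a generator of tame inertia at `s`.

No divisible group, no `ker δt`, no `σ^P = 1` at the higher exponents: only `(σ - 1)(σ^P - 1) = 0` on `X2`.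

* `step_abs` : if `P • δt w = δt (δ z)` on `X2` then `N(σ) (red w) = δ (red z)` on `X0`.
* `step_abs_exists` : the same with the existence of `w` coming from the surjectivity of `δt`.
-/

set_option autoImplicit false

namespace Fermat.Agent.S43.Size.StepAbs

open Fermat.Agent.S43.SizeAbs

section lemmas

variable {X X' : Type*} [AddCommGroup X] [AddCommGroup X']

theorem iterate_map (f : X →+ X') (σ : X →+ X) (σ' : X' →+ X') (h : ∀ x, f (σ x) = σ' (f x))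
    (i : ℕ) (x : X) : f (σ^[i] x) = σ'^[i] (f x) := by
  induction i with
  | zero => rfl
  | succ i ih => rw [Function.iterate_succ_apply', Function.iterate_succ_apply', h, ih]

theorem normHom_map (f : X →+ X') (σ : X →+ X) (σ' : X' →+ X') (h : ∀ x, f (σ x) = σ' (f x))
    (P : ℕ) (x : X) : f (normHom σ P x) = normHom σ' P (f x) := by
  rw [SizeAbs.normHom_apply, SizeAbs.normHom_apply, map_sum]
  exact Finset.sum_congr rfl fun i _ => iterate_map f σ σ' h i x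

/-- `(σ - 1) N(σ) = σ^P - 1`. -/
theorem map_normHom_sub (σ : X →+ X) (P : ℕ) (x : X) :
    σ (normHom σ P x) - normHom σ P x = σ^[P] x - x := by
  rw [SizeAbs.normHom_apply, map_sum]
  have h : ∀ i, σ (σ^[i] x) = σ^[i + 1] x := fun i => (Function.iterate_succ_apply' σ i x).symm
  simp only [h]
  have e : ∑ i ∈ Finset.range P, σ^[i + 1] x + σ^[0] x
      = ∑ i ∈ Finset.range P, σ^[i] x + σ^[P] x :=
    (Finset.sum_range_succ' (fun i => σ^[i] x) P).symm.trans (Finset.sum_range_succ _ _)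
  rw [Function.iterate_zero, id] at e
  have e' : ∑ i ∈ Finset.range P, σ^[i + 1] x
      = ∑ i ∈ Finset.range P, σ^[i] x + σ^[P] x - x := eq_sub_of_add_eq e
  rw [e']
  abel

end lemmas

variable {X2 X1 X0 Y2 Y1 Y0 : Type*} [AddCommGroup X2] [AddCommGroup X1] [AddCommGroup X0]
  [AddCommGroup Y2] [AddCommGroup Y1] [AddCommGroup Y0]

/-- **Theorem G at finite exponents (abstract).** -/
theorem step_abs (P : ℕ)
    (rX21 : X2 →+ X1) (rX10 : X1 →+ X0) (rY21 : Y2 →+ Y1) (rY10 : Y1 →+ Y0)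
    (δ2 : Y2 →+ X2) (δ1 : Y1 →+ X1) (δ0 : Y0 →+ X0) (δt2 : X2 →+ Y2) (δt1 : X1 →+ Y1)
    (σ2 : X2 →+ X2) (σ1 : X1 →+ X1) (σ0 : X0 →+ X0)
    (hδ21 : ∀ y, rX21 (δ2 y) = δ1 (rY21 y)) (hδ10 : ∀ y, rX10 (δ1 y) = δ0 (rY10 y))
    (hδt21 : ∀ x, rY21 (δt2 x) = δt1 (rX21 x))
    (hσ21 : ∀ x, rX21 (σ2 x) = σ1 (rX21 x)) (hσ10 : ∀ x, rX10 (σ1 x) = σ0 (rX10 x))
    (hδtσ : ∀ x, δt2 (σ2 x) = δt2 x)
    (hσP : ∀ x, σ2 (σ2^[P] x - x) = σ2^[P] x - x)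
    (hY2 : ∀ x, σ2 x = x → ∃ y, δ2 y = x) (hY1 : ∀ x, σ1 x = x → ∃ y, δ1 y = x)
    (hK2 : ∀ y, δt2 (δ2 y) = 0 → P • y = 0) (hK1 : ∀ y, δt1 (δ1 y) = 0 → P • y = 0)
    (hr21 : ∀ y : Y2, P • y = 0 → rY21 y = 0) (hr10 : ∀ y : Y1, P • y = 0 → rY10 y = 0)
    (w : X2) (z : Y2) (hw : P • δt2 w = δt2 (δ2 z)) :
    normHom σ0 P (rX10 (rX21 w)) = δ0 (rY10 (rY21 z)) := by
  set v := normHom σ2 P w with hv
  have hd : σ2 v - v = σ2^[P] w - w := map_normHom_sub σ2 P w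
  -- (a) the reduction of `v` is fixed
  obtain ⟨y1, hy1⟩ := hY2 _ (hσP w)
  have h1 : δt2 (δ2 y1) = 0 := by
    rw [hy1, ← hd, map_sub, hδtσ, sub_self]
  have h2 : rX21 (σ2^[P] w - w) = 0 := by
    rw [← hy1, hδ21, hr21 y1 (hK2 y1 h1), map_zero]
  have h3 : σ1 (rX21 v) = rX21 v := by
    rw [← hσ21, ← sub_eq_zero, ← map_sub, hd, h2]
  -- (b)
  obtain ⟨y, hy⟩ := hY1 _ h3
  have h4 : δt1 (δ1 (y - rY21 z)) = 0 := by
    rw [map_sub, map_sub, hy, ← hδt21, hv, normHom_comp σ2 P δt2 hδtσ, hw, hδt21, hδ21, sub_self]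
  have h5 : rY10 y = rY10 (rY21 z) := by
    have := hr10 _ (hK1 _ h4)
    rwa [map_sub, sub_eq_zero] at this
  -- (c)
  rw [← normHom_map rX10 σ1 σ0 hσ10, ← normHom_map rX21 σ2 σ1 hσ21, ← hv, ← hy, hδ10, h5]

/-- **Theorem G at finite exponents (abstract)**, with `w` produced by the surjectivity of `δt`:
`Z2 → Z0` = `θ`-parts of `V_{p^K}(L)`, `j x = (s x, - T x, x)`, `c x = (m' u x, 0, 0)`. -/
theorem step_abs_exists {Z2 Z0 : Type*} [AddCommGroup Z2] [AddCommGroup Z0] (P : ℕ)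
    (rX21 : X2 →+ X1) (rX10 : X1 →+ X0) (rY21 : Y2 →+ Y1) (rY10 : Y1 →+ Y0)
    (δ2 : Y2 →+ X2) (δ1 : Y1 →+ X1) (δ0 : Y0 →+ X0) (δt2 : X2 →+ Y2) (δt1 : X1 →+ Y1)
    (σ2 : X2 →+ X2) (σ1 : X1 →+ X1) (σ0 : X0 →+ X0)
    (hδ21 : ∀ y, rX21 (δ2 y) = δ1 (rY21 y)) (hδ10 : ∀ y, rX10 (δ1 y) = δ0 (rY10 y))
    (hδt21 : ∀ x, rY21 (δt2 x) = δt1 (rX21 x))
    (hσ21 : ∀ x, rX21 (σ2 x) = σ1 (rX21 x)) (hσ10 : ∀ x, rX10 (σ1 x) = σ0 (rX10 x))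
    (hδtσ : ∀ x, δt2 (σ2 x) = δt2 x)
    (hσP : ∀ x, σ2 (σ2^[P] x - x) = σ2^[P] x - x)
    (hY2 : ∀ x, σ2 x = x → ∃ y, δ2 y = x) (hY1 : ∀ x, σ1 x = x → ∃ y, δ1 y = x)
    (hK2 : ∀ y, δt2 (δ2 y) = 0 → P • y = 0) (hK1 : ∀ y, δt1 (δ1 y) = 0 → P • y = 0)
    (hr21 : ∀ y : Y2, P • y = 0 → rY21 y = 0) (hr10 : ∀ y : Y1, P • y = 0 → rY10 y = 0)
    (rZ : Z2 →+ Z0) (hrZ : Function.Surjective rZ) (j2 c2 : Z2 →+ Y2) (j0 : Z0 →+ Y0)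
    (hj : ∀ x, rY10 (rY21 (j2 x)) = j0 (rZ x))
    (hc : ∀ x, δt2 (δ2 (j2 x)) = P • c2 x)
    (hsurj : Function.Surjective δt2) (x : Z0) :
    ∃ w : X0, normHom σ0 P w = δ0 (j0 x) := by
  obtain ⟨x2, rfl⟩ := hrZ x
  obtain ⟨w, hw⟩ := hsurj (c2 x2)
  refine ⟨rX10 (rX21 w), ?_⟩
  rw [← hj]
  exact step_abs P rX21 rX10 rY21 rY10 δ2 δ1 δ0 δt2 δt1 σ2 σ1 σ0 hδ21 hδ10 hδt21 hσ21 hσ10 hδtσ hσP
    hY2 hY1 hK2 hK1 hr21 hr10 w (j2 x2) (by rw [hw, hc])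

end Fermat.Agent.S43.Size.StepAbs
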