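import Fermat.Agent.S41.Dual.Abs

/-!
# S43 / Size / SurjAbs : abstract duality: the transpose of an injective map is onto (on generalised eigenspaces)

* `exists_annih`   : a proper subgroup `I < A₀` of a finite group with a pairing into `Kˣ` has a nonzero annihilator in `A₀`;
* `surj_genKer_of` : `a : A → B`, `b = aᵗ : B → A`, `a` injective on `genKer UA`  ⟹  `b : genKer UB → genKer UA` is onto.
-/

set_option autoImplicit false

namespace Fermat.Agent.S43.Size

open Fermat.Agent.S41.Dual

variable {ι A B : Type*} [AddCommGroup A] [AddCommGroup B]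

theorem exists_annih {K : Type*} [Field K] [IsAlgClosed K] [CharZero K] [Finite A]
    (e : A → A → Kˣ) (e_add_left : ∀ x y z, e (x + y) z = e x z * e y z)
    (e_add_right : ∀ x y z, e x (y + z) = e x y * e x z)
    (A₀ I : AddSubgroup A) (hI : I ≤ A₀) (hne : I ≠ A₀) :
    ∃ y ∈ A₀, y ≠ 0 ∧ ∀ i ∈ I, e i y = 1 := by
  by_contra hcon
  push Not at hcon
  apply hne
  let Φ : A₀ → (Multiplicative I →* Kˣ) := fun y =>
    { toFun := fun i => e ((Multiplicative.toAdd i : I) : A) (y : A)
      map_one' := e_zero_left e e_add_left _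
      map_mul' := fun i j => e_add_left _ _ _ }
  have hΦ : Function.Injective Φ := by
    intro y y' h
    by_contra hyy
    have h1 : ((y : A) - (y' : A)) ≠ 0 := fun h0 => hyy (Subtype.ext (sub_eq_zero.1 h0))
    obtain ⟨i, hi, hi1⟩ := hcon _ (A₀.sub_mem y.2 y'.2) h1
    apply hi1
    have h2 : e i (y : A) = e i (y' : A) := DFunLike.congr_fun h (Multiplicative.ofAdd (⟨i, hi⟩ : I))
    have h3 := e_add_right i ((y : A) - (y' : A)) (y' : A)
    rw [sub_add_cancel, h2] at h3
    exact (mul_eq_right.1 h3.symm)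
  haveI : NeZero (Monoid.exponent (Multiplicative I)) := ⟨Monoid.exponent_ne_zero_of_finite⟩
  have hcard : Nat.card (Multiplicative I →* Kˣ) = Nat.card (Multiplicative I) :=
    CommGroup.card_monoidHom_of_hasEnoughRootsOfUnity (Multiplicative I) K
  haveI : Finite (Multiplicative I →* Kˣ) :=
    Nat.finite_of_card_ne_zero (by rw [hcard]; exact Nat.card_pos.ne')
  have hle : Nat.card A₀ ≤ Nat.card I := by
    have := Nat.card_le_card_of_injective Φ hΦ
    rw [hcard] at this
    exact this
  exact AddSubgroup.eq_of_le_of_card_ge hI hle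

/-- **The transpose of an injective map is onto** (on the generalised eigenspaces). -/
theorem surj_genKer_of {K : Type*} [Field K] [IsAlgClosed K] [CharZero K] [Finite A] [Finite B]
    (UA : ι → A →+ A) (UB : ι → B →+ B)
    (hUB : ∀ i j x, UB i (UB j x) = UB j (UB i x))
    (a : A →+ B) (b : B →+ A) (hb : ∀ i x, b (UB i x) = UA i (b x))
    (eA : A → A → Kˣ) (eA_add_left : ∀ x y z, eA (x + y) z = eA x z * eA y z)
    (eA_add_right : ∀ x y z, eA x (y + z) = eA x y * eA x z)
    (eA_adj : ∀ i x y, eA (UA i x) y = eA x (UA i y))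
    (eB : B → B → Kˣ) (eB_nd : ∀ y, (∀ x, eB x y = 1) → y = 0)
    (adj : ∀ x y, eB x (a y) = eA (b x) y)
    (a_inj : ∀ y ∈ genKer UA, a y = 0 → y = 0)
    {x : A} (hx : x ∈ genKer UA) : ∃ y ∈ genKer UB, b y = x := by
  by_contra hcon
  have hIle : (genKer UB).map b ≤ genKer UA := by
    rintro _ ⟨w, hw, rfl⟩
    exact map_mem_genKer_of_comm UB UA b hb hw
  have hne : (genKer UB).map b ≠ genKer UA := by
    intro heq
    have hx' : x ∈ (genKer UB).map b := heq ▸ hx
    obtain ⟨w, hw, hwx⟩ := hx'
    exact hcon ⟨w, hw, hwx⟩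
  obtain ⟨y, hyA, hy0, hy⟩ := exists_annih eA eA_add_left eA_add_right (genKer UA)
    ((genKer UB).map b) hIle hne
  apply hy0
  apply a_inj y hyA
  apply eB_nd
  intro x'
  rw [adj]
  obtain ⟨s, hs⟩ := exists_finset_genKer UB
  obtain ⟨x₀, r, rfl, hx₀, hr⟩ := decomp_finset UB hUB s x'
  have h1 : eA (b x₀) y = 1 := hy _ ⟨x₀, hs x₀ hx₀, rfl⟩
  have hbit : ∀ (i : ι) (n : ℕ) (c : B), b ((UB i)^[n] c) = (UA i)^[n] (b c) := by
    intro i n
    induction n with
    | zero => intro c; rfl
    | succ n ih =>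
      intro c
      rw [Function.iterate_succ_apply, Function.iterate_succ_apply, ih, hb]
  have h2 : eA (b r) y = 1 := by
    induction hr using AddSubgroup.closure_induction with
    | mem z hz =>
      obtain ⟨i, -, hi⟩ := hz
      obtain ⟨n, hn⟩ := hyA i
      obtain ⟨c, rfl⟩ := hi n
      rw [hbit, e_iterate_adj eA (UA i) (eA_adj i), hn, e_zero_right eA eA_add_right]
    | zero =>
      rw [map_zero]
      exact e_zero_left eA eA_add_left y
    | add z w _ _ hz hw => rw [map_add, eA_add_left, hz, hw, one_mul]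
    | neg z _ hz =>
      have h3 := eA_add_left (b z) (-(b z)) y
      rw [add_neg_cancel, e_zero_left eA eA_add_left, hz, one_mul] at h3
      rw [map_neg]
      exact h3.symm
  rw [map_add, eA_add_left, h1, h2, one_mul]

end Fermat.Agent.S43.Size
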