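import Mathlib

/-!
# S43 / Size / TameComm : a tame generator commutes with Frobenius (no GMA, no Hensel, any coefficients)

`R` any ring (e.g. `AddMonoid.End X`, `X = V_{p^k}(L s²)_𝔪`), `σ, φ ∈ R` the images of a generator of tame inertia
and of a Frobenius at `s`, `t = σ + σ⁻¹`, `T = φ + s φ⁻¹` (Cayley-Hamilton for the two group elements `σ`, `φ`),
which commute with `σ`, `φ`.  If `φ σ = σ ^ s φ` (tame relation), `t - 2` and `s - 1` are nilpotent, `2` and
`φ² - s` are invertible, then `σ ^ s = σ` and `φ σ = σ φ`.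

PROOF.  `σ ^ n = a_n σ - a_{n-1}` with `a_n ∈ ℤ[t]` (Chebyshev), same for `ς = t - σ = σ⁻¹`; `ς ^ s = t - σ ^ s` by conjugation;
so `2 σ ^ s - t = a (2 σ - t)`, `a = a_s`; with `S = 2 σ - t`: `φ S = a S φ`, `φ² S = a² S φ²`, and `φ² = T φ - s` gives
`(a - 1) S ((a + 1) s - a T φ) = 0`; the last factor is `-(φ² - s) - (a - 1) φ²`, a unit.
-/

set_option autoImplicit false

namespace Fermat.Agent.S43.Size.TameComm

open Polynomial

/-- the Chebyshev-like polynomials `a_0 = 0, a_1 = 1, a_{n+2} = X a_{n+1} - a_n`. -/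
noncomputable def cheb : ℕ → ℤ[X]
  | 0 => 0
  | 1 => 1
  | (n + 2) => X * cheb (n + 1) - cheb n

theorem cheb_succ_succ (n : ℕ) : cheb (n + 2) = X * cheb (n + 1) - cheb n := by
  rw [cheb]

theorem eval_two_cheb (n : ℕ) : (cheb n).eval 2 = n ∧ (cheb (n + 1)).eval 2 = (n + 1 : ℕ) := by
  induction n with
  | zero => simp [cheb]
  | succ n ih =>
    refine ⟨ih.2, ?_⟩
    rw [cheb_succ_succ, eval_sub, eval_mul, eval_X, ih.1, ih.2]
    push_cast
    ring

theorem exists_cheb_eq (n : ℕ) : ∃ c : ℤ[X], cheb n = (n : ℤ[X]) + (X - 2) * c := by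
  have h : (X - C (2 : ℤ)) ∣ cheb n - (n : ℤ[X]) := by
    rw [dvd_iff_isRoot, IsRoot.def, eval_sub, (eval_two_cheb n).1]
    simp
  obtain ⟨c, hc⟩ := h
  refine ⟨c, ?_⟩
  have : (C (2 : ℤ) : ℤ[X]) = 2 := by simp
  rw [this] at hc
  linear_combination hc

variable {R : Type*} [Ring R]

theorem commute_aeval {t x : R} (h : Commute t x) (p : ℤ[X]) : Commute (aeval t p) x := by
  induction p using Polynomial.induction_on' with
  | add p q hp hq => rw [map_add]; exact hp.add_left hq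
  | monomial n a =>
    rw [aeval_monomial]
    exact Commute.mul_left (Algebra.commutes a x) (h.pow_left n)

/-- `σ ^ (n+1) = a_{n+1} σ - a_n`. -/
theorem pow_succ_eq {σ t : R} (hσ : σ * σ = t * σ - 1) (n : ℕ) :
    σ ^ (n + 1) = aeval t (cheb (n + 1)) * σ - aeval t (cheb n) := by
  induction n with
  | zero => simp [cheb]
  | succ n ih =>
    rw [pow_succ, ih, cheb_succ_succ, sub_mul, mul_assoc, hσ, map_sub, mul_comm X, map_mul, aeval_X]
    noncomm_ring

/-- **A tame generator commutes with Frobenius.** -/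
theorem tame_comm {σ φ t T : R} {s : ℕ} (hs0 : s ≠ 0)
    (ctσ : Commute t σ) (ctφ : Commute t φ) (cTσ : Commute T σ) (ctT : Commute t T)
    (hσ : σ * σ = t * σ - 1) (hφ : φ * φ = T * φ - (s : R)) (htame : φ * σ = σ ^ s * φ)
    (hφu : IsUnit φ) (h2 : IsUnit (2 : R)) (hU : IsUnit (φ * φ - (s : R)))
    (hw : IsNilpotent (t - 2)) (hs : IsNilpotent ((s : R) - 1)) :
    σ ^ s = σ ∧ φ * σ = σ * φ := by
  obtain ⟨m, hm⟩ := Nat.exists_eq_succ_of_ne_zero hs0
  rw [Nat.succ_eq_add_one] at hm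
  obtain ⟨s', hs'⟩ : ∃ s' : ℕ, s' = s := ⟨s, rfl⟩
  rw [← hs'] at hφ hU hs
  subst hm
  set a : R := aeval t (cheb (m + 1)) with ha
  set b : R := aeval t (cheb m) with hb
  have caσ : Commute a σ := commute_aeval ctσ _
  have caφ : Commute a φ := commute_aeval ctφ _
  have cat : Commute a t := commute_aeval (Commute.refl t) _
  -- the inverse of `σ`
  set ς : R := t - σ with hς
  have hσς : σ * ς = 1 := by
    rw [hς, mul_sub, hσ, ← ctσ.eq]; abel
  have hςσ : ς * σ = 1 := by
    rw [hς, sub_mul, hσ]; abel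
  have hςς : ς * ς = t * ς - 1 := by
    rw [hς, mul_sub, sub_mul, sub_mul, hσ, mul_sub, ← ctσ.eq]; abel
  have e1 : σ ^ (m + 1) = a * σ - b := pow_succ_eq hσ m
  have e2 : ς ^ (m + 1) = a * ς - b := pow_succ_eq hςς m
  -- `ς ^ s = t - σ ^ s`
  have e3 : (t - σ ^ (m + 1)) * σ ^ (m + 1) = 1 := by
    have : (t - σ ^ (m + 1)) * σ ^ (m + 1) * φ = 1 * φ := by
      rw [mul_assoc, ← htame, ← mul_assoc, sub_mul, ← htame, ctφ.eq, ← mul_sub, ← hς, mul_assoc, hςσ,
        mul_one, one_mul]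
    exact hφu.mul_right_cancel this
  have e4 : σ ^ (m + 1) * ς ^ (m + 1) = 1 := by
    have c : Commute σ ς := by rw [Commute, SemiconjBy, hσς, hςσ]
    rw [← c.mul_pow, hσς, one_pow]
  have e5 : ς ^ (m + 1) = t - σ ^ (m + 1) := by
    calc ς ^ (m + 1) = (t - σ ^ (m + 1)) * σ ^ (m + 1) * ς ^ (m + 1) := by rw [e3, one_mul]
      _ = t - σ ^ (m + 1) := by rw [mul_assoc, e4, mul_one]
  set S : R := 2 * σ - t with hS
  have e6 : 2 * σ ^ (m + 1) - t = a * S := by
    have : 2 * σ ^ (m + 1) - t = σ ^ (m + 1) - ς ^ (m + 1) := by rw [e5]; noncomm_ring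
    rw [this, e1, e2, hS, hς]; noncomm_ring
  have e7 : φ * S = a * S * φ := by
    rw [← e6, hS, mul_sub, sub_mul, mul_assoc 2, ← htame, ctφ.eq]; noncomm_ring
  have caT : Commute a T := commute_aeval ctT _
  have caS : Commute a S := by
    rw [hS]
    exact ((Commute.ofNat_right a 2).mul_right caσ).sub_right cat
  have cTS : Commute T S := by
    rw [hS]
    exact ((Commute.ofNat_right T 2).mul_right cTσ).sub_right ctT.symm
  set Q : R := φ * φ with hQ
  have e8 : Q * S = a * a * (S * Q) := by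
    calc Q * S = φ * (φ * S) := by rw [hQ, mul_assoc]
      _ = φ * a * S * φ := by rw [e7]; noncomm_ring
      _ = a * (φ * S) * φ := by rw [← caφ.eq]; noncomm_ring
      _ = a * a * (S * Q) := by rw [e7, hQ]; noncomm_ring
  have hTφ : T * φ = Q + (s' : R) := by rw [hφ]; abel
  have e9 : Q * S = a * (S * Q) + a * S * (s' : R) - (s' : R) * S := by
    calc Q * S = T * (φ * S) - (s' : R) * S := by rw [hφ]; noncomm_ring
      _ = T * a * S * φ - (s' : R) * S := by rw [e7]; noncomm_ring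
      _ = a * (T * S) * φ - (s' : R) * S := by rw [← caT.eq]; noncomm_ring
      _ = a * S * (T * φ) - (s' : R) * S := by rw [cTS.eq]; noncomm_ring
      _ = a * (S * Q) + a * S * (s' : R) - (s' : R) * S := by rw [hTφ]; noncomm_ring
  have e10 : (a - 1) * S * (a * Q - (s' : R)) = 0 := by
    have h1 : (a - 1) * S * (a * Q - (s' : R))
        = a * (S * a) * Q - S * a * Q - a * S * (s' : R) + S * (s' : R) := by noncomm_ring
    rw [h1, ← caS.eq, (Nat.cast_commute s' S).symm.eq]
    have h2 : a * (a * S) * Q = a * (S * Q) + a * S * (s' : R) - (s' : R) * S := by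
      rw [← e9, e8]; noncomm_ring
    rw [h2]; noncomm_ring
  -- `a - 1` is nilpotent
  have hnil : IsNilpotent (a - 1) := by
    obtain ⟨c, hc⟩ := exists_cheb_eq (m + 1)
    have h1 : a - 1 = ((s' : R) - 1) + (t - 2) * aeval t c := by
      have h2' : aeval t (2 : ℤ[X]) = (2 : R) := map_ofNat (aeval t) 2
      rw [ha, hc, map_add, map_mul, map_sub, aeval_X, map_natCast, hs', h2']
      abel
    rw [h1]
    have c1 : Commute (t - 2) (aeval t c) :=
      ((commute_aeval (Commute.refl t) c).symm).sub_left (Commute.ofNat_left 2 _)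
    refine Commute.isNilpotent_add ?_ hs (c1.isNilpotent_mul_right hw)
    exact ((Nat.cast_commute s' _).sub_left (Commute.one_left _))
  have caQ : Commute (a - 1) Q := by
    rw [hQ]
    exact (caφ.mul_right caφ).sub_left (Commute.one_left _)
  have hunit : IsUnit (a * Q - (s' : R)) := by
    have h1 : a * Q - (s' : R) = (Q - (s' : R)) + (a - 1) * Q := by noncomm_ring
    rw [h1]
    refine IsNilpotent.isUnit_add_left_of_commute (caQ.isNilpotent_mul_right hnil) hU ?_
    have c2 : Commute ((a - 1) * Q) Q := caQ.mul_left (Commute.refl Q)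
    exact c2.sub_right (Nat.cast_commute s' _).symm
  have e11 : (a - 1) * S = 0 := by
    obtain ⟨u, hu⟩ := hunit
    have := congrArg (· * (↑u⁻¹ : R)) e10
    simpa [← hu, mul_assoc] using this
  have e12 : a * S = S := by
    have : a * S = (a - 1) * S + S := by noncomm_ring
    rw [this, e11, zero_add]
  have e13 : σ ^ (m + 1) = σ := by
    have h1 : (2 : R) * σ ^ (m + 1) = 2 * σ := by
      have := e6
      rw [e12, hS] at this
      exact sub_left_injective this
    exact h2.mul_left_cancel h1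
  exact ⟨e13, by rw [htame, e13]⟩

/-- `φ² - s` is a unit as soon as the discriminant `T² - 4 s` and `s` are. -/
theorem isUnit_sq_sub {φ T : R} {s : ℕ} (cTφ : Commute T φ) (hφ : φ * φ = T * φ - (s : R))
    (hD : IsUnit (T * T - 4 * (s : R))) (hs : IsUnit (s : R)) : IsUnit (φ * φ - (s : R)) := by
  have h1 : (2 * φ - T) * (2 * φ - T) = T * T - 4 * (s : R) := by
    have e : (2 * φ - T) * (2 * φ - T) = 4 * (φ * φ) - 2 * (φ * T) - 2 * (T * φ) + T * T := by
      noncomm_ring
    rw [e, hφ, ← cTφ.eq]; noncomm_ring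
  have u1 : IsUnit (2 * φ - T) := by
    rw [← h1] at hD
    exact ((Commute.refl (2 * φ - T)).isUnit_mul_iff.1 hD).1
  have h2 : φ * (T - φ) = (s : R) := by
    rw [mul_sub, hφ, ← cTφ.eq]; abel
  have u2 : IsUnit φ := by
    rw [← h2] at hs
    exact ((cTφ.symm.sub_right (Commute.refl φ)).isUnit_mul_iff.1 hs).1
  have h3 : φ * φ - (s : R) = φ * (2 * φ - T) := by
    rw [← h2]; noncomm_ring
  rw [h3]
  exact u2.mul u1

/-- `σ ^ (s - 1) = 1`. -/
theorem pow_pred_eq_one {σ t : R} {s : ℕ} (hs0 : s ≠ 0) (ctσ : Commute t σ)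
    (hσ : σ * σ = t * σ - 1) (h : σ ^ s = σ) : σ ^ (s - 1) = 1 := by
  obtain ⟨m, rfl⟩ := Nat.exists_eq_succ_of_ne_zero hs0
  have hσς : σ * (t - σ) = 1 := by
    rw [mul_sub, hσ, ← ctσ.eq]; abel
  have h1 : σ ^ m * σ * (t - σ) = σ * (t - σ) := by rw [← pow_succ, h]
  rw [mul_assoc, hσς, mul_one] at h1
  simpa using h1

/-- `σ ^ P = 1` for the `p`-part `P` of `s - 1`. -/
theorem pow_eq_one_of_gcd {σ : R} {a b P : ℕ} (ha : σ ^ a = 1) (hb : σ ^ b = 1)
    (hP : a.gcd b ∣ P) : σ ^ P = 1 :=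
  orderOf_dvd_iff_pow_eq_one.1 ((Nat.dvd_gcd (orderOf_dvd_of_pow_eq_one ha)
    (orderOf_dvd_of_pow_eq_one hb)).trans hP)

/-- **Pointwise version** on an abelian group `X` (all operators additive endomorphisms). -/
theorem tame_comm_add {X : Type*} [AddCommGroup X] (σ φ t T : X →+ X) {s : ℕ} (hs0 : s ≠ 0)
    (ctσ : ∀ x, t (σ x) = σ (t x)) (ctφ : ∀ x, t (φ x) = φ (t x)) (cTσ : ∀ x, T (σ x) = σ (T x))
    (ctT : ∀ x, t (T x) = T (t x))
    (hσ : ∀ x, σ (σ x) = t (σ x) - x) (hφ : ∀ x, φ (φ x) = T (φ x) - s • x)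
    (htame : ∀ x, φ (σ x) = σ^[s] (φ x))
    (hφu : Function.Bijective φ) (h2 : Function.Bijective fun x : X => (2 : ℕ) • x)
    (hU : Function.Bijective fun x : X => φ (φ x) - s • x)
    (hw : ∃ n : ℕ, ∀ x, (fun y => t y - (2 : ℕ) • y)^[n] x = 0)
    (hs : ∃ n : ℕ, ∀ x : X, ((s : ℤ) - 1) ^ n • x = 0) :
    (∀ x, σ^[s] x = σ x) ∧ (∀ x, φ (σ x) = σ (φ x)) ∧ ∀ x, σ^[s - 1] x = x := by
  set σ' : Module.End ℤ X := σ.toIntLinearMap with hσ'
  set φ' : Module.End ℤ X := φ.toIntLinearMap with hφ'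
  set t' : Module.End ℤ X := t.toIntLinearMap with ht'
  set T' : Module.End ℤ X := T.toIntLinearMap with hT'
  have nat_apply : ∀ (n : ℕ) (x : X), ((n : Module.End ℤ X)) x = n • x := fun n x => by
    rw [Module.End.natCast_apply]
  have two_apply : ∀ x : X, (2 : Module.End ℤ X) x = (2 : ℕ) • x := fun x => by
    have : (2 : Module.End ℤ X) = ((2 : ℕ) : Module.End ℤ X) := by norm_cast
    rw [this, nat_apply]
  have pow_apply : ∀ (n : ℕ) (x : X), (σ' ^ n) x = σ^[n] x := fun n x => by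
    rw [Module.End.pow_apply]; rfl
  have Hσ : σ' * σ' = t' * σ' - 1 := LinearMap.ext fun x => hσ x
  have key := tame_comm (R := Module.End ℤ X) (σ := σ') (φ := φ') (t := t') (T := T') (s := s) hs0
    (LinearMap.ext fun x => ctσ x) (LinearMap.ext fun x => ctφ x) (LinearMap.ext fun x => cTσ x)
    (LinearMap.ext fun x => ctT x) Hσ
    (LinearMap.ext fun x => by
      change φ (φ x) = T (φ x) - (s : Module.End ℤ X) x
      rw [nat_apply, hφ])
    (LinearMap.ext fun x => by
      change φ (σ x) = (σ' ^ s) (φ x)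
      rw [pow_apply, htame])
    ((Module.End.isUnit_iff _).2 hφu)
    ((Module.End.isUnit_iff _).2 (by
      convert h2 using 1
      funext x
      exact two_apply x))
    ((Module.End.isUnit_iff _).2 (by
      convert hU using 1
      funext x
      change φ (φ x) - (s : Module.End ℤ X) x = _
      rw [nat_apply]))
    (by
      obtain ⟨n, hn⟩ := hw
      refine ⟨n, LinearMap.ext fun x => ?_⟩
      rw [Module.End.pow_apply]
      have : (⇑(t' - 2 : Module.End ℤ X)) = fun y => t y - (2 : ℕ) • y := by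
        funext y
        change t y - (2 : Module.End ℤ X) y = _
        rw [two_apply]
      rw [this, hn]
      rfl)
    (by
      obtain ⟨n, hn⟩ := hs
      refine ⟨n, LinearMap.ext fun x => ?_⟩
      have : ((s : Module.End ℤ X) - 1) = (((s : ℤ) - 1 : ℤ) : Module.End ℤ X) := by push_cast; rfl
      rw [this, ← Int.cast_pow, Module.End.intCast_apply, hn]
      rfl)
  refine ⟨fun x => ?_, fun x => ?_, fun x => ?_⟩
  · rw [← pow_apply, key.1]; rfl
  · exact LinearMap.congr_fun key.2 x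
  · rw [← pow_apply, pow_pred_eq_one hs0 (LinearMap.ext fun x => ctσ x) Hσ key.1]; rfl

end Fermat.Agent.S43.Size.TameComm
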