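import Fermat.Agent.S43.Size.Step
import Fermat.Agent.S43.Tower.Conc

/-!
# S43 / Size / ToTower : from the `th`-form of Theorem G (one prime) to `Tower.SizeAt`   (glue G5)

* `genKV_eq_th`  : `Tower.genKV n p S a = Size.th n p D a` as soon as `ℓ ∣ D ↔ ℓ ∈ S` for all primes `ℓ`;
* `bigD S m`     : `m * ∏_{ℓ ∈ S prime} ℓ`; `bigD_ne_zero`, `dvd_bigD`, `prime_dvd_bigD_iff`;
* `genKV_eq_th_bigD` : `Tower.genKV n p S a = th n p (bigD S m) a` if the primes of `m ≠ 0` are in `S`;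
* `sizeAt_of_th` : the `th`-form of Theorem G (all `L`, all `D`) implies `Tower.SizeAt p S a s σ P`.
-/

set_option autoImplicit false
set_option linter.unusedSectionVars false

noncomputable section

namespace Fermat.Agent.S43.Size

open AlgebraicCurve ModularCurve Fermat.Agent.S24 Fermat.Agent.GAL Fermat.Agent.GAL.Hecke

theorem genKV_eq_th (n p : ℕ) [NeZero n] (S : Finset ℕ) (D : ℕ) (a : ℕ → ℤ)
    (h : ∀ ℓ : ℕ, ℓ.Prime → (ℓ ∣ D ↔ ℓ ∈ S)) : Tower.genKV n p S a = th n p D a := by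
  ext x
  constructor
  · intro hx ℓ
    exact hx ⟨ℓ.1, ℓ.2.1, fun h' => ℓ.2.2 ((h ℓ.1 ℓ.2.1).2 h')⟩
  · intro hx ℓ
    exact hx ⟨ℓ.1, ℓ.2.1, fun h' => ℓ.2.2 ((h ℓ.1 ℓ.2.1).1 h')⟩

/-- an integer divisible by `m` whose prime divisors are those of `m` and the primes in `S`. -/
def bigD (S : Finset ℕ) (m : ℕ) : ℕ := m * ∏ ℓ ∈ S.filter Nat.Prime, ℓ

theorem bigD_ne_zero (S : Finset ℕ) {m : ℕ} (hm : m ≠ 0) : bigD S m ≠ 0 :=
  mul_ne_zero hm (Finset.prod_ne_zero_iff.2 fun ℓ hℓ => (Finset.mem_filter.1 hℓ).2.ne_zero)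

theorem dvd_bigD (S : Finset ℕ) (m : ℕ) : m ∣ bigD S m := Dvd.intro _ rfl

theorem prime_dvd_bigD_iff (S : Finset ℕ) {m : ℕ} (hS : ∀ r : ℕ, r.Prime → r ∣ m → r ∈ S) {ℓ : ℕ}
    (hℓ : ℓ.Prime) : ℓ ∣ bigD S m ↔ ℓ ∈ S := by
  constructor
  · intro h
    rcases hℓ.dvd_mul.1 h with h | h
    · exact hS ℓ hℓ h
    · obtain ⟨r, hr, hd⟩ := (Prime.dvd_finset_prod_iff (Nat.prime_iff.1 hℓ) _).1 h
      have hr' := Finset.mem_filter.1 hr
      rw [(Nat.prime_dvd_prime_iff_eq hℓ hr'.2).1 hd]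
      exact hr'.1
  · intro h
    exact (Finset.dvd_prod_of_mem (fun ℓ => ℓ) (Finset.mem_filter.2 ⟨h, hℓ⟩)).mul_left m

theorem genKV_eq_th_bigD (n p : ℕ) [NeZero n] (S : Finset ℕ) (m : ℕ) (a : ℕ → ℤ)
    (hS : ∀ r : ℕ, r.Prime → r ∣ m → r ∈ S) : Tower.genKV n p S a = th n p (bigD S m) a :=
  genKV_eq_th n p S _ a fun _ hℓ => prime_dvd_bigD_iff S hS hℓ

/-- **glue G5**: the `th`-form of Theorem G implies `Tower.SizeAt`. -/
theorem sizeAt_of_th {p s : ℕ} [NeZero s] (hp : p.Prime) (hs : s.Prime) (S : Finset ℕ) (hpS : p ∈ S)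
    (a : ℕ → ℤ) (σ : GQ) (P : ℕ)
    (h : ∀ (L D : ℕ) [NeZero L], ¬ s ∣ L → 4 ∣ L → D ≠ 0 → L * s * p ∣ D →
      ∀ x ∈ th L p D a, ∃ w ∈ th (L * s * s) p D a, nrm (L * s * s) p σ P w = zOf L s p x) :
    Tower.SizeAt p S a s σ P := by
  intro L _ hsL h4 hS z hz
  have hL0 : L ≠ 0 := NeZero.ne L
  have hm : L * s * p ≠ 0 := mul_ne_zero (mul_ne_zero hL0 hs.ne_zero) hp.ne_zero
  have hS' : ∀ r : ℕ, r.Prime → r ∣ L * s * p → r ∈ S := by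
    intro r hr hd
    rcases hr.dvd_mul.1 hd with hd | hd
    · exact hS r hr (hd.mul_right s)
    · rw [(Nat.prime_dvd_prime_iff_eq hr hp).1 hd]
      exact hpS
  rw [genKV_eq_th_bigD L p S (L * s * p) a hS'] at hz
  obtain ⟨w, hw, hwz⟩ := h L (bigD S (L * s * p)) hsL h4 (bigD_ne_zero S hm) (dvd_bigD S _) z hz
  refine ⟨w, ?_, hwz⟩
  rw [genKV_eq_th_bigD (L * s * s) p S (L * s * p) a hS']
  exact hw

end Fermat.Agent.S43.Size
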